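import Mathlib
import Fermat.Prelude.Def_ModularCurve_GenusNumerics

/-!
# S20 packages B2, B3: fixed points of `S` and `S * T` on `SL(2,ℤ) ⧸ Γ₀(N)`

For `e : ℤ` let `M_e = [[0,-1],[1,e]]` (`S = M_0`, `S * T = M_1`).  The coset `g Γ₀(N)` with
first column `(a, c)` is fixed by `M_e` iff `a² + e a c + c² ≡ 0 mod N`; then `c` is a unit mod `N`
and `x = a / c` is a root of `x² + e x + 1`.  Conversely the root `x` gives the coset of
`[[x,-1],[1,0]]`.
-/

set_option autoImplicit false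

open Matrix Matrix.SpecialLinearGroup CongruenceSubgroup ModularGroup
open scoped MatrixGroups

namespace Fermat.Agent.S20

/-- The matrix `[[0,-1],[1,e]]`. -/
def ellMat (e : ℤ) : SL(2, ℤ) := ⟨!![0, -1; 1, e], by simp [Matrix.det_fin_two_of]⟩

/-- The matrix `[[x,-1],[1,0]]`, with first column `(x, 1)`. -/
def repMat (x : ℤ) : SL(2, ℤ) := ⟨!![x, -1; 1, 0], by simp [Matrix.det_fin_two_of]⟩

theorem ellMat_zero : ellMat 0 = ModularGroup.S := rfl

theorem ellMat_one : ellMat 1 = ModularGroup.S * ModularGroup.T := by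
  ext i j
  fin_cases i <;> fin_cases j <;>
    simp [ellMat, ModularGroup.S, ModularGroup.T, Matrix.mul_apply, Fin.sum_univ_two]

/-- Lower-left entry of `g⁻¹ * h`. -/
theorem lowerLeft_inv_mul (g h : SL(2, ℤ)) :
    (g⁻¹ * h : SL(2, ℤ)) 1 0 = -(g 1 0) * h 0 0 + g 0 0 * h 1 0 := by
  rw [Matrix.SpecialLinearGroup.SL2_inv_expl]
  simp [Matrix.mul_apply, Fin.sum_univ_two]

theorem ellMat_mul_apply_zero_zero (e : ℤ) (g : SL(2, ℤ)) :
    (ellMat e * g : SL(2, ℤ)) 0 0 = -(g 1 0) := by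
  simp [ellMat, Matrix.mul_apply, Fin.sum_univ_two]

theorem ellMat_mul_apply_one_zero (e : ℤ) (g : SL(2, ℤ)) :
    (ellMat e * g : SL(2, ℤ)) 1 0 = g 0 0 + e * g 1 0 := by
  simp [ellMat, Matrix.mul_apply, Fin.sum_univ_two]

/-- Lower-left entry of `g⁻¹ * M_e * g` is the value of the quadratic form at the first column. -/
theorem lowerLeft_conj_ellMat (e : ℤ) (g : SL(2, ℤ)) :
    (g⁻¹ * (ellMat e * g) : SL(2, ℤ)) 1 0 = g 0 0 ^ 2 + e * g 0 0 * g 1 0 + g 1 0 ^ 2 := by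
  rw [lowerLeft_inv_mul, ellMat_mul_apply_zero_zero, ellMat_mul_apply_one_zero]
  ring

theorem repMat_apply_zero_zero (x : ℤ) : (repMat x) 0 0 = x := rfl

theorem repMat_apply_one_zero (x : ℤ) : (repMat x) 1 0 = 1 := rfl

/-- The first column of an element of `SL(2,ℤ)` is coprime. -/
theorem isCoprime_firstCol (g : SL(2, ℤ)) : IsCoprime (g 0 0) (g 1 0) := by
  have h := g.det_coe
  rw [Matrix.det_fin_two] at h
  exact ⟨g 1 1, -(g 0 1), by linarith⟩

/-- If `N ∣ a² + e a c + c²` with `(a, c)` the first column of `g`, then `c` is a unit mod `N`. -/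
theorem isUnit_of_quadForm_eq_zero (N : ℕ) (e : ℤ) (g : SL(2, ℤ))
    (h : (((g 0 0 ^ 2 + e * g 0 0 * g 1 0 + g 1 0 ^ 2 : ℤ)) : ZMod N) = 0) :
    IsUnit ((g 1 0 : ℤ) : ZMod N) := by
  rw [ZMod.coe_int_isUnit_iff_isCoprime]
  rw [ZMod.intCast_zmod_eq_zero_iff_dvd] at h
  have h1 : IsCoprime (g 0 0 ^ 2 + e * g 0 0 * g 1 0 + g 1 0 ^ 2) (g 1 0) := by
    have h2 : IsCoprime (g 0 0 ^ 2) (g 1 0) := (isCoprime_firstCol g).pow_left
    have h3 : g 0 0 ^ 2 + e * g 0 0 * g 1 0 + g 1 0 ^ 2 =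
        g 0 0 ^ 2 + g 1 0 * (e * g 0 0 + g 1 0) := by ring
    rw [h3]
    exact h2.add_mul_left_left _
  exact h1.of_isCoprime_of_dvd_left h

/-- Main bijection statement: fixed cosets of `M_e` are counted by roots of `x² + e x + 1`. -/
theorem card_fixed_ellMat (N : ℕ) [NeZero N] (e : ℤ) :
    Nat.card {q : SL(2, ℤ) ⧸ Gamma0 N // ellMat e • q = q} =
      Nat.card {x : ZMod N // x ^ 2 + (e : ZMod N) * x + 1 = 0} := by
  symm
  -- the map from roots to fixed cosets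
  have hfix : ∀ x : {x : ZMod N // x ^ 2 + (e : ZMod N) * x + 1 = 0},
      ellMat e • ((repMat (x.1.val : ℤ) : SL(2, ℤ)) : SL(2, ℤ) ⧸ Gamma0 N) =
        ((repMat (x.1.val : ℤ) : SL(2, ℤ)) : SL(2, ℤ) ⧸ Gamma0 N) := by
    intro x
    rw [MulAction.Quotient.smul_mk, smul_eq_mul, eq_comm, QuotientGroup.eq, Gamma0_mem,
      lowerLeft_conj_ellMat, repMat_apply_zero_zero, repMat_apply_one_zero]
    push_cast
    rw [ZMod.natCast_zmod_val]
    have := x.2
    linear_combination this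
  refine Nat.card_eq_of_bijective
    (fun x => (⟨((repMat (x.1.val : ℤ) : SL(2, ℤ)) : SL(2, ℤ) ⧸ Gamma0 N), hfix x⟩ :
      {q : SL(2, ℤ) ⧸ Gamma0 N // ellMat e • q = q})) ⟨?_, ?_⟩
  · -- injective
    intro x y hxy
    have h := congrArg Subtype.val hxy
    simp only at h
    rw [QuotientGroup.eq, Gamma0_mem, lowerLeft_inv_mul, repMat_apply_zero_zero,
      repMat_apply_one_zero, repMat_apply_zero_zero, repMat_apply_one_zero] at h
    push_cast at h
    rw [ZMod.natCast_zmod_val, ZMod.natCast_zmod_val] at h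
    apply Subtype.ext
    linear_combination h
  · -- surjective
    rintro ⟨q, hq⟩
    obtain ⟨g, rfl⟩ := QuotientGroup.mk_surjective q
    rw [MulAction.Quotient.smul_mk, smul_eq_mul, eq_comm, QuotientGroup.eq, Gamma0_mem,
      lowerLeft_conj_ellMat] at hq
    have hu := isUnit_of_quadForm_eq_zero N e g hq
    push_cast at hq
    have hcc : ((g 1 0 : ℤ) : ZMod N) * ((g 1 0 : ℤ) : ZMod N)⁻¹ = 1 :=
      ZMod.mul_inv_of_unit _ hu
    have hroot : (((g 0 0 : ℤ) : ZMod N) * ((g 1 0 : ℤ) : ZMod N)⁻¹) ^ 2 +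
        (e : ZMod N) * (((g 0 0 : ℤ) : ZMod N) * ((g 1 0 : ℤ) : ZMod N)⁻¹) + 1 = 0 := by
      linear_combination (((g 1 0 : ℤ) : ZMod N)⁻¹ ^ 2) * hq +
        (-(e : ZMod N) * ((g 0 0 : ℤ) : ZMod N) * ((g 1 0 : ℤ) : ZMod N)⁻¹ -
          (1 + ((g 1 0 : ℤ) : ZMod N) * ((g 1 0 : ℤ) : ZMod N)⁻¹)) * hcc
    refine ⟨⟨((g 0 0 : ℤ) : ZMod N) * ((g 1 0 : ℤ) : ZMod N)⁻¹, hroot⟩, ?_⟩
    apply Subtype.ext
    simp only
    rw [QuotientGroup.eq, Gamma0_mem, lowerLeft_inv_mul, repMat_apply_zero_zero,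
      repMat_apply_one_zero]
    push_cast
    rw [ZMod.natCast_zmod_val]
    linear_combination ((g 0 0 : ℤ) : ZMod N) * hcc

/-- Package B2: the number of fixed points of `S` on `SL(2,ℤ) ⧸ Γ₀(N)` is `ν₂(N)`. -/
theorem card_fixed_S (N : ℕ) [NeZero N] :
    Nat.card {q : SL(2, ℤ) ⧸ Gamma0 N // (ModularGroup.S) • q = q} = ModularCurve.nuTwo N := by
  rw [← ellMat_zero, card_fixed_ellMat, ModularCurve.nuTwo]
  refine Nat.card_congr (Equiv.subtypeEquivRight fun x => ?_)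
  simp

/-- Package B3: the number of fixed points of `S * T` on `SL(2,ℤ) ⧸ Γ₀(N)` is `ν₃(N)`. -/
theorem card_fixed_ST (N : ℕ) [NeZero N] :
    Nat.card {q : SL(2, ℤ) ⧸ Gamma0 N // (ModularGroup.S * ModularGroup.T) • q = q} =
      ModularCurve.nuThree N := by
  rw [← ellMat_one, card_fixed_ellMat, ModularCurve.nuThree]
  refine Nat.card_congr (Equiv.subtypeEquivRight fun x => ?_)
  simp

end Fermat.Agent.S20
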