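import Mathlib
import Fermat.Prelude.Def_ModularCurve_GenusNumerics
import Fermat.Agent.S20.FixedEll

/-!
# S20 package B1: the index of `Γ₀(N)` in `SL(2,ℤ)` is the Dedekind psi function

Induction on primes: `[Γ₀(a) : Γ₀(p a)]` is `p` if `p ∣ a` and `p + 1` otherwise, by explicit
coset representatives, and the same recursion holds for `ψ`.
-/

set_option autoImplicit false

open Matrix Matrix.SpecialLinearGroup CongruenceSubgroup ModularGroup
open scoped MatrixGroups

namespace Fermat.Agent.S20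

/-! ### The recursion for `ψ` -/

/-- Indicator of squarefree numbers as an arithmetic function. -/
def sqfAF : ArithmeticFunction ℕ :=
  ⟨fun n => if Squarefree n then 1 else 0, by simp⟩

theorem sqfAF_apply (n : ℕ) : sqfAF n = if Squarefree n then 1 else 0 := rfl

theorem sqfAF_isMultiplicative : sqfAF.IsMultiplicative := by
  refine ⟨by simp [sqfAF_apply], fun {m n} h => ?_⟩
  simp only [sqfAF_apply, Nat.squarefree_mul h]
  by_cases hm : Squarefree m <;> by_cases hn : Squarefree n <;> simp [hm, hn]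

theorem dedekindPsi_eq_mul_apply (n : ℕ) :
    ModularCurve.dedekindPsi n = (sqfAF * ArithmeticFunction.id) n := by
  rw [ArithmeticFunction.mul_apply,
    Nat.sum_divisorsAntidiagonal (fun d e => sqfAF d * ArithmeticFunction.id e),
    ModularCurve.dedekindPsi, Finset.sum_filter]
  refine Finset.sum_congr rfl fun d _ => ?_
  by_cases hd : Squarefree d <;> simp [sqfAF_apply, hd]

theorem dedekindPsi_prime {p : ℕ} (hp : p.Prime) : ModularCurve.dedekindPsi p = p + 1 := by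
  rw [ModularCurve.dedekindPsi, hp.divisors, Finset.sum_filter,
    Finset.sum_pair hp.one_lt.ne, if_pos squarefree_one, if_pos hp.squarefree, Nat.div_one,
    Nat.div_self hp.pos]

theorem dedekindPsi_mul_of_not_dvd {p a : ℕ} (hp : p.Prime) (hpa : ¬ p ∣ a) :
    ModularCurve.dedekindPsi (p * a) = (p + 1) * ModularCurve.dedekindPsi a := by
  have hcop : Nat.gcd p a = 1 := (Nat.Prime.coprime_iff_not_dvd hp).mpr hpa
  rw [dedekindPsi_eq_mul_apply,
    (sqfAF_isMultiplicative.mul ArithmeticFunction.isMultiplicative_id).map_mul_of_coprime hcop,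
    ← dedekindPsi_eq_mul_apply, ← dedekindPsi_eq_mul_apply, dedekindPsi_prime hp]

theorem dedekindPsi_mul_of_dvd {p a : ℕ} (hp : p.Prime) (hpa : p ∣ a) (ha : a ≠ 0) :
    ModularCurve.dedekindPsi (p * a) = p * ModularCurve.dedekindPsi a := by
  rw [ModularCurve.dedekindPsi, ModularCurve.dedekindPsi, Finset.mul_sum]
  have hset : (p * a).divisors.filter (fun d => Squarefree d) =
      a.divisors.filter (fun d => Squarefree d) := by
    ext d
    simp only [Finset.mem_filter, Nat.mem_divisors]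
    constructor
    · rintro ⟨⟨hd, -⟩, hsq⟩
      refine ⟨⟨?_, ha⟩, hsq⟩
      by_cases hpd : p ∣ d
      · obtain ⟨d', rfl⟩ := hpd
        have hd' : d' ∣ a := (mul_dvd_mul_iff_left hp.ne_zero).mp hd
        have hcop : Nat.Coprime p d' := by
          rw [Nat.Prime.coprime_iff_not_dvd hp]
          intro h
          obtain ⟨e, rfl⟩ := h
          have := hsq p ⟨e, by ring⟩
          exact hp.one_lt.ne' (Nat.isUnit_iff.mp this)
        exact hcop.mul_dvd_of_dvd_of_dvd hpa hd'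
      · have hcop : Nat.Coprime d p := ((Nat.Prime.coprime_iff_not_dvd hp).mpr hpd).symm
        exact hcop.dvd_of_dvd_mul_left hd
    · rintro ⟨⟨hd, -⟩, hsq⟩
      exact ⟨⟨hd.mul_left p, mul_ne_zero hp.ne_zero ha⟩, hsq⟩
  rw [hset]
  refine Finset.sum_congr rfl fun d hd => ?_
  simp only [Finset.mem_filter, Nat.mem_divisors] at hd
  exact Nat.mul_div_assoc p hd.1.1


/-! ### Coset representatives -/

theorem mem_Gamma0_iff_dvd (N : ℕ) (g : SL(2, ℤ)) : g ∈ Gamma0 N ↔ (N : ℤ) ∣ g 1 0 := by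
  rw [Gamma0_mem, ZMod.intCast_zmod_eq_zero_iff_dvd]

theorem Gamma0_mul_le (p a : ℕ) : Gamma0 (p * a) ≤ Gamma0 a := by
  intro g hg
  rw [mem_Gamma0_iff_dvd] at hg ⊢
  refine dvd_trans ?_ hg
  exact ⟨(p : ℤ), by push_cast; ring⟩

/-- The lower unipotent matrix `[[1,0],[t,1]]`. -/
def lowMat (t : ℤ) : SL(2, ℤ) := ⟨!![1, 0; t, 1], by simp [Matrix.det_fin_two_of]⟩

/-- The matrix `[[1 + a j, j],[a, 1]]`. -/
def repB (a j : ℤ) : SL(2, ℤ) :=
  ⟨!![1 + a * j, j; a, 1], by rw [Matrix.det_fin_two_of]; ring⟩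

theorem lowMat_apply_zero_zero (t : ℤ) : (lowMat t) 0 0 = 1 := rfl
theorem lowMat_apply_one_zero (t : ℤ) : (lowMat t) 1 0 = t := rfl
theorem repB_apply_zero_zero (a j : ℤ) : (repB a j) 0 0 = 1 + a * j := rfl
theorem repB_apply_one_zero (a j : ℤ) : (repB a j) 1 0 = a := rfl

theorem one_apply_zero_zero : ((1 : SL(2, ℤ)) : Matrix (Fin 2) (Fin 2) ℤ) 0 0 = 1 := by simp
theorem one_apply_one_zero : ((1 : SL(2, ℤ)) : Matrix (Fin 2) (Fin 2) ℤ) 1 0 = 0 := by simp

theorem mul_dvd_mul_cast_iff {p a : ℕ} (ha : a ≠ 0) {s : ℤ} :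
    ((p * a : ℕ) : ℤ) ∣ (a : ℤ) * s ↔ (p : ℤ) ∣ s := by
  push_cast
  rw [mul_comm (p : ℤ) (a : ℤ)]
  exact mul_dvd_mul_iff_left (by exact_mod_cast ha)

theorem lowMat_mem (a : ℕ) (t : ℤ) : lowMat ((a : ℤ) * t) ∈ Gamma0 a := by
  rw [mem_Gamma0_iff_dvd, lowMat_apply_one_zero]
  exact ⟨t, rfl⟩

theorem repB_mem (a : ℕ) (j : ℤ) : repB (a : ℤ) j ∈ Gamma0 a := by
  rw [mem_Gamma0_iff_dvd, repB_apply_one_zero]

/-- Membership of `g⁻¹ * h` in `Γ₀(p a)` for `g, h ∈ Γ₀(a)`, in terms of the first columns. -/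
theorem quot_eq_iff {p a : ℕ} (g h : Gamma0 a) :
    ((g : (Gamma0 a) ⧸ (Gamma0 (p * a)).subgroupOf (Gamma0 a)) = h) ↔
      ((p * a : ℕ) : ℤ) ∣ -((g : SL(2, ℤ)) 1 0) * (h : SL(2, ℤ)) 0 0 +
        (g : SL(2, ℤ)) 0 0 * (h : SL(2, ℤ)) 1 0 := by
  rw [QuotientGroup.eq, Subgroup.mem_subgroupOf, Subgroup.coe_mul, Subgroup.coe_inv,
    mem_Gamma0_iff_dvd, lowerLeft_inv_mul]

theorem relIndex_Gamma0_of_dvd {p a : ℕ} (hp : p.Prime) (hpa : p ∣ a) (ha : a ≠ 0) :
    (Gamma0 (p * a)).relIndex (Gamma0 a) = p := by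
  have : Fact p.Prime := ⟨hp⟩
  rw [Subgroup.relIndex, Subgroup.index]
  conv_rhs => rw [← Nat.card_zmod p]
  symm
  refine Nat.card_eq_of_bijective
    (fun t : ZMod p => ((⟨lowMat ((a : ℤ) * (t.val : ℤ)), lowMat_mem a _⟩ : Gamma0 a) :
      (Gamma0 a) ⧸ (Gamma0 (p * a)).subgroupOf (Gamma0 a))) ⟨?_, ?_⟩
  · intro t t' h
    simp only at h
    rw [quot_eq_iff] at h
    simp only [lowMat_apply_zero_zero, lowMat_apply_one_zero] at h
    have h2 : ((p * a : ℕ) : ℤ) ∣ (a : ℤ) * ((t'.val : ℤ) - (t.val : ℤ)) := by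
      convert h using 1
      ring
    rw [mul_dvd_mul_cast_iff ha, ← ZMod.intCast_zmod_eq_zero_iff_dvd] at h2
    push_cast at h2
    rw [ZMod.natCast_zmod_val, ZMod.natCast_zmod_val] at h2
    exact (sub_eq_zero.mp h2).symm
  · intro q
    obtain ⟨⟨g, hg⟩, rfl⟩ := QuotientGroup.mk_surjective q
    have hg' := (mem_Gamma0_iff_dvd a g).mp hg
    obtain ⟨γ, hγ⟩ := hg'
    have hpg : (p : ℤ) ∣ g 1 0 := by
      rw [hγ]
      exact Dvd.dvd.mul_right (by exact_mod_cast hpa) γ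
    have hα : ((g 0 0 : ℤ) : ZMod p) ≠ 0 := by
      intro h0
      rw [ZMod.intCast_zmod_eq_zero_iff_dvd] at h0
      have hcop := isCoprime_firstCol g
      have : IsUnit (p : ℤ) := hcop.isUnit_of_dvd' h0 hpg
      rw [Int.isUnit_iff] at this
      rcases this with h | h
      · exact hp.one_lt.ne' (by exact_mod_cast h)
      · have : (0 : ℤ) ≤ (p : ℤ) := Int.natCast_nonneg p
        omega
    refine ⟨(γ : ZMod p) * ((g 0 0 : ℤ) : ZMod p)⁻¹, ?_⟩
    simp only
    rw [quot_eq_iff]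
    simp only [lowMat_apply_zero_zero, lowMat_apply_one_zero]
    have h2 : -((a : ℤ) * ((((γ : ZMod p) * ((g 0 0 : ℤ) : ZMod p)⁻¹).val : ℕ) : ℤ)) * g 0 0 +
        1 * g 1 0 = (a : ℤ) * (γ - ((((γ : ZMod p) * ((g 0 0 : ℤ) : ZMod p)⁻¹).val : ℕ) : ℤ) *
          g 0 0) := by
      rw [hγ]; ring
    rw [h2, mul_dvd_mul_cast_iff ha, ← ZMod.intCast_zmod_eq_zero_iff_dvd]
    push_cast
    rw [ZMod.natCast_zmod_val]
    field_simp
    ring

theorem relIndex_Gamma0_of_not_dvd {p a : ℕ} (hp : p.Prime) (hpa : ¬ p ∣ a) (ha : a ≠ 0) :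
    (Gamma0 (p * a)).relIndex (Gamma0 a) = p + 1 := by
  have : Fact p.Prime := ⟨hp⟩
  have ha0 : ((a : ℕ) : ZMod p) ≠ 0 := by
    rw [Ne, ZMod.natCast_eq_zero_iff]
    exact hpa
  rw [Subgroup.relIndex, Subgroup.index]
  have hcard : Nat.card (Option (ZMod p)) = p + 1 := by
    rw [Finite.card_option, Nat.card_zmod]
  rw [← hcard]
  symm
  -- the representative attached to `x`
  let j : ZMod p → ℤ := fun x => ((((x - 1) * ((a : ℕ) : ZMod p)⁻¹).val : ℕ) : ℤ)
  have hj : ∀ x : ZMod p, ((j x : ℤ) : ZMod p) = (x - 1) * ((a : ℕ) : ZMod p)⁻¹ := fun x => by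
    simp only [j]
    push_cast
    rw [ZMod.natCast_zmod_val]
  let rep : Option (ZMod p) → Gamma0 a := fun o =>
    match o with
    | none => 1
    | some x => ⟨repB (a : ℤ) (j x), repB_mem a _⟩
  refine Nat.card_eq_of_bijective
    (fun o : Option (ZMod p) => ((rep o : Gamma0 a) :
      (Gamma0 a) ⧸ (Gamma0 (p * a)).subgroupOf (Gamma0 a))) ⟨?_, ?_⟩
  · intro o o' h
    simp only at h
    rw [quot_eq_iff] at h
    rcases o with _ | x <;> rcases o' with _ | x'
    · rfl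
    · exfalso
      simp only [rep, Subgroup.coe_one, one_apply_zero_zero, one_apply_one_zero,
        repB_apply_zero_zero, repB_apply_one_zero] at h
      have h2 : ((p * a : ℕ) : ℤ) ∣ (a : ℤ) * 1 := by
        convert h using 1
        ring
      rw [mul_dvd_mul_cast_iff ha] at h2
      have := Int.eq_one_of_dvd_one (Int.natCast_nonneg p) h2
      exact hp.one_lt.ne' (by exact_mod_cast this)
    · exfalso
      simp only [rep, Subgroup.coe_one, one_apply_zero_zero, one_apply_one_zero,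
        repB_apply_zero_zero, repB_apply_one_zero] at h
      have h2 : ((p * a : ℕ) : ℤ) ∣ (a : ℤ) * (-1) := by
        convert h using 1
        ring
      rw [mul_dvd_mul_cast_iff ha, dvd_neg] at h2
      have := Int.eq_one_of_dvd_one (Int.natCast_nonneg p) h2
      exact hp.one_lt.ne' (by exact_mod_cast this)
    · simp only [rep, repB_apply_zero_zero, repB_apply_one_zero] at h
      have h2 : ((p * a : ℕ) : ℤ) ∣ (a : ℤ) * ((a : ℤ) * (j x - j x')) := by
        convert h using 1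
        ring
      rw [mul_dvd_mul_cast_iff ha, ← ZMod.intCast_zmod_eq_zero_iff_dvd] at h2
      push_cast at h2
      rw [hj, hj] at h2
      have h3 : (x - 1) * ((a : ℕ) : ZMod p)⁻¹ - (x' - 1) * ((a : ℕ) : ZMod p)⁻¹ = 0 := by
        rcases mul_eq_zero.mp h2 with h | h
        · exact absurd h ha0
        · exact h
      congr 1
      field_simp at h3
      linear_combination h3
  · intro q
    obtain ⟨⟨g, hg⟩, rfl⟩ := QuotientGroup.mk_surjective q
    have hg' := (mem_Gamma0_iff_dvd a g).mp hg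
    obtain ⟨γ, hγ⟩ := hg'
    by_cases hpγ : (p : ℤ) ∣ γ
    · refine ⟨none, ?_⟩
      simp only
      rw [quot_eq_iff]
      simp only [rep, Subgroup.coe_one, one_apply_zero_zero, one_apply_one_zero]
      have h2 : -(0 : ℤ) * g 0 0 + 1 * g 1 0 = (a : ℤ) * γ := by rw [hγ]; ring
      rw [h2, mul_dvd_mul_cast_iff ha]
      exact hpγ
    · have hγ0 : ((γ : ℤ) : ZMod p) ≠ 0 := by
        rwa [Ne, ZMod.intCast_zmod_eq_zero_iff_dvd]
      refine ⟨some (((g 0 0 : ℤ) : ZMod p) * ((γ : ℤ) : ZMod p)⁻¹), ?_⟩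
      simp only
      rw [quot_eq_iff]
      simp only [rep, repB_apply_zero_zero, repB_apply_one_zero]
      have h2 : -(a : ℤ) * g 0 0 +
          (1 + (a : ℤ) * j (((g 0 0 : ℤ) : ZMod p) * ((γ : ℤ) : ZMod p)⁻¹)) * g 1 0 =
          (a : ℤ) * (-(g 0 0) +
            (1 + (a : ℤ) * j (((g 0 0 : ℤ) : ZMod p) * ((γ : ℤ) : ZMod p)⁻¹)) * γ) := by
        rw [hγ]; ring
      rw [h2, mul_dvd_mul_cast_iff ha, ← ZMod.intCast_zmod_eq_zero_iff_dvd]
      push_cast
      rw [hj]
      field_simp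
      ring

/-- Package B1: the index of `Γ₀(N)` is `ψ(N)`. -/
theorem index_Gamma0 (n : ℕ) (hn : n ≠ 0) :
    (Gamma0 n).index = ModularCurve.dedekindPsi n := by
  induction n using induction_on_primes with
  | zero => exact absurd rfl hn
  | one =>
    have : Gamma0 1 = ⊤ := by
      ext g
      simp only [Subgroup.mem_top, iff_true]
      rw [Gamma0_mem]
      exact Subsingleton.elim _ _
    rw [this, Subgroup.index_top, ModularCurve.dedekindPsi_one]
  | prime_mul p a hp ih =>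
    have ha : a ≠ 0 := right_ne_zero_of_mul hn
    rw [← Subgroup.relIndex_mul_index (Gamma0_mul_le p a), ih ha]
    by_cases h : p ∣ a
    · rw [relIndex_Gamma0_of_dvd hp h ha, dedekindPsi_mul_of_dvd hp h ha]
    · rw [relIndex_Gamma0_of_not_dvd hp h ha, dedekindPsi_mul_of_not_dvd hp h]

theorem card_quot_Gamma0 (N : ℕ) [NeZero N] :
    Nat.card (SL(2, ℤ) ⧸ Gamma0 N) = ModularCurve.dedekindPsi N :=
  index_Gamma0 N (NeZero.ne N)

end Fermat.Agent.S20
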