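/-
S20 (dim S_2(Γ0(N)) = genus formula): shared definitions for the "good frame" route
(see NOTES/S20-route.md).  Only definitions and trivial lemmas here; import this file, do not redefine.
-/
import Mathlib

set_option autoImplicit false

open CongruenceSubgroup UpperHalfPlane ModularForm
open scoped MatrixGroups

namespace Fermat.Agent.S20

/-- `Γ0(N)` as a subgroup of `GL(2,ℝ)` (this is what `CuspForm (Gamma0 N) 2` unfolds to). -/
abbrev G0 (N : ℕ) : Subgroup (GL (Fin 2) ℝ) :=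
  (Gamma0 N).map (Matrix.SpecialLinearGroup.mapGL ℝ)

/-- The coset space `SL2(ℤ)/Γ0(N)` in the form used by Mathlib's `ModularForm.trace`. -/
abbrev Q (N : ℕ) : Type := 𝒮ℒ ⧸ (G0 N).subgroupOf 𝒮ℒ

noncomputable instance instFintypeQ (N : ℕ) [NeZero N] : Fintype (Q N) := Fintype.ofFinite _

noncomputable instance instDecEqQ (N : ℕ) : DecidableEq (Q N) := Classical.decEq _

/-- The trivial coset. -/
def q0 (N : ℕ) : Q N := QuotientGroup.mk 1

/-- The conjugates `F_q = F ∣[k] h⁻¹` (`q = h·Γ0(N)`) of a modular form `F` on `Γ0(N)`. -/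
noncomputable def cj {N : ℕ} {k : ℤ} (F : ModularForm (G0 N) k) (q : Q N) : ℍ → ℂ :=
  SlashInvariantForm.quotientFunc F q

/-- A frame: `μ = #Q` modular forms on `Γ0(N)` (indexed by `Q N` for convenience), of weights `wt i`. -/
structure Frame (N : ℕ) where
  /-- the weights -/
  wt : Q N → ℤ
  /-- the forms -/
  f : (i : Q N) → ModularForm (G0 N) (wt i)

/-- The matrix `A(z) = (f_{i,q}(z))_{i,q}` of a frame. -/
noncomputable def Frame.A {N : ℕ} (Φ : Frame N) (z : ℍ) : Matrix (Q N) (Q N) ℂ :=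
  fun i q => cj (Φ.f i) q z

/-- A frame is *nondegenerate* if `det A` is not identically zero. -/
def Frame.Nondeg {N : ℕ} [NeZero N] (Φ : Frame N) : Prop := ∃ z : ℍ, (Φ.A z).det ≠ 0

/-- A frame is *good on ℍ* if `det A(z) ≠ 0` for every `z ∈ ℍ`. -/
def Frame.GoodOnH {N : ℕ} [NeZero N] (Φ : Frame N) : Prop := ∀ z : ℍ, (Φ.A z).det ≠ 0

/-- Total weight of a frame. -/
noncomputable def Frame.totalWt {N : ℕ} [NeZero N] (Φ : Frame N) : ℤ := ∑ i, Φ.wt i

/-- The permutation of `Q N` induced by `T⁻¹` : `F_q(z+1) = F_{shift q}(z)`. -/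
noncomputable def shift (N : ℕ) : Equiv.Perm (Q N) :=
  MulAction.toPerm (⟨Matrix.SpecialLinearGroup.mapGL ℝ ModularGroup.T, ⟨_, rfl⟩⟩ : 𝒮ℒ)⁻¹

/-- Number of cusps = number of `⟨T⟩`-orbits on `Q N` = number of cycles (incl. fixed points) of `shift`. -/
noncomputable def numCusps (N : ℕ) : ℕ :=
  Nat.card (MulAction.orbitRel.Quotient (Subgroup.zpowers (shift N)) (Q N))

/-- A frame is *good at ∞* if `det A(z)^2` is bounded below by a multiple of `|Δ|^(μ-κ)` near `i∞`. -/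
def Frame.GoodAtInfty {N : ℕ} [NeZero N] (Φ : Frame N) : Prop :=
  ∃ c : ℝ, 0 < c ∧ ∃ Y : ℝ, ∀ z : ℍ, Y ≤ z.im →
    c * ‖ModularForm.discriminant z‖ ^ (Fintype.card (Q N) - numCusps N) ≤ ‖(Φ.A z).det‖ ^ 2

end Fermat.Agent.S20
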