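/-
S20: basic API for the conjugates `cj F q` and the matrix `A(z)` of a frame.
-/
import Fermat.Agent.S20.Basic

set_option autoImplicit false
set_option linter.unusedSectionVars false

open CongruenceSubgroup UpperHalfPlane ModularForm SlashInvariantForm
open scoped MatrixGroups Manifold

namespace Fermat.Agent.S20

variable {N : ℕ} [NeZero N] {k : ℤ}

/-- The image of `γ : SL(2,ℤ)` in `𝒮ℒ`. -/
def toSL (γ : SL(2, ℤ)) : 𝒮ℒ := ⟨Matrix.SpecialLinearGroup.mapGL ℝ γ, ⟨γ, rfl⟩⟩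

lemma toSL_mul (γ δ : SL(2, ℤ)) : toSL (γ * δ) = toSL γ * toSL δ := by
  ext1; simp [toSL]

lemma toSL_inv (γ : SL(2, ℤ)) : toSL γ⁻¹ = (toSL γ)⁻¹ := by
  ext1; simp [toSL]

lemma toSL_one : toSL 1 = 1 := by
  ext1; simp [toSL]

lemma toSL_surjective : Function.Surjective toSL := by
  rintro ⟨_, γ, rfl⟩; exact ⟨γ, rfl⟩

lemma toSL_injective : Function.Injective toSL := by
  intro a b h
  have := congrArg Subtype.val h
  exact Matrix.SpecialLinearGroup.mapGL_injective this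

/-- `toSL` as a group isomorphism. -/
noncomputable def toSLEquiv : SL(2, ℤ) ≃* 𝒮ℒ :=
  MulEquiv.ofBijective (MonoidHom.mk' toSL toSL_mul) ⟨toSL_injective, toSL_surjective⟩

@[simp] lemma toSLEquiv_apply (γ : SL(2, ℤ)) : toSLEquiv γ = toSL γ := rfl

lemma toSL_mem_G0_iff (γ : SL(2, ℤ)) :
    (toSL γ : GL (Fin 2) ℝ) ∈ G0 N ↔ γ ∈ Gamma0 N := by
  constructor
  · rintro ⟨δ, hδ, h⟩
    have : δ = γ := Matrix.SpecialLinearGroup.mapGL_injective h
    exact this ▸ hδ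
  · intro h; exact ⟨γ, h, rfl⟩

/-- The coset of `γ : SL(2,ℤ)` in `Q N`. -/
def mkQ (N : ℕ) (γ : SL(2, ℤ)) : Q N := QuotientGroup.mk (toSL γ)

lemma mkQ_surjective : Function.Surjective (mkQ N) := by
  intro q
  induction q using QuotientGroup.induction_on with
  | H h => obtain ⟨γ, rfl⟩ := toSL_surjective h; exact ⟨γ, rfl⟩

lemma mkQ_one : mkQ N 1 = q0 N := by
  simp [mkQ, q0, toSL_one]

lemma mkQ_eq_iff (γ δ : SL(2, ℤ)) : mkQ N γ = mkQ N δ ↔ γ⁻¹ * δ ∈ Gamma0 N := by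
  rw [mkQ, mkQ, QuotientGroup.eq, Subgroup.mem_subgroupOf, ← toSL_inv, ← toSL_mul, toSL_mem_G0_iff]

lemma smul_mkQ (γ δ : SL(2, ℤ)) : toSL γ • mkQ N δ = mkQ N (γ * δ) := by
  rw [mkQ, mkQ, toSL_mul]; rfl

variable (F : ModularForm (G0 N) k)

lemma cj_mkQ (γ : SL(2, ℤ)) : cj F (mkQ N γ) = (⇑F) ∣[k] γ⁻¹ := by
  rw [cj, mkQ, quotientFunc_mk, SL_slash]
  congr 1
  simp [toSL, Matrix.SpecialLinearGroup.mapGL]

@[simp] lemma cj_q0 : cj F (q0 N) = ⇑F := by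
  rw [← mkQ_one, cj_mkQ, inv_one]
  exact SlashAction.slash_one k (⇑F)

lemma cj_slash (γ : SL(2, ℤ)) (q : Q N) : cj F q ∣[k] γ = cj F ((toSL γ)⁻¹ • q) := by
  rw [SL_slash]
  exact quotientFunc_smul (ℋ := 𝒮ℒ) F (toSL γ).2 q

lemma cj_mdiff (q : Q N) : MDiff (cj F q) := by
  obtain ⟨γ, rfl⟩ := mkQ_surjective q
  rw [cj_mkQ, SL_slash]
  exact (ModularFormClass.holo F).slash k _

lemma cj_bdd (q : Q N) : IsBoundedAtImInfty (cj F q) := by
  obtain ⟨γ, rfl⟩ := mkQ_surjective q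
  rw [cj_mkQ]
  exact ModularFormClass.bdd_at_infty_slash F γ⁻¹

lemma cj_slash_bdd (q : Q N) (γ : SL(2, ℤ)) : IsBoundedAtImInfty (cj F q ∣[k] γ) := by
  rw [cj_slash]; exact cj_bdd F _

lemma cj_mul {k₁ k₂ : ℤ} (F : ModularForm (G0 N) k₁) (G : ModularForm (G0 N) k₂) (q : Q N) :
    cj (F.mul G) q = cj F q * cj G q := by
  obtain ⟨γ, rfl⟩ := mkQ_surjective q
  rw [cj_mkQ, cj_mkQ, cj_mkQ, ModularForm.coe_mul, mul_slash_SL2]

lemma cj_add (F G : ModularForm (G0 N) k) (q : Q N) :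
    cj (F + G) q = cj F q + cj G q := by
  obtain ⟨γ, rfl⟩ := mkQ_surjective q
  rw [cj_mkQ, cj_mkQ, cj_mkQ, FunLike.coe_add, SlashAction.add_slash]

lemma cj_smul (c : ℂ) (F : ModularForm (G0 N) k) (q : Q N) :
    cj (c • F) q = c • cj F q := by
  obtain ⟨γ, rfl⟩ := mkQ_surjective q
  rw [cj_mkQ, cj_mkQ, FunLike.coe_smul, SL_smul_slash]

lemma cj_mcast {a b : ℤ} (h : a = b) (F : ModularForm (G0 N) a) (q : Q N) :
    cj (ModularForm.mcast h F) q = cj F q := by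
  subst h; rfl

lemma cj_cuspForm_zero (f : CuspForm (G0 N) k) (γ : SL(2, ℤ)) :
    IsZeroAtImInfty ((⇑f) ∣[k] γ) := CuspFormClass.zero_at_infty_slash f γ

/-- value of `cj F q` at `γ • z`. -/
lemma cj_smul_apply (γ : SL(2, ℤ)) (q : Q N) (z : ℍ) :
    cj F q (γ • z) = (denom γ z) ^ k * cj F ((toSL γ)⁻¹ • q) z := by
  have h := congrFun (cj_slash F γ q) z
  rw [SL_slash_apply] at h
  rw [← h]
  have hd : denom γ z ≠ 0 := denom_ne_zero _ z
  rw [mul_comm (cj F q (γ • z)), ← mul_assoc, ← zpow_add₀ hd]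
  simp

/-- Restriction of a level-one form to `Γ0(N)`. -/
noncomputable def res (N : ℕ) [NeZero N] {k : ℤ} (r : ModularForm 𝒮ℒ k) : ModularForm (G0 N) k where
  toFun := r
  slash_action_eq' γ hγ := by
    obtain ⟨δ, -, rfl⟩ := hγ
    exact SlashInvariantForm.slash_action_eqn r _ ⟨δ, rfl⟩
  holo' := r.holo'
  bdd_at_cusps' {c} hc := by
    rw [Subgroup.IsArithmetic.isCusp_iff_isCusp_SL2Z] at hc
    exact r.bdd_at_cusps' hc

@[simp] lemma res_apply (r : ModularForm 𝒮ℒ k) (z : ℍ) : res N r z = r z := rfl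

@[simp] lemma coe_res (r : ModularForm 𝒮ℒ k) : ⇑(res N r) = ⇑r := rfl

@[simp] lemma cj_res (r : ModularForm 𝒮ℒ k) (q : Q N) : cj (res N r) q = ⇑r := by
  obtain ⟨γ, rfl⟩ := mkQ_surjective q
  rw [cj_mkQ, coe_res, SL_slash]
  exact SlashInvariantForm.slash_action_eqn r _ ⟨γ⁻¹, rfl⟩

lemma trace_apply (z : ℍ) : ModularForm.trace 𝒮ℒ F z = ∑ q : Q N, cj F q z := by
  rw [ModularForm.coe_trace]
  simp only [cj, Finset.sum_apply]

lemma cuspTrace_apply (f : CuspForm (G0 N) k) (z : ℍ) :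
    CuspForm.trace 𝒮ℒ f z = ∑ q : Q N, (SlashInvariantForm.quotientFunc f q : ℍ → ℂ) z := by
  rw [CuspForm.coe_trace]
  simp only [Finset.sum_apply]

/-- Transformation of the frame matrix under `SL(2,ℤ)`. -/
lemma Frame.A_smul (Φ : Frame N) (γ : SL(2, ℤ)) (z : ℍ) (i q : Q N) :
    Φ.A (γ • z) i q = (denom γ z) ^ (Φ.wt i) * Φ.A z i ((toSL γ)⁻¹ • q) :=
  cj_smul_apply (Φ.f i) γ q z

/-- multiplication by a level-one form commutes with conjugation. -/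
lemma cj_res_mul {k₁ k₂ : ℤ} (a : ModularForm 𝒮ℒ k₁) (F : ModularForm (G0 N) k₂) (q : Q N) :
    cj ((res N a).mul F) q = ⇑a * cj F q := by
  rw [cj_mul, cj_res]

/-- The image of `T` in `𝒮ℒ`. -/
lemma shift_eq_toSL_smul (q : Q N) : shift N q = (toSL ModularGroup.T)⁻¹ • q := rfl

/-- `F_q(z + 1) = F_{shift q}(z)`. -/
lemma cj_shift (q : Q N) (z : ℍ) : cj F (shift N q) z = cj F q ((1 : ℝ) +ᵥ z) := by
  have h := cj_smul_apply F ModularGroup.T q z
  have hd : denom (ModularGroup.T : SL(2, ℤ)) z = 1 := by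
    simp [denom, ModularGroup.coe_T]
  rw [hd] at h
  simp only [one_zpow, one_mul] at h
  rw [shift_eq_toSL_smul, ← h, UpperHalfPlane.modular_T_smul]

/-- A modular form on `Γ0(N)` all of whose conjugates vanish at `i∞` is a cusp form. -/
noncomputable def toCusp (F : ModularForm (G0 N) k) (h : ∀ q, IsZeroAtImInfty (cj F q)) :
    CuspForm (G0 N) k where
  toFun := F
  slash_action_eq' := F.slash_action_eq'
  holo' := F.holo'
  zero_at_cusps' {c} hc := by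
    rw [Subgroup.IsArithmetic.isCusp_iff_isCusp_SL2Z] at hc
    rw [OnePoint.isZeroAt_iff_forall_SL2Z hc]
    intro γ _
    have := h (mkQ N γ⁻¹)
    rwa [cj_mkQ, inv_inv] at this

@[simp] lemma toCusp_apply (F : ModularForm (G0 N) k) (h : ∀ q, IsZeroAtImInfty (cj F q)) (z : ℍ) :
    toCusp F h z = F z := rfl

/-- The modular form underlying a cusp form. -/
noncomputable def ofCusp (f : CuspForm (G0 N) k) : ModularForm (G0 N) k :=
  ModularFormClass.modularForm f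

@[simp] lemma ofCusp_apply (f : CuspForm (G0 N) k) (z : ℍ) : ofCusp f z = f z := rfl

lemma cj_ofCusp_zero (f : CuspForm (G0 N) k) (q : Q N) : IsZeroAtImInfty (cj (ofCusp f) q) := by
  obtain ⟨γ, rfl⟩ := mkQ_surjective q
  rw [cj_mkQ]
  exact CuspFormClass.zero_at_infty_slash f γ⁻¹

end Fermat.Agent.S20
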