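/-
S20, CUSP package (helper20), part 1: scalar Fourier analysis at `i∞` for `N`-periodic
holomorphic bounded functions on `ℍ`.  Only Mathlib is used.
-/
import Mathlib

set_option autoImplicit false

open Complex Filter Function Asymptotics
open UpperHalfPlane hiding I
open scoped Real Topology Manifold

namespace Fermat.Agent.S20

/-- The primitive `N`-th root of unity `exp(2πi/N)`. -/
noncomputable def zetaN (N : ℕ) : ℂ := Complex.exp (2 * π * I / N)

lemma zetaN_isPrimitiveRoot (N : ℕ) [NeZero N] : IsPrimitiveRoot (zetaN N) N :=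
  Complex.isPrimitiveRoot_exp N (NeZero.ne N)

lemma zetaN_ne_zero (N : ℕ) : zetaN N ≠ 0 := Complex.exp_ne_zero _

lemma zetaN_pow_self (N : ℕ) [NeZero N] : zetaN N ^ N = 1 :=
  (zetaN_isPrimitiveRoot N).pow_eq_one

lemma norm_zetaN (N : ℕ) : ‖zetaN N‖ = 1 := by
  rw [zetaN, Complex.norm_exp]
  simp

/-- `φ` has period `N` (as a function on `ℍ`). -/
def IsPer (N : ℕ) (φ : ℍ → ℂ) : Prop := ∀ z : ℍ, φ ((N : ℝ) +ᵥ z) = φ z

/-- The `r`-th Fourier projection of an `N`-periodic function. -/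
noncomputable def fourierProj (N r : ℕ) (φ : ℍ → ℂ) (z : ℍ) : ℂ :=
  (N : ℂ)⁻¹ * ∑ a ∈ Finset.range N, (zetaN N ^ (r * a))⁻¹ * φ ((a : ℝ) +ᵥ z)

/-- The twisted Fourier projection, which is `1`-periodic. -/
noncomputable def twist (N r : ℕ) (φ : ℍ → ℂ) (z : ℍ) : ℂ :=
  Complex.exp (-(2 * π * I * r * z / N)) * fourierProj N r φ z

lemma vadd_vadd_nat (a b : ℝ) (z : ℍ) : a +ᵥ (b +ᵥ z) = (a + b) +ᵥ z := by
  ext
  simp [UpperHalfPlane.coe_vadd, add_assoc]

lemma fourierProj_vadd_one (N r : ℕ) [NeZero N] {φ : ℍ → ℂ} (hφ : IsPer N φ) (z : ℍ) :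
    fourierProj N r φ ((1 : ℝ) +ᵥ z) = zetaN N ^ r * fourierProj N r φ z := by
  unfold fourierProj
  have hz : zetaN N ≠ 0 := zetaN_ne_zero N
  set g : ℕ → ℂ := fun b => (zetaN N ^ (r * b))⁻¹ * φ ((b : ℝ) +ᵥ z) with hg
  have h1 : ∀ a : ℕ, (zetaN N ^ (r * a))⁻¹ * φ ((a : ℝ) +ᵥ ((1 : ℝ) +ᵥ z))
      = zetaN N ^ r * g (a + 1) := by
    intro a
    simp only [hg]
    rw [vadd_vadd_nat]
    have : ((a : ℝ) + 1) = ((a + 1 : ℕ) : ℝ) := by push_cast; ring
    rw [this]
    have h2 : zetaN N ^ (r * (a + 1)) = zetaN N ^ (r * a) * zetaN N ^ r := by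
      rw [← pow_add]; ring_nf
    rw [h2]
    field_simp
  have h3 : g N = g 0 := by
    simp only [hg]
    rw [hφ z]
    have : zetaN N ^ (r * N) = 1 := by
      rw [mul_comm, pow_mul, zetaN_pow_self, one_pow]
    rw [this]
    simp
  have h4 : ∑ a ∈ Finset.range N, g (a + 1) = ∑ a ∈ Finset.range N, g a := by
    have e1 := Finset.sum_range_succ g N
    have e2 := Finset.sum_range_succ' g N
    rw [e1] at e2
    rw [h3] at e2
    exact (add_right_cancel e2).symm
  calc (N : ℂ)⁻¹ * ∑ a ∈ Finset.range N, (zetaN N ^ (r * a))⁻¹ * φ ((a : ℝ) +ᵥ ((1 : ℝ) +ᵥ z))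
      = (N : ℂ)⁻¹ * ∑ a ∈ Finset.range N, zetaN N ^ r * g (a + 1) := by
        congr 1; exact Finset.sum_congr rfl (fun a _ => h1 a)
    _ = zetaN N ^ r * ((N : ℂ)⁻¹ * ∑ a ∈ Finset.range N, g a) := by
        rw [← Finset.mul_sum, h4]; ring

lemma exp_twist_vadd_one (N r : ℕ) [NeZero N] (z : ℍ) :
    Complex.exp (-(2 * π * I * r * (((1 : ℝ) +ᵥ z : ℍ) : ℂ) / N))
      = Complex.exp (-(2 * π * I * r * (z : ℂ) / N)) * (zetaN N ^ r)⁻¹ := by
  rw [UpperHalfPlane.coe_vadd, zetaN, ← Complex.exp_nat_mul, ← Complex.exp_neg, ← Complex.exp_add]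
  congr 1
  push_cast
  ring

lemma twist_vadd_one (N r : ℕ) [NeZero N] {φ : ℍ → ℂ} (hφ : IsPer N φ) (z : ℍ) :
    twist N r φ ((1 : ℝ) +ᵥ z) = twist N r φ z := by
  unfold twist
  rw [fourierProj_vadd_one N r hφ, exp_twist_vadd_one]
  have hz : zetaN N ^ r ≠ 0 := pow_ne_zero _ (zetaN_ne_zero N)
  field_simp

lemma sum_inv_zetaN_pow (N : ℕ) [NeZero N] {a : ℕ} (ha : a < N) :
    ∑ r ∈ Finset.range N, (zetaN N ^ (r * a))⁻¹ = if a = 0 then (N : ℂ) else 0 := by
  split_ifs with h0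
  · subst h0; simp
  · have hprim := zetaN_isPrimitiveRoot N
    set ξ : ℂ := (zetaN N ^ a)⁻¹ with hξ
    have hξN : ξ ^ N = 1 := by
      rw [hξ, inv_pow, ← pow_mul, mul_comm, pow_mul, zetaN_pow_self, one_pow, inv_one]
    have hξ1 : ξ ≠ 1 := by
      intro h
      have : zetaN N ^ a = 1 := by
        rw [hξ] at h; exact inv_eq_one.mp h
      have := hprim.dvd_of_pow_eq_one a this
      exact h0 (Nat.eq_zero_of_dvd_of_lt this ha)
    have hsum : ∑ r ∈ Finset.range N, (zetaN N ^ (r * a))⁻¹ = ∑ r ∈ Finset.range N, ξ ^ r := by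
      refine Finset.sum_congr rfl (fun r _ => ?_)
      rw [hξ, inv_pow, ← pow_mul, mul_comm]
    rw [hsum]
    have := mul_geom_sum ξ N
    rw [hξN, sub_self] at this
    rcases mul_eq_zero.mp this with h | h
    · exact absurd (sub_eq_zero.mp h) hξ1
    · exact h

lemma sum_fourierProj (N : ℕ) [NeZero N] (φ : ℍ → ℂ) (z : ℍ) :
    ∑ r ∈ Finset.range N, fourierProj N r φ z = φ z := by
  unfold fourierProj
  rw [← Finset.mul_sum, Finset.sum_comm]
  have : ∀ a ∈ Finset.range N, ∑ r ∈ Finset.range N, (zetaN N ^ (r * a))⁻¹ * φ ((a : ℝ) +ᵥ z)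
      = (if a = 0 then (N : ℂ) else 0) * φ ((a : ℝ) +ᵥ z) := by
    intro a ha
    rw [← Finset.sum_mul, sum_inv_zetaN_pow N (Finset.mem_range.mp ha)]
  rw [Finset.sum_congr rfl this]
  have hN : 0 < N := Nat.pos_of_ne_zero (NeZero.ne N)
  rw [Finset.sum_eq_single 0]
  · simp only [if_true]
    have hz : ((0 : ℕ) : ℝ) +ᵥ z = z := by
      ext; simp
    rw [hz]
    have hN' : (N : ℂ) ≠ 0 := Nat.cast_ne_zero.mpr (NeZero.ne N)
    field_simp
  · intro b _ hb
    simp [hb]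
  · intro h
    exact absurd (Finset.mem_range.mpr hN) h

/-- Reconstruction of `φ` from its twisted projections. -/
lemma eq_sum_exp_mul_twist (N : ℕ) [NeZero N] (φ : ℍ → ℂ) (z : ℍ) :
    φ z = ∑ r ∈ Finset.range N, Complex.exp (2 * π * I * r * z / N) * twist N r φ z := by
  conv_lhs => rw [← sum_fourierProj N φ z]
  refine Finset.sum_congr rfl (fun r _ => ?_)
  unfold twist
  rw [← mul_assoc, ← Complex.exp_add, add_neg_cancel, Complex.exp_zero, one_mul]


/-! ### Holomorphy -/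

lemma mdiff_vadd {φ : ℍ → ℂ} (hφ : MDiff φ) (a : ℝ) : MDiff (fun z : ℍ => φ (a +ᵥ z)) := by
  rw [UpperHalfPlane.mdifferentiable_iff] at hφ ⊢
  have hmaps : Set.MapsTo (fun w : ℂ => w + (a : ℂ)) {z : ℂ | 0 < z.im} {z : ℂ | 0 < z.im} := by
    intro w hw
    simpa using hw
  have hcomp : DifferentiableOn ℂ ((φ ∘ ofComplex) ∘ (fun w : ℂ => w + (a : ℂ)))
      {z : ℂ | 0 < z.im} :=
    hφ.comp (by fun_prop) hmaps
  refine hcomp.congr (fun w hw => ?_)
  have hw' : 0 < (w + (a : ℂ)).im := by simpa using hw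
  simp only [Function.comp_apply]
  rw [ofComplex_apply_of_im_pos hw, ofComplex_apply_of_im_pos hw']
  congr 1
  ext
  simp [UpperHalfPlane.coe_vadd, add_comm]

lemma mdiff_cexp_mul (c : ℂ) : MDiff (fun z : ℍ => Complex.exp (c * (z : ℂ))) := by
  rw [UpperHalfPlane.mdifferentiable_iff]
  have h : DifferentiableOn ℂ (fun w : ℂ => Complex.exp (c * w)) {z : ℂ | 0 < z.im} := by
    fun_prop
  refine h.congr (fun w hw => ?_)
  simp only [Function.comp_apply]
  rw [ofComplex_apply_of_im_pos hw]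

lemma mdiff_fourierProj (N r : ℕ) {φ : ℍ → ℂ} (hφ : MDiff φ) : MDiff (fourierProj N r φ) := by
  unfold fourierProj
  have h : ∀ a ∈ Finset.range N,
      MDiff (fun z : ℍ => (zetaN N ^ (r * a))⁻¹ * φ ((a : ℝ) +ᵥ z)) := by
    intro a _
    exact (mdifferentiable_const (c := (zetaN N ^ (r * a))⁻¹)).mul (mdiff_vadd hφ a)
  have h2 : MDiff (fun z : ℍ => ∑ a ∈ Finset.range N,
      (zetaN N ^ (r * a))⁻¹ * φ ((a : ℝ) +ᵥ z)) := by
    have := MDifferentiable.sum (t := Finset.range N)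
      (f := fun a (z : ℍ) => (zetaN N ^ (r * a))⁻¹ * φ ((a : ℝ) +ᵥ z)) (fun a ha => h a ha)
    convert this using 1
    ext z
    simp [Finset.sum_apply]
  exact (mdifferentiable_const (c := (N : ℂ)⁻¹)).mul h2

lemma mdiff_twist (N r : ℕ) {φ : ℍ → ℂ} (hφ : MDiff φ) : MDiff (twist N r φ) := by
  unfold twist
  have h1 : MDiff (fun z : ℍ => Complex.exp (-(2 * π * I * r * (z : ℂ) / N))) := by
    have := mdiff_cexp_mul (-(2 * π * I * r / N))
    convert this using 2 with z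
    ring_nf
  exact h1.mul (mdiff_fourierProj N r hφ)


/-! ### Behaviour at `i∞` -/

lemma periodic_of_vadd_one {g : ℍ → ℂ} (hg : ∀ z : ℍ, g ((1 : ℝ) +ᵥ z) = g z) :
    Periodic (g ∘ ofComplex) ((1 : ℝ) : ℂ) := by
  intro w
  by_cases hw : 0 < w.im
  · have hw' : 0 < (w + ((1 : ℝ) : ℂ)).im := by simpa using hw
    simp only [Function.comp_apply]
    rw [ofComplex_apply_of_im_pos hw, ofComplex_apply_of_im_pos hw']
    rw [← hg ⟨w, hw⟩]
    congr 1
    ext
    simp [UpperHalfPlane.coe_vadd, add_comm]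
  · have hw1 : w.im ≤ 0 := not_lt.mp hw
    have hw' : (w + ((1 : ℝ) : ℂ)).im ≤ 0 := by simpa using hw1
    simp only [Function.comp_apply]
    rw [ofComplex_apply_of_im_nonpos hw', ofComplex_apply_of_im_nonpos hw1]

lemma periodic_twist (N r : ℕ) [NeZero N] {φ : ℍ → ℂ} (hφ : IsPer N φ) :
    Periodic (twist N r φ ∘ ofComplex) ((1 : ℝ) : ℂ) :=
  periodic_of_vadd_one (twist_vadd_one N r hφ)

lemma norm_fourierProj_le (N r : ℕ) [NeZero N] {φ : ℍ → ℂ} {C A : ℝ}
    (hC : ∀ z : ℍ, A ≤ z.im → ‖φ z‖ ≤ C) (z : ℍ) (hz : A ≤ z.im) :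
    ‖fourierProj N r φ z‖ ≤ C := by
  unfold fourierProj
  have hN : (0 : ℝ) < N := Nat.cast_pos.mpr (Nat.pos_of_ne_zero (NeZero.ne N))
  have h1 : ∀ a ∈ Finset.range N, ‖(zetaN N ^ (r * a))⁻¹ * φ ((a : ℝ) +ᵥ z)‖ ≤ C := by
    intro a _
    rw [norm_mul, norm_inv, norm_pow, norm_zetaN, one_pow, inv_one, one_mul]
    exact hC _ (by rw [UpperHalfPlane.vadd_im]; exact hz)
  have h2 : ‖∑ a ∈ Finset.range N, (zetaN N ^ (r * a))⁻¹ * φ ((a : ℝ) +ᵥ z)‖ ≤ N * C := by
    calc ‖∑ a ∈ Finset.range N, (zetaN N ^ (r * a))⁻¹ * φ ((a : ℝ) +ᵥ z)‖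
        ≤ ∑ a ∈ Finset.range N, ‖(zetaN N ^ (r * a))⁻¹ * φ ((a : ℝ) +ᵥ z)‖ := norm_sum_le _ _
      _ ≤ ∑ _a ∈ Finset.range N, C := Finset.sum_le_sum h1
      _ = N * C := by simp
  rw [norm_mul, norm_inv, Complex.norm_natCast]
  calc (N : ℝ)⁻¹ * ‖∑ a ∈ Finset.range N, (zetaN N ^ (r * a))⁻¹ * φ ((a : ℝ) +ᵥ z)‖
      ≤ (N : ℝ)⁻¹ * (N * C) := by gcongr
    _ = C := by field_simp

lemma norm_exp_twist (N r : ℕ) (z : ℍ) :
    ‖Complex.exp (-(2 * π * I * r * (z : ℂ) / N))‖ = Real.exp (2 * π * r * z.im / N) := by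
  rw [Complex.norm_exp]
  congr 1
  have : (-(2 * π * I * r * (z : ℂ) / N)) = ((-(2 * π * r / N) : ℝ) : ℂ) * (z : ℂ) * I := by
    push_cast; ring
  rw [this]
  rw [Complex.mul_I_re]
  simp only [Complex.mul_im, Complex.ofReal_re, Complex.ofReal_im, zero_mul, add_zero,
    UpperHalfPlane.coe_im]
  ring

/-- `exp(2πiz)` on `ℍ`. -/
noncomputable def qOne (z : ℍ) : ℂ := Complex.exp (2 * π * I * (z : ℂ))

lemma norm_qOne (z : ℍ) : ‖qOne z‖ = Real.exp (-(2 * π * z.im)) := by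
  rw [qOne, Complex.norm_exp]
  congr 1
  have : (2 * π * I * (z : ℂ)) = ((2 * π : ℝ) : ℂ) * (z : ℂ) * I := by push_cast; ring
  rw [this, Complex.mul_I_re]
  simp

lemma qOne_ne_zero (z : ℍ) : qOne z ≠ 0 := Complex.exp_ne_zero _

lemma qOne_vadd_one (z : ℍ) : qOne ((1 : ℝ) +ᵥ z) = qOne z := by
  unfold qOne
  rw [UpperHalfPlane.coe_vadd]
  have : 2 * π * I * (((1 : ℝ) : ℂ) + (z : ℂ)) = 2 * π * I * (z : ℂ) + 2 * π * I := by
    push_cast; ring
  rw [this, Complex.exp_add, Complex.exp_two_pi_mul_I, mul_one]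

lemma mdiff_qOne : MDiff qOne := by
  have := mdiff_cexp_mul (2 * π * I)
  exact this

lemma tendsto_exp_neg_mul_im {c : ℝ} (hc : 0 < c) :
    Tendsto (fun z : ℍ => Real.exp (-(c * z.im))) atImInfty (𝓝 0) := by
  have h1 : Tendsto (fun z : ℍ => z.im) atImInfty atTop := tendsto_comap
  have h2 : Tendsto (fun z : ℍ => c * z.im) atImInfty atTop := h1.const_mul_atTop hc
  exact Real.tendsto_exp_neg_atTop_nhds_zero.comp h2

/-- The product `twist · q` tends to zero at `i∞` when `r < N` and `φ` is bounded. -/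
lemma isZeroAtImInfty_twist_mul_qOne (N r : ℕ) [NeZero N] (hr : r < N) {φ : ℍ → ℂ}
    (hb : IsBoundedAtImInfty φ) :
    IsZeroAtImInfty (fun z => twist N r φ z * qOne z) := by
  obtain ⟨C, A, hC⟩ := isBoundedAtImInfty_iff.mp hb
  have hN : (0 : ℝ) < N := Nat.cast_pos.mpr (Nat.pos_of_ne_zero (NeZero.ne N))
  have hC0 : ∀ z : ℍ, A ≤ z.im → 0 ≤ C := fun z hz => le_trans (norm_nonneg _) (hC z hz)
  have hbound : ∀ᶠ z : ℍ in atImInfty, ‖twist N r φ z * qOne z‖
      ≤ C * Real.exp (-((2 * π / N) * z.im)) := by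
    have hmem : {z : ℍ | max A 0 ≤ z.im} ∈ atImInfty :=
      (atImInfty_mem _).mpr ⟨max A 0, fun z hz => hz⟩
    filter_upwards [hmem] with z hz
    have hzA : A ≤ z.im := le_trans (le_max_left _ _) hz
    have hz0 : 0 ≤ z.im := le_trans (le_max_right _ _) hz
    rw [norm_mul, twist, norm_mul, norm_exp_twist, norm_qOne]
    have h1 := norm_fourierProj_le N r hC z hzA
    have hC' : 0 ≤ C := hC0 z hzA
    have hexp : Real.exp (2 * π * r * z.im / N) * Real.exp (-(2 * π * z.im))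
        ≤ Real.exp (-((2 * π / N) * z.im)) := by
      rw [← Real.exp_add]
      apply Real.exp_le_exp.mpr
      have hr' : (r : ℝ) + 1 ≤ N := by exact_mod_cast hr
      have key : 2 * π * r * z.im / N + -(2 * π * z.im) = -(2 * π * z.im * ((N - r) / N)) := by
        field_simp; ring
      rw [key]
      have h3 : (1 : ℝ) / N ≤ (N - r) / N := by
        apply div_le_div_of_nonneg_right _ hN.le
        linarith
      have h4 : 0 ≤ 2 * π * z.im := by positivity
      have : 2 * π / N * z.im = 2 * π * z.im * (1 / N) := by ring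
      rw [this]
      exact neg_le_neg (mul_le_mul_of_nonneg_left h3 h4)
    calc Real.exp (2 * π * r * z.im / N) * ‖fourierProj N r φ z‖ * Real.exp (-(2 * π * z.im))
        = ‖fourierProj N r φ z‖ * (Real.exp (2 * π * r * z.im / N) * Real.exp (-(2 * π * z.im))) := by
          ring
      _ ≤ C * Real.exp (-((2 * π / N) * z.im)) := by
          apply mul_le_mul h1 hexp (by positivity) hC'
  have hlim : Tendsto (fun z : ℍ => C * Real.exp (-((2 * π / N) * z.im))) atImInfty (𝓝 0) := by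
    have := (tendsto_exp_neg_mul_im (c := 2 * π / N) (by positivity)).const_mul C
    simpa using this
  exact squeeze_zero_norm' hbound hlim


lemma isBigO_exp_of_periodic_zero {g : ℍ → ℂ} (hper : ∀ z : ℍ, g ((1 : ℝ) +ᵥ z) = g z)
    (hhol : MDiff g) (hz : IsZeroAtImInfty g) :
    g =O[atImInfty] fun τ : ℍ => Real.exp (-(2 * π * τ.im)) := by
  have h := hz.exp_decay_atImInfty (h := 1) one_pos (periodic_of_vadd_one hper) hhol
    hz.isBoundedAtImInfty
  refine h.congr_right (fun τ => ?_)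
  congr 1
  ring

/-- The twisted projections of a bounded holomorphic `N`-periodic function are bounded at `i∞`. -/
lemma isBoundedAtImInfty_twist (N r : ℕ) [NeZero N] (hr : r < N) {φ : ℍ → ℂ}
    (hper : IsPer N φ) (hhol : MDiff φ) (hb : IsBoundedAtImInfty φ) :
    IsBoundedAtImInfty (twist N r φ) := by
  have hg0 := isZeroAtImInfty_twist_mul_qOne N r hr hb
  have hgper : ∀ z : ℍ, (fun z => twist N r φ z * qOne z) ((1 : ℝ) +ᵥ z)
      = (fun z => twist N r φ z * qOne z) z := by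
    intro z
    simp only [twist_vadd_one N r hper, qOne_vadd_one]
  have hghol : MDiff (fun z => twist N r φ z * qOne z) := (mdiff_twist N r hhol).mul mdiff_qOne
  have hO := isBigO_exp_of_periodic_zero hgper hghol hg0
  -- divide by q
  have hO2 : (twist N r φ) =O[atImInfty] (fun _ : ℍ => (1 : ℝ)) := by
    rw [Asymptotics.isBigO_iff] at hO ⊢
    obtain ⟨c, hc⟩ := hO
    refine ⟨c, ?_⟩
    filter_upwards [hc] with z hz
    rw [norm_mul, norm_qOne, Real.norm_of_nonneg (Real.exp_pos _).le] at hz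
    have hpos : 0 < Real.exp (-(2 * π * z.im)) := Real.exp_pos _
    have := le_of_mul_le_mul_right hz hpos
    simpa using this
  rw [IsBoundedAtImInfty, BoundedAtFilter]
  refine hO2.trans ?_
  exact Asymptotics.isBigO_of_le _ (fun _ => by simp)

/-- The scalar jet: the limit at `i∞` of the twisted projection. -/
noncomputable def jetS (N r : ℕ) (φ : ℍ → ℂ) : ℂ := cuspFunction 1 (twist N r φ) 0

lemma tendsto_twist (N r : ℕ) [NeZero N] (hr : r < N) {φ : ℍ → ℂ}
    (hper : IsPer N φ) (hhol : MDiff φ) (hb : IsBoundedAtImInfty φ) :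
    Tendsto (twist N r φ) atImInfty (𝓝 (jetS N r φ)) := by
  have hbd := isBoundedAtImInfty_twist N r hr hper hhol hb
  have hP := periodic_twist N r hper
  have han := analyticAt_cuspFunction_zero (h := 1) one_pos hP (mdiff_twist N r hhol) hbd
  have : (cuspFunction 1 (twist N r φ) ∘ fun τ : ℍ => Periodic.qParam 1 τ : ℍ → ℂ)
      = twist N r φ := by
    funext τ
    simpa using eq_cuspFunction (h := 1) τ one_ne_zero hP
  have h2 := han.continuousAt.tendsto.comp (qParam_tendsto_atImInfty (h := 1) one_pos)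
  rw [this] at h2
  exact h2

/-- If all jets vanish, the function decays like `q`. -/
lemma isBigO_exp_of_jetS_eq_zero (N : ℕ) [NeZero N] {φ : ℍ → ℂ}
    (hper : IsPer N φ) (hhol : MDiff φ) (hb : IsBoundedAtImInfty φ)
    (hj : ∀ r < N, jetS N r φ = 0) :
    φ =O[atImInfty] fun τ : ℍ => Real.exp (-(2 * π * τ.im)) := by
  have h1 : ∀ r ∈ Finset.range N, (fun z : ℍ => Complex.exp (2 * π * I * r * z / N) * twist N r φ z)
      =O[atImInfty] fun τ : ℍ => Real.exp (-(2 * π * τ.im)) := by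
    intro r hr
    have hr' := Finset.mem_range.mp hr
    have hz : IsZeroAtImInfty (twist N r φ) := by
      have := tendsto_twist N r hr' hper hhol hb
      rw [hj r hr'] at this
      exact this
    have hO := isBigO_exp_of_periodic_zero (twist_vadd_one N r hper) (mdiff_twist N r hhol) hz
    have hexp : (fun z : ℍ => Complex.exp (2 * π * I * r * z / N)) =O[atImInfty]
        (fun _ : ℍ => (1 : ℝ)) := by
      refine Asymptotics.isBigO_of_le _ (fun z => ?_)
      rw [Complex.norm_exp]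
      have : (2 * π * I * r * (z : ℂ) / N) = ((2 * π * r / N : ℝ) : ℂ) * (z : ℂ) * I := by
        push_cast; ring
      rw [this, Complex.mul_I_re]
      simp only [Complex.mul_im, Complex.ofReal_re, Complex.ofReal_im, zero_mul, add_zero,
        UpperHalfPlane.coe_im, norm_one]
      rw [← Real.exp_zero]
      apply Real.exp_le_exp.mpr
      have : 0 ≤ 2 * π * r / N * z.im := by
        have := z.im_pos
        positivity
      linarith
    have := hexp.mul hO
    simpa using this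
  have h2 := Asymptotics.IsBigO.sum h1
  refine h2.congr_left (fun z => ?_)
  rw [eq_sum_exp_mul_twist N φ z, Finset.sum_apply]

end Fermat.Agent.S20
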