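import Mathlib
import Fermat.Prelude.Def_ModularCurve_GenusNumerics
import Fermat.Agent.S20.Basic
import Fermat.Agent.S20.FixedEll
import Fermat.Agent.S20.Index

/-!
# S20 package BG: transport of the combinatorics from `SL(2,ℤ) ⧸ Γ₀(N)` to `Q N`
-/

set_option autoImplicit false

open Matrix Matrix.SpecialLinearGroup CongruenceSubgroup ModularGroup
open scoped MatrixGroups

namespace Fermat.Agent.S20

/-- The image of `g : SL(2,ℤ)` in `𝒮ℒ ≤ GL(2,ℝ)`. -/
def sigma (g : SL(2, ℤ)) : 𝒮ℒ := ⟨mapGL ℝ g, ⟨g, rfl⟩⟩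

theorem sigma_mul (g h : SL(2, ℤ)) : sigma (g * h) = sigma g * sigma h :=
  Subtype.ext (map_mul (mapGL ℝ) g h)

theorem sigma_one : sigma 1 = 1 := Subtype.ext (map_one (mapGL ℝ))

theorem sigma_inv (g : SL(2, ℤ)) : sigma g⁻¹ = (sigma g)⁻¹ :=
  Subtype.ext (map_inv (mapGL ℝ) g)

/-- `sigma` as a monoid homomorphism. -/
def sigmaHom : SL(2, ℤ) →* 𝒮ℒ where
  toFun := sigma
  map_one' := sigma_one
  map_mul' := sigma_mul

theorem sigma_zpow (g : SL(2, ℤ)) (n : ℤ) : sigma (g ^ n) = sigma g ^ n :=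
  map_zpow sigmaHom g n

theorem sigma_surjective : Function.Surjective sigma := by
  rintro ⟨_, g, rfl⟩
  exact ⟨g, rfl⟩

theorem sigma_injective : Function.Injective sigma := fun _ _ hgh =>
  mapGL_injective (congrArg Subtype.val hgh)

theorem sigma_mem_iff (N : ℕ) (g : SL(2, ℤ)) :
    sigma g ∈ (G0 N).subgroupOf 𝒮ℒ ↔ g ∈ Gamma0 N := by
  rw [Subgroup.mem_subgroupOf]
  exact Subgroup.mem_map_iff_mem mapGL_injective

/-- The map `SL(2,ℤ) ⧸ Γ₀(N) → Q N`. -/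
def toQ (N : ℕ) : SL(2, ℤ) ⧸ Gamma0 N → Q N :=
  Quotient.map' sigma (fun _ _ h => by
    rw [QuotientGroup.leftRel_apply] at h ⊢
    rw [← sigma_inv, ← sigma_mul, sigma_mem_iff]
    exact h)

theorem toQ_mk (N : ℕ) (g : SL(2, ℤ)) :
    toQ N (g : SL(2, ℤ) ⧸ Gamma0 N) = ((sigma g : 𝒮ℒ) : Q N) := rfl

theorem toQ_bijective (N : ℕ) : Function.Bijective (toQ N) := by
  constructor
  · intro a b hab
    obtain ⟨g, rfl⟩ := QuotientGroup.mk_surjective a
    obtain ⟨h, rfl⟩ := QuotientGroup.mk_surjective b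
    rw [toQ_mk, toQ_mk, QuotientGroup.eq, ← sigma_inv, ← sigma_mul, sigma_mem_iff] at hab
    exact QuotientGroup.eq.mpr hab
  · intro q
    obtain ⟨s, rfl⟩ := QuotientGroup.mk_surjective q
    obtain ⟨g, rfl⟩ := sigma_surjective s
    exact ⟨(g : SL(2, ℤ) ⧸ Gamma0 N), rfl⟩

/-- The equivalence `SL(2,ℤ) ⧸ Γ₀(N) ≃ Q N`. -/
noncomputable def equivQ (N : ℕ) : SL(2, ℤ) ⧸ Gamma0 N ≃ Q N :=
  Equiv.ofBijective (toQ N) (toQ_bijective N)

theorem equivQ_apply (N : ℕ) (q : SL(2, ℤ) ⧸ Gamma0 N) : equivQ N q = toQ N q := rfl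

/-- Equivariance of `toQ`. -/
theorem toQ_smul (N : ℕ) (g : SL(2, ℤ)) (q : SL(2, ℤ) ⧸ Gamma0 N) :
    toQ N (g • q) = sigma g • toQ N q := by
  obtain ⟨h, rfl⟩ := QuotientGroup.mk_surjective q
  rw [MulAction.Quotient.smul_mk, smul_eq_mul, toQ_mk, toQ_mk, MulAction.Quotient.smul_mk,
    smul_eq_mul, sigma_mul]

/-- BG1: `#Q N = ψ(N)`. -/
theorem card_Q (N : ℕ) [NeZero N] : Fintype.card (Q N) = ModularCurve.dedekindPsi N := by
  rw [← Nat.card_eq_fintype_card, ← Nat.card_congr (equivQ N), card_quot_Gamma0]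

theorem natCard_Q (N : ℕ) [NeZero N] : Nat.card (Q N) = ModularCurve.dedekindPsi N := by
  rw [← Nat.card_congr (equivQ N), card_quot_Gamma0]

/-- Fixed points correspond. -/
theorem card_fixed_sigma (N : ℕ) (g : SL(2, ℤ)) :
    Nat.card {q : Q N // sigma g • q = q} =
      Nat.card {q : SL(2, ℤ) ⧸ Gamma0 N // g • q = q} := by
  refine (Nat.card_congr (Equiv.subtypeEquiv (equivQ N) fun q => ?_)).symm
  rw [equivQ_apply, ← toQ_smul]
  exact ((toQ_bijective N).1.eq_iff).symm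

/-- BG3: the number of fixed points of `σ S` on `Q N` is `ν₂(N)`. -/
theorem card_fixed_sigma_S (N : ℕ) [NeZero N] :
    Nat.card {q : Q N // sigma ModularGroup.S • q = q} = ModularCurve.nuTwo N := by
  rw [card_fixed_sigma, card_fixed_S]

/-- BG4: the number of fixed points of `σ (S T)` on `Q N` is `ν₃(N)`. -/
theorem card_fixed_sigma_ST (N : ℕ) [NeZero N] :
    Nat.card {q : Q N // sigma (ModularGroup.S * ModularGroup.T) • q = q} =
      ModularCurve.nuThree N := by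
  rw [card_fixed_sigma, card_fixed_ST]

/-- The shift of `Basic.lean` is the action of `σ(T)⁻¹`. -/
theorem shift_apply (N : ℕ) (q : Q N) : shift N q = (sigma ModularGroup.T)⁻¹ • q := rfl

theorem shift_zpow_apply (N : ℕ) (n : ℤ) (q : Q N) :
    (shift N ^ n) q = (sigma ModularGroup.T)⁻¹ ^ n • q := by
  have h : shift N = MulAction.toPermHom 𝒮ℒ (Q N) (sigma ModularGroup.T)⁻¹ := rfl
  rw [h, ← map_zpow]
  rfl

theorem shift_zpow_toQ (N : ℕ) (n : ℤ) (q : SL(2, ℤ) ⧸ Gamma0 N) :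
    (shift N ^ n) (toQ N q) = toQ N (ModularGroup.T⁻¹ ^ n • q) := by
  rw [shift_zpow_apply, toQ_smul, sigma_zpow, sigma_inv]

/-- The orbit spaces of `⟨shift⟩` on `Q N` and of `⟨T⟩` on `SL(2,ℤ) ⧸ Γ₀(N)` are in bijection. -/
theorem numCusps_eq_card_orbits (N : ℕ) :
    numCusps N = Nat.card (MulAction.orbitRel.Quotient (Subgroup.zpowers ModularGroup.T)
      (SL(2, ℤ) ⧸ Gamma0 N)) := by
  rw [numCusps]
  refine (Nat.card_congr (Quotient.congr (equivQ N) fun a b => ?_)).symm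
  rw [MulAction.orbitRel_apply, MulAction.orbitRel_apply, MulAction.mem_orbit_iff,
    MulAction.mem_orbit_iff]
  constructor
  · rintro ⟨⟨t, ht⟩, h⟩
    obtain ⟨n, rfl⟩ := Subgroup.mem_zpowers_iff.mp ht
    refine ⟨⟨shift N ^ (-n), Subgroup.zpow_mem_zpowers _ _⟩, ?_⟩
    change (shift N ^ (-n)) (equivQ N b) = equivQ N a
    rw [equivQ_apply, equivQ_apply, shift_zpow_toQ]
    congr 1
    rw [← h]
    change _ = ModularGroup.T ^ n • b
    rw [_root_.inv_zpow', neg_neg]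
  · rintro ⟨⟨t, ht⟩, h⟩
    obtain ⟨n, rfl⟩ := Subgroup.mem_zpowers_iff.mp ht
    refine ⟨⟨ModularGroup.T ^ (-n), Subgroup.zpow_mem_zpowers _ _⟩, ?_⟩
    change (shift N ^ n) (equivQ N b) = equivQ N a at h
    rw [equivQ_apply, equivQ_apply, shift_zpow_toQ] at h
    have h2 := (toQ_bijective N).1 h
    change ModularGroup.T ^ (-n) • b = a
    rw [← h2, _root_.inv_zpow']

end Fermat.Agent.S20
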