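import Mathlib
import Fermat.Agent.S20.Basic
import Fermat.Agent.S20.Glue

/-!
# S20 cusp package, pure algebra: SA1, SA2, SA3

* `shift_pow_level` : `(shift N) ^ N = 1`
* `eigen_separation` : eigenvectors of `shift` for distinct `N`-th roots of unity are independent
* `finrank_shift_invariants` : the space of `shift`-invariant functions on `Q N` has dimension
  `numCusps N`
-/

set_option autoImplicit false

open Matrix Matrix.SpecialLinearGroup CongruenceSubgroup ModularGroup
open scoped MatrixGroups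

namespace Fermat.Agent.S20

/-! ### SA1 -/

theorem T_zpow_smul (N : ℕ) (n : ℤ) (hn : (N : ℤ) ∣ n) (q : SL(2, ℤ) ⧸ Gamma0 N) :
    ModularGroup.T ^ n • q = q := by
  obtain ⟨g, rfl⟩ := QuotientGroup.mk_surjective q
  rw [MulAction.Quotient.smul_mk, smul_eq_mul, eq_comm, QuotientGroup.eq, Gamma0_mem,
    lowerLeft_inv_mul]
  have h00 : ((ModularGroup.T ^ n * g : SL(2, ℤ)) : Matrix (Fin 2) (Fin 2) ℤ) 0 0 =
      g 0 0 + n * g 1 0 := by
    rw [Matrix.SpecialLinearGroup.coe_mul, ModularGroup.coe_T_zpow]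
    simp [Matrix.mul_apply, Fin.sum_univ_two]
  have h10 : ((ModularGroup.T ^ n * g : SL(2, ℤ)) : Matrix (Fin 2) (Fin 2) ℤ) 1 0 = g 1 0 := by
    rw [Matrix.SpecialLinearGroup.coe_mul, ModularGroup.coe_T_zpow]
    simp [Matrix.mul_apply, Fin.sum_univ_two]
  rw [h00, h10, ZMod.intCast_zmod_eq_zero_iff_dvd]
  obtain ⟨m, rfl⟩ := hn
  exact ⟨-(m * g 1 0 ^ 2), by ring⟩

/-- SA1: the `N`-th power of the shift is trivial. -/
theorem shift_pow_level (N : ℕ) [NeZero N] : (shift N) ^ N = 1 := by
  ext q
  obtain ⟨q, rfl⟩ := (toQ_bijective N).2 q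
  rw [← zpow_natCast, shift_zpow_toQ, Equiv.Perm.coe_one, id_eq, _root_.inv_zpow']
  congr 1
  exact T_zpow_smul N _ (Dvd.intro_left (-1) (by ring)) q

/-! ### SA2 -/

theorem shift_pow_eigen (N : ℕ) (c : ℂ) (w : Q N → ℂ)
    (hw : ∀ q, w (shift N q) = c * w q) (a : ℕ) (q : Q N) :
    w ((shift N ^ a) q) = c ^ a * w q := by
  induction a generalizing q with
  | zero => simp
  | succ a ih =>
    rw [pow_succ, Equiv.Perm.coe_mul, Function.comp_apply, ih, hw, pow_succ]
    ring

/-- SA2: eigen-separation for the shift. -/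
theorem eigen_separation (N : ℕ) [NeZero N] (ζ : ℂ) (hζ : IsPrimitiveRoot ζ N)
    (v : ℕ → Q N → ℂ)
    (hv : ∀ r < N, ∀ q, v r (shift N q) = ζ ^ r * v r q)
    (hsum : ∀ q, ∑ r ∈ Finset.range N, v r q = 0) :
    ∀ r < N, ∀ q, v r q = 0 := by
  intro s hs q
  have hN : N ≠ 0 := NeZero.ne N
  -- the averaged identity
  have h1 : ∑ a ∈ Finset.range N, ζ ^ ((N - s) * a) *
      ∑ r ∈ Finset.range N, v r ((shift N ^ a) q) = 0 := by
    refine Finset.sum_eq_zero fun a _ => ?_
    rw [hsum, mul_zero]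
  have h2 : ∑ a ∈ Finset.range N, ζ ^ ((N - s) * a) *
      ∑ r ∈ Finset.range N, v r ((shift N ^ a) q) =
      ∑ r ∈ Finset.range N, (∑ a ∈ Finset.range N, (ζ ^ (r + (N - s))) ^ a) * v r q := by
    simp_rw [Finset.mul_sum, Finset.sum_mul]
    rw [Finset.sum_comm]
    refine Finset.sum_congr rfl fun r hr => Finset.sum_congr rfl fun a _ => ?_
    rw [shift_pow_eigen N (ζ ^ r) (v r) (hv r (Finset.mem_range.mp hr)) a q]
    rw [← pow_mul, ← pow_mul, ← mul_assoc, ← pow_add]
    congr 2
    ring
  have h3 : ∀ r ∈ Finset.range N, r ≠ s →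
      (∑ a ∈ Finset.range N, (ζ ^ (r + (N - s))) ^ a) * v r q = 0 := by
    intro r hr hrs
    have hr' := Finset.mem_range.mp hr
    have hne : ζ ^ (r + (N - s)) ≠ 1 := by
      intro h
      have hdvd := (hζ.pow_eq_one_iff_dvd _).mp h
      have : N ∣ r + (N - s) := hdvd
      obtain ⟨k, hk⟩ := this
      have hk1 : k = 1 := by
        have h1 : 0 < k := Nat.pos_of_ne_zero (by rintro rfl; omega)
        have h2 : k < 2 := by
          by_contra h
          have : N * 2 ≤ N * k := Nat.mul_le_mul_left N (by omega)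
          omega
        omega
      subst hk1
      omega
    have hpow : (ζ ^ (r + (N - s))) ^ N = 1 := by
      rw [← pow_mul, mul_comm, pow_mul, hζ.pow_eq_one, one_pow]
    rw [geom_sum_eq hne, hpow, sub_self, zero_div, zero_mul]
  rw [h2, Finset.sum_eq_single_of_mem s (Finset.mem_range.mpr hs) h3] at h1
  have h4 : ζ ^ (s + (N - s)) = 1 := by
    rw [Nat.add_sub_cancel' hs.le, hζ.pow_eq_one]
  rw [h4] at h1
  simp only [one_pow, Finset.sum_const, Finset.card_range, nsmul_eq_mul, mul_one] at h1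
  rcases mul_eq_zero.mp h1 with h | h
  · exact absurd h (Nat.cast_ne_zero.mpr hN)
  · exact h

/-! ### SA3 -/

/-- The submodule of `shift`-invariant functions on `Q N`. -/
def shiftInvariants (N : ℕ) : Submodule ℂ (Q N → ℂ) where
  carrier := {v | ∀ q, v (shift N q) = v q}
  add_mem' := fun {v w} hv hw q => by simp only [Pi.add_apply, hv q, hw q]
  zero_mem' := fun q => rfl
  smul_mem' := fun c v hv q => by simp only [Pi.smul_apply, hv q]

theorem mem_shiftInvariants (N : ℕ) (v : Q N → ℂ) :
    v ∈ shiftInvariants N ↔ ∀ q, v (shift N q) = v q := Iff.rfl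

theorem invariant_zpow (N : ℕ) (v : Q N → ℂ) (hv : ∀ q, v (shift N q) = v q) (n : ℤ)
    (q : Q N) : v ((shift N ^ n) q) = v q := by
  induction n using Int.induction_on generalizing q with
  | zero => simp
  | succ n ih =>
    rw [_root_.zpow_add_one, Equiv.Perm.coe_mul, Function.comp_apply, ih, hv]
  | pred n ih =>
    rw [_root_.zpow_sub_one, Equiv.Perm.coe_mul, Function.comp_apply, ih]
    have := hv ((shift N)⁻¹ q)
    simpa using this.symm

/-- SA3: the dimension of the space of shift-invariant functions is the number of cusps. -/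
theorem finrank_shift_invariants (N : ℕ) [NeZero N] :
    Module.finrank ℂ (shiftInvariants N) = numCusps N := by
  classical
  let Ω := MulAction.orbitRel.Quotient (Subgroup.zpowers (shift N)) (Q N)
  let mk : Q N → Ω := Quotient.mk''
  have hmk : Function.Surjective mk := Quotient.mk''_surjective
  have : Finite Ω := Finite.of_surjective mk hmk
  haveI : Fintype Ω := Fintype.ofFinite Ω
  let Φ : (Ω → ℂ) →ₗ[ℂ] (Q N → ℂ) := LinearMap.funLeft ℂ ℂ mk
  have hΦinj : Function.Injective Φ := LinearMap.funLeft_injective_of_surjective ℂ ℂ mk hmk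
  have hrange : LinearMap.range Φ = shiftInvariants N := by
    ext v
    constructor
    · rintro ⟨f, rfl⟩ q
      change f (mk (shift N q)) = f (mk q)
      congr 1
      apply Quotient.sound'
      rw [MulAction.orbitRel_apply, MulAction.mem_orbit_iff]
      exact ⟨⟨shift N, Subgroup.mem_zpowers _⟩, rfl⟩
    · intro hv
      refine ⟨Quotient.lift v (fun a b hab => ?_), ?_⟩
      · have hab' : a ∈ MulAction.orbit (Subgroup.zpowers (shift N)) b := hab
        rw [MulAction.mem_orbit_iff] at hab'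
        obtain ⟨⟨t, ht⟩, rfl⟩ := hab'
        obtain ⟨n, rfl⟩ := Subgroup.mem_zpowers_iff.mp ht
        exact invariant_zpow N v hv n b
      · ext q
        rfl
  rw [← hrange, LinearMap.finrank_range_of_inj hΦinj, Module.finrank_fintype_fun_eq_card,
    numCusps, Nat.card_eq_fintype_card]

end Fermat.Agent.S20
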