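/-
S20, CUSP package (helper32 for helper20): the explicit "Fourier matrix" `Emat` that turns the
frame matrix `A(z)` into twisted Fourier projections, and division by the discriminant.
-/
import Fermat.Agent.S20.Conj
import Fermat.Agent.S20.ShiftAlg
import Fermat.Agent.S20.CuspFourier

set_option autoImplicit false
set_option linter.unusedSectionVars false

open Complex Filter Function Asymptotics
open CongruenceSubgroup ModularForm SlashInvariantForm
open UpperHalfPlane hiding I
open scoped Real Topology Manifold MatrixGroups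

namespace Fermat.Agent.S20

variable {N : ℕ} [NeZero N] {k : ℤ}

/-- (CM1) `F_{shift^a q}(z) = F_q(z + a)`. -/
theorem cj_shift_pow (F : ModularForm (G0 N) k) (a : ℕ) (q : Q N) (z : ℍ) :
    cj F (((shift N) ^ a) q) z = cj F q ((a : ℝ) +ᵥ z) := by
  induction a generalizing z with
  | zero =>
    simp only [pow_zero, Equiv.Perm.coe_one, id_eq, Nat.cast_zero]
    congr 1
    ext
    simp
  | succ a ih =>
    rw [pow_succ', Equiv.Perm.mul_apply, cj_shift, ih, vadd_vadd_nat]
    congr 2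
    push_cast
    ring

/-- (CM2) every conjugate of a form on `Γ0(N)` is `N`-periodic. -/
theorem cj_isPer (F : ModularForm (G0 N) k) (q : Q N) : IsPer N (cj F q) := by
  intro z
  rw [← cj_shift_pow, shift_pow_level]
  rfl

/-- (CM3) the Fourier matrix. -/
noncomputable def Emat (N : ℕ) (z : ℍ) : Matrix (Q N) (Q N) ℂ := fun q' q =>
  ∑ r ∈ Finset.range N, Complex.exp (-(2 * π * I * r * z / N)) *
    ((N : ℂ)⁻¹ * ∑ a ∈ Finset.range N,
      if ((shift N) ^ a) q = q' then (zetaN N ^ (r * a))⁻¹ else 0)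

/-- (CM4) a row of conjugates times `Emat` is the sum of the twisted Fourier projections. -/
theorem row_mul_Emat (F : ModularForm (G0 N) k) (z : ℍ) (q : Q N) :
    ∑ q', cj F q' z * Emat N z q' q = ∑ r ∈ Finset.range N, twist N r (cj F q) z := by
  unfold Emat twist fourierProj
  simp only [Finset.mul_sum]
  rw [Finset.sum_comm]
  refine Finset.sum_congr rfl fun r _ => ?_
  rw [Finset.sum_comm]
  refine Finset.sum_congr rfl fun a _ => ?_
  rw [Finset.sum_eq_single (((shift N) ^ a) q)]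
  · rw [if_pos rfl, cj_shift_pow]
    ring
  · intro b _ hb
    rw [if_neg (Ne.symm hb)]
    ring
  · intro hb
    exact absurd (Finset.mem_univ _) hb

/-- (CM4') the frame matrix times `Emat`. -/
theorem A_mul_Emat (Φ : Frame N) (z : ℍ) (i q : Q N) :
    (Φ.A z * Emat N z) i q = ∑ r ∈ Finset.range N, twist N r (cj (Φ.f i) q) z := by
  rw [Matrix.mul_apply]
  exact row_mul_Emat (Φ.f i) z q

/-- (CM5) a crude bound for the entries of `Emat`. -/
theorem norm_Emat_le (z : ℍ) (q' q : Q N) :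
    ‖Emat N z q' q‖ ≤ N * Real.exp (2 * π * (N - 1) * z.im / N) := by
  have hN : (0 : ℝ) < N := Nat.cast_pos.mpr (Nat.pos_of_ne_zero (NeZero.ne N))
  have hinner : ∀ r : ℕ, ‖((N : ℂ)⁻¹ * ∑ a ∈ Finset.range N,
      if ((shift N) ^ a) q = q' then (zetaN N ^ (r * a))⁻¹ else 0)‖ ≤ 1 := by
    intro r
    have h1 : ∀ a ∈ Finset.range N,
        ‖(if ((shift N) ^ a) q = q' then (zetaN N ^ (r * a))⁻¹ else (0 : ℂ))‖ ≤ 1 := by
      intro a _
      split_ifs
      · rw [norm_inv, norm_pow, norm_zetaN, one_pow, inv_one]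
      · simp
    have h2 : ‖∑ a ∈ Finset.range N,
        (if ((shift N) ^ a) q = q' then (zetaN N ^ (r * a))⁻¹ else (0 : ℂ))‖ ≤ N := by
      calc ‖∑ a ∈ Finset.range N,
            (if ((shift N) ^ a) q = q' then (zetaN N ^ (r * a))⁻¹ else (0 : ℂ))‖
          ≤ ∑ a ∈ Finset.range N,
            ‖(if ((shift N) ^ a) q = q' then (zetaN N ^ (r * a))⁻¹ else (0 : ℂ))‖ :=
            norm_sum_le _ _
        _ ≤ ∑ _a ∈ Finset.range N, (1 : ℝ) := Finset.sum_le_sum h1
        _ = N := by simp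
    rw [norm_mul, norm_inv, Complex.norm_natCast]
    calc (N : ℝ)⁻¹ * _ ≤ (N : ℝ)⁻¹ * N := by gcongr
      _ = 1 := by field_simp
  have hterm : ∀ r ∈ Finset.range N,
      ‖Complex.exp (-(2 * π * I * r * z / N)) * ((N : ℂ)⁻¹ * ∑ a ∈ Finset.range N,
        if ((shift N) ^ a) q = q' then (zetaN N ^ (r * a))⁻¹ else 0)‖
      ≤ Real.exp (2 * π * (N - 1) * z.im / N) := by
    intro r hr
    rw [norm_mul, norm_exp_twist]
    have hr' : (r : ℝ) ≤ N - 1 := by
      have : r + 1 ≤ N := Finset.mem_range.mp hr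
      have : ((r + 1 : ℕ) : ℝ) ≤ N := by exact_mod_cast this
      push_cast at this
      linarith
    have hexp : Real.exp (2 * π * r * z.im / N) ≤ Real.exp (2 * π * (N - 1) * z.im / N) := by
      apply Real.exp_le_exp.mpr
      have hz : 0 < z.im := z.im_pos
      have hpi : 0 < π := Real.pi_pos
      apply div_le_div_of_nonneg_right _ hN.le
      have : 2 * π * (r : ℝ) ≤ 2 * π * (N - 1) := by nlinarith
      nlinarith
    calc Real.exp (2 * π * r * z.im / N) * _
        ≤ Real.exp (2 * π * (N - 1) * z.im / N) * 1 := by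
          apply mul_le_mul hexp (hinner r) (norm_nonneg _) (Real.exp_pos _).le
      _ = _ := mul_one _
  unfold Emat
  calc ‖∑ r ∈ Finset.range N, Complex.exp (-(2 * π * I * r * z / N)) *
        ((N : ℂ)⁻¹ * ∑ a ∈ Finset.range N,
          if ((shift N) ^ a) q = q' then (zetaN N ^ (r * a))⁻¹ else 0)‖
      ≤ ∑ r ∈ Finset.range N, ‖Complex.exp (-(2 * π * I * r * z / N)) *
        ((N : ℂ)⁻¹ * ∑ a ∈ Finset.range N,
          if ((shift N) ^ a) q = q' then (zetaN N ^ (r * a))⁻¹ else 0)‖ := norm_sum_le _ _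
    _ ≤ ∑ _r ∈ Finset.range N, Real.exp (2 * π * (N - 1) * z.im / N) := Finset.sum_le_sum hterm
    _ = N * Real.exp (2 * π * (N - 1) * z.im / N) := by simp


/-! ### Division by the discriminant -/

/-- Slash of `h / Δ` by an element of `SL(2,ℤ)`. -/
theorem div_disc_slash {K : ℤ} (h : ModularForm (G0 N) K) (γ : SL(2, ℤ)) :
    (fun z => h z / ModularForm.discriminant z) ∣[K - 12] γ
      = fun z => ((⇑h) ∣[K] γ) z / ModularForm.discriminant z := by
  have hγ : (γ : GL (Fin 2) ℝ) ∈ 𝒮ℒ := ⟨γ, rfl⟩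
  change (⇑h / ⇑CuspForm.discriminant) ∣[K - 12] γ = _
  rw [div_slash_SL2]
  have h2 : (⇑CuspForm.discriminant) ∣[(12 : ℤ)] γ = ⇑CuspForm.discriminant := by
    rw [SL_slash]
    exact SlashInvariantForm.slash_action_eqn CuspForm.discriminant _ hγ
  rw [h2]
  rfl

/-- (CM6) a form on `Γ0(N)` all of whose conjugates are `O(e^{-2π Im z})` is divisible by `Δ`. -/
theorem div_disc {K : ℤ} (h : ModularForm (G0 N) K)
    (hO : ∀ q : Q N, cj h q =O[atImInfty] fun τ : ℍ => Real.exp (-(2 * π * τ.im))) :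
    ∃ h' : ModularForm (G0 N) (K - 12), ∀ z, h z = ModularForm.discriminant z * h' z := by
  refine ⟨{ toFun := fun z => h z / ModularForm.discriminant z
            slash_action_eq' := ?_
            holo' := h.holo'.div CuspForm.discriminant.holo' discriminant_ne_zero
            bdd_at_cusps' := ?_ }, fun z => ?_⟩
  · rintro _ ⟨γ, hγ, rfl⟩
    have h1 := div_disc_slash h γ
    have h2 : (⇑h) ∣[K] γ = ⇑h := SlashInvariantForm.slash_action_eqn h _ ⟨γ, hγ, rfl⟩
    rw [h2] at h1
    exact h1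
  · intro c hc
    rw [Subgroup.IsArithmetic.isCusp_iff_isCusp_SL2Z] at hc
    rw [OnePoint.isBoundedAt_iff_forall_SL2Z hc]
    intro γ _
    rw [div_disc_slash h γ, IsBoundedAtImInfty, BoundedAtFilter]
    have h3 : (⇑h) ∣[K] γ = cj h (mkQ N γ⁻¹) := by rw [cj_mkQ, inv_inv]
    rw [h3]
    have h4 : cj h (mkQ N γ⁻¹) =O[atImInfty] ModularForm.discriminant :=
      (hO (mkQ N γ⁻¹)).trans (by simpa using exp_isBigO_discriminant)
    exact (div_isBoundedUnder_of_isBigO h4).isBigO_one ℝ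
  · change h z = ModularForm.discriminant z * (h z / ModularForm.discriminant z)
    rw [mul_div_cancel₀ _ (discriminant_ne_zero z)]

/-- Conjugates of `h = Δ · h'`. -/
theorem cj_eq_disc_mul {K : ℤ} (h : ModularForm (G0 N) K) (h' : ModularForm (G0 N) (K - 12))
    (hh : ∀ z, h z = ModularForm.discriminant z * h' z) (q : Q N) (z : ℍ) :
    cj h q z = ModularForm.discriminant z * cj h' q z := by
  obtain ⟨γ, rfl⟩ := mkQ_surjective q
  rw [cj_mkQ, cj_mkQ]
  have hfun : (⇑h : ℍ → ℂ) = ⇑CuspForm.discriminant * ⇑h' := funext hh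
  have hγ : ((γ⁻¹ : SL(2, ℤ)) : GL (Fin 2) ℝ) ∈ 𝒮ℒ := ⟨γ⁻¹, rfl⟩
  have h1 : (⇑CuspForm.discriminant * ⇑h') ∣[(12 : ℤ) + (K - 12)] γ⁻¹
      = (⇑CuspForm.discriminant) ∣[(12 : ℤ)] γ⁻¹ * (⇑h') ∣[K - 12] γ⁻¹ :=
    mul_slash_SL2 _ _ γ⁻¹ _ _
  have h2 : (⇑CuspForm.discriminant) ∣[(12 : ℤ)] γ⁻¹ = ⇑CuspForm.discriminant := by
    rw [SL_slash]
    exact SlashInvariantForm.slash_action_eqn CuspForm.discriminant _ hγ
  have h3 : (12 : ℤ) + (K - 12) = K := by ring
  rw [h3, ← hfun, h2] at h1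
  rw [h1]
  rfl

/-- (CM7) cusp version of `div_disc`: if all conjugates of `h` are `o(e^{-2π Im z})`, the
quotient `h / Δ` has all conjugates vanishing at `i∞`. -/
theorem div_disc_cusp {K : ℤ} (h : ModularForm (G0 N) K)
    (ho : ∀ q : Q N, cj h q =o[atImInfty] fun τ : ℍ => Real.exp (-(2 * π * τ.im))) :
    ∃ h' : ModularForm (G0 N) (K - 12),
      (∀ z, h z = ModularForm.discriminant z * h' z) ∧ ∀ q, IsZeroAtImInfty (cj h' q) := by
  obtain ⟨h', hh'⟩ := div_disc h (fun q => (ho q).isBigO)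
  refine ⟨h', hh', fun q => ?_⟩
  have h4 : cj h q =o[atImInfty] ModularForm.discriminant :=
    (ho q).trans_isBigO (by simpa using exp_isBigO_discriminant)
  have h5 : Tendsto (fun z => cj h q z / ModularForm.discriminant z) atImInfty (𝓝 0) :=
    h4.tendsto_div_nhds_zero
  have h6 : (fun z => cj h q z / ModularForm.discriminant z) = cj h' q := by
    funext z
    rw [cj_eq_disc_mul h h' hh' q z, mul_div_cancel_left₀ _ (discriminant_ne_zero z)]
  rw [h6] at h5
  exact h5

/-- (CM7') the same with the hypothesis phrased as a limit. -/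
theorem div_disc_cusp' {K : ℤ} (h : ModularForm (G0 N) K)
    (ho : ∀ q : Q N, Tendsto (fun τ : ℍ => cj h q τ * (Real.exp (2 * π * τ.im) : ℂ))
      atImInfty (𝓝 0)) :
    ∃ h' : ModularForm (G0 N) (K - 12),
      (∀ z, h z = ModularForm.discriminant z * h' z) ∧ ∀ q, IsZeroAtImInfty (cj h' q) := by
  refine div_disc_cusp h fun q => ?_
  have h1 : cj h q =o[atImInfty] fun τ : ℍ => ((Real.exp (-(2 * π * τ.im)) : ℝ) : ℂ) := by
    rw [Asymptotics.isLittleO_iff_tendsto]
    · refine (ho q).congr fun τ => ?_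
      rw [Real.exp_neg, Complex.ofReal_inv, div_inv_eq_mul]
    · intro τ hτ
      exact absurd (Complex.ofReal_eq_zero.mp hτ) (Real.exp_pos _).ne'
  exact h1.trans_isBigO (Asymptotics.isBigO_of_le _ fun τ => by
    rw [Complex.norm_real])

end Fermat.Agent.S20
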