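/-
S20, package CUSP (helper20): jets of the conjugates `cj F q` at `i∞`.

For `F ∈ M_k(Γ0(N))` and a coset `q`, the conjugate `cj F q` is `N`-periodic, holomorphic and
bounded at `i∞`; `jetR r F q` is the limit at `i∞` of the `r`-th twisted Fourier projection
`twist N r (cj F q)` (`r < N`), `jet F q = ∑_{r<N} jetR r F q`, and a frame is `CuspGood` if the
matrix `Binf = (jet (f i) q)` is invertible.
-/
import Fermat.Agent.S20.CuspMat

set_option autoImplicit false
set_option linter.unusedSectionVars false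

open Complex Filter Function Asymptotics
open UpperHalfPlane hiding I
open CongruenceSubgroup ModularForm
open scoped Real Topology Manifold MatrixGroups

namespace Fermat.Agent.S20

variable {N : ℕ} [NeZero N] {k : ℤ}

/-! ### Algebra of the Fourier projections -/

lemma fourierProj_add (N r : ℕ) (φ ψ : ℍ → ℂ) (z : ℍ) :
    fourierProj N r (φ + ψ) z = fourierProj N r φ z + fourierProj N r ψ z := by
  unfold fourierProj
  simp only [Pi.add_apply, mul_add, Finset.sum_add_distrib]

lemma fourierProj_smul (N r : ℕ) (c : ℂ) (φ : ℍ → ℂ) (z : ℍ) :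
    fourierProj N r (c • φ) z = c * fourierProj N r φ z := by
  unfold fourierProj
  simp only [Pi.smul_apply, smul_eq_mul, Finset.mul_sum]
  refine Finset.sum_congr rfl fun a _ => ?_
  ring

lemma fourierProj_zero (N r : ℕ) (z : ℍ) : fourierProj N r (0 : ℍ → ℂ) z = 0 := by
  unfold fourierProj
  simp

lemma twist_add (N r : ℕ) (φ ψ : ℍ → ℂ) (z : ℍ) :
    twist N r (φ + ψ) z = twist N r φ z + twist N r ψ z := by
  unfold twist
  rw [fourierProj_add, mul_add]

lemma twist_smul (N r : ℕ) (c : ℂ) (φ : ℍ → ℂ) (z : ℍ) :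
    twist N r (c • φ) z = c * twist N r φ z := by
  unfold twist
  rw [fourierProj_smul]
  ring

lemma twist_zero (N r : ℕ) (z : ℍ) : twist N r (0 : ℍ → ℂ) z = 0 := by
  unfold twist
  rw [fourierProj_zero, mul_zero]

lemma twist_sum (N r : ℕ) {ι : Type*} (s : Finset ι) (φ : ι → ℍ → ℂ) (z : ℍ) :
    twist N r (∑ i ∈ s, φ i) z = ∑ i ∈ s, twist N r (φ i) z := by
  classical
  induction s using Finset.induction_on with
  | empty => simp [twist_zero]
  | insert a s ha ih => rw [Finset.sum_insert ha, Finset.sum_insert ha, twist_add, ih]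

lemma vadd_nat_of_vadd_one {a : ℍ → ℂ} (ha : ∀ z : ℍ, a ((1 : ℝ) +ᵥ z) = a z) (j : ℕ) (z : ℍ) :
    a ((j : ℝ) +ᵥ z) = a z := by
  induction j with
  | zero => simp
  | succ j ih =>
    have : (((j + 1 : ℕ) : ℝ)) +ᵥ z = (1 : ℝ) +ᵥ ((j : ℝ) +ᵥ z) := by
      rw [vadd_vadd_nat]
      push_cast
      rw [add_comm]
    rw [this, ha, ih]

lemma fourierProj_mul_periodic (N r : ℕ) {a : ℍ → ℂ} (ha : ∀ z : ℍ, a ((1 : ℝ) +ᵥ z) = a z)
    (φ : ℍ → ℂ) (z : ℍ) : fourierProj N r (a * φ) z = a z * fourierProj N r φ z := by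
  unfold fourierProj
  simp only [Pi.mul_apply, Finset.mul_sum]
  refine Finset.sum_congr rfl fun j _ => ?_
  rw [vadd_nat_of_vadd_one ha]
  ring

lemma twist_mul_periodic (N r : ℕ) {a : ℍ → ℂ} (ha : ∀ z : ℍ, a ((1 : ℝ) +ᵥ z) = a z)
    (φ : ℍ → ℂ) (z : ℍ) : twist N r (a * φ) z = a z * twist N r φ z := by
  unfold twist
  rw [fourierProj_mul_periodic N r ha]
  ring

lemma fourierProj_comp_vadd_one (N r : ℕ) (φ : ℍ → ℂ) (z : ℍ) :
    fourierProj N r (fun w => φ ((1 : ℝ) +ᵥ w)) z = fourierProj N r φ ((1 : ℝ) +ᵥ z) := by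
  unfold fourierProj
  congr 1
  refine Finset.sum_congr rfl fun j _ => ?_
  show _ * φ ((1 : ℝ) +ᵥ ((j : ℝ) +ᵥ z)) = _ * φ ((j : ℝ) +ᵥ ((1 : ℝ) +ᵥ z))
  rw [vadd_vadd_nat, vadd_vadd_nat, add_comm]

lemma twist_comp_vadd_one (N r : ℕ) [NeZero N] {φ : ℍ → ℂ} (hφ : IsPer N φ) (z : ℍ) :
    twist N r (fun w => φ ((1 : ℝ) +ᵥ w)) z = zetaN N ^ r * twist N r φ z := by
  unfold twist
  rw [fourierProj_comp_vadd_one, fourierProj_vadd_one N r hφ]
  ring

/-! ### Jets -/

/-- The `r`-th jet of the conjugate `cj F q` at `i∞`. -/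
noncomputable def jetR (r : ℕ) (F : ModularForm (G0 N) k) (q : Q N) : ℂ := jetS N r (cj F q)

lemma tendsto_twist_cj {r : ℕ} (hr : r < N) (F : ModularForm (G0 N) k) (q : Q N) :
    Tendsto (twist N r (cj F q)) atImInfty (𝓝 (jetR r F q)) :=
  tendsto_twist N r hr (cj_isPer F q) (cj_mdiff F q) (cj_bdd F q)

lemma jetR_eq_of_tendsto {r : ℕ} (hr : r < N) (F : ModularForm (G0 N) k) (q : Q N) {L : ℂ}
    (h : Tendsto (twist N r (cj F q)) atImInfty (𝓝 L)) : jetR r F q = L :=
  tendsto_nhds_unique (tendsto_twist_cj hr F q) h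

lemma jetR_shift {r : ℕ} (hr : r < N) (F : ModularForm (G0 N) k) (q : Q N) :
    jetR r F (shift N q) = zetaN N ^ r * jetR r F q := by
  apply jetR_eq_of_tendsto hr
  have h1 : cj F (shift N q) = fun w => cj F q ((1 : ℝ) +ᵥ w) := funext fun w => cj_shift F q w
  have h2 : twist N r (cj F (shift N q)) = fun z => zetaN N ^ r * twist N r (cj F q) z := by
    funext z
    rw [h1, twist_comp_vadd_one N r (cj_isPer F q)]
  rw [h2]
  exact (tendsto_twist_cj hr F q).const_mul _

lemma cusp_cj_zero (q : Q N) : cj (0 : ModularForm (G0 N) k) q = 0 := by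
  have := cj_smul (0 : ℂ) (0 : ModularForm (G0 N) k) q
  rw [zero_smul, zero_smul] at this
  exact this

lemma cusp_cj_sum {ι : Type*} (s : Finset ι) (G : ι → ModularForm (G0 N) k) (q : Q N) :
    cj (∑ j ∈ s, G j) q = ∑ j ∈ s, cj (G j) q := by
  classical
  induction s using Finset.induction_on with
  | empty => simp [cusp_cj_zero]
  | insert a s ha ih => rw [Finset.sum_insert ha, Finset.sum_insert ha, cj_add, ih]

lemma jetR_add {r : ℕ} (hr : r < N) (F G : ModularForm (G0 N) k) (q : Q N) :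
    jetR r (F + G) q = jetR r F q + jetR r G q := by
  apply jetR_eq_of_tendsto hr
  have h2 : twist N r (cj (F + G) q)
      = fun z => twist N r (cj F q) z + twist N r (cj G q) z := by
    funext z
    rw [cj_add, twist_add]
  rw [h2]
  exact (tendsto_twist_cj hr F q).add (tendsto_twist_cj hr G q)

lemma jetR_smul {r : ℕ} (hr : r < N) (c : ℂ) (F : ModularForm (G0 N) k) (q : Q N) :
    jetR r (c • F) q = c * jetR r F q := by
  apply jetR_eq_of_tendsto hr
  have h2 : twist N r (cj (c • F) q) = fun z => c * twist N r (cj F q) z := by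
    funext z
    rw [cj_smul, twist_smul]
  rw [h2]
  exact (tendsto_twist_cj hr F q).const_mul _

lemma jetR_zero {r : ℕ} (hr : r < N) (q : Q N) :
    jetR r (0 : ModularForm (G0 N) k) q = 0 := by
  have := jetR_smul hr (0 : ℂ) (0 : ModularForm (G0 N) k) q
  rwa [zero_smul, zero_mul] at this

lemma jetR_sum {r : ℕ} (hr : r < N) {ι : Type*} (s : Finset ι) (G : ι → ModularForm (G0 N) k)
    (q : Q N) : jetR r (∑ j ∈ s, G j) q = ∑ j ∈ s, jetR r (G j) q := by
  classical
  induction s using Finset.induction_on with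
  | empty => simp [jetR_zero hr]
  | insert a s ha ih => rw [Finset.sum_insert ha, Finset.sum_insert ha, jetR_add hr, ih]

lemma jetR_mcast {a b : ℤ} (h : a = b) (r : ℕ) (F : ModularForm (G0 N) a) (q : Q N) :
    jetR r (ModularForm.mcast h F) q = jetR r F q := by
  unfold jetR
  rw [cj_mcast]

/-- A level-one form is `1`-periodic. -/
lemma levelOne_vadd_one {w : ℤ} (a : ModularForm 𝒮ℒ w) (z : ℍ) : a ((1 : ℝ) +ᵥ z) = a z :=
  SlashInvariantForm.vAdd_apply_of_mem_strictPeriods a z one_mem_strictPeriods_SL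

lemma jetR_res_mul {r : ℕ} (hr : r < N) {w : ℤ} (a : ModularForm 𝒮ℒ w) {L : ℂ}
    (ha : Tendsto (⇑a) atImInfty (𝓝 L)) (F : ModularForm (G0 N) k) (q : Q N) :
    jetR r ((res N a).mul F) q = L * jetR r F q := by
  apply jetR_eq_of_tendsto hr
  have h2 : twist N r (cj ((res N a).mul F) q) = fun z => a z * twist N r (cj F q) z := by
    funext z
    rw [cj_res_mul, twist_mul_periodic N r (levelOne_vadd_one a)]
  rw [h2]
  exact ha.mul (tendsto_twist_cj hr F q)

/-- If all jets of `cj F q` vanish, then `cj F q = O(exp(-2π im))` at `i∞`. -/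
lemma isBigO_exp_of_jetR_eq_zero (F : ModularForm (G0 N) k) (q : Q N)
    (h : ∀ r < N, jetR r F q = 0) :
    cj F q =O[atImInfty] fun τ : ℍ => Real.exp (-(2 * π * τ.im)) :=
  isBigO_exp_of_jetS_eq_zero N (cj_isPer F q) (cj_mdiff F q) (cj_bdd F q) h

/-- The limit of `cj F q` at `i∞` is its `0`-th jet. -/
lemma tendsto_cj (F : ModularForm (G0 N) k) (q : Q N) :
    Tendsto (cj F q) atImInfty (𝓝 (jetR 0 F q)) := by
  have hN : 0 < N := Nat.pos_of_ne_zero (NeZero.ne N)
  have h0 : (fun z : ℍ => ∑ r ∈ Finset.range N,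
      Complex.exp (2 * π * I * r * z / N) * twist N r (cj F q) z) = cj F q :=
    funext fun z => (eq_sum_exp_mul_twist N (cj F q) z).symm
  rw [← h0]
  have hlim : ∀ r ∈ Finset.range N, Tendsto
      (fun z : ℍ => Complex.exp (2 * π * I * r * z / N) * twist N r (cj F q) z) atImInfty
      (𝓝 (if r = 0 then jetR 0 F q else 0)) := by
    intro r hr
    have hrN : r < N := Finset.mem_range.mp hr
    split_ifs with h
    · subst h
      have : (fun z : ℍ => Complex.exp (2 * π * I * (0 : ℕ) * z / N) * twist N 0 (cj F q) z)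
          = twist N 0 (cj F q) := by
        funext z
        simp
      rw [this]
      exact tendsto_twist_cj hrN F q
    · have hexp : Tendsto (fun z : ℍ => Complex.exp (2 * π * I * r * z / N)) atImInfty (𝓝 0) := by
        rw [tendsto_zero_iff_norm_tendsto_zero]
        have hNpos : (0 : ℝ) < N := Nat.cast_pos.mpr hN
        have hrpos : (0 : ℝ) < r := Nat.cast_pos.mpr (Nat.pos_of_ne_zero h)
        have hc : 0 < 2 * π * r / N := by positivity
        refine (tendsto_exp_neg_mul_im hc).congr fun z => ?_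
        rw [Complex.norm_exp]
        congr 1
        have : (2 * π * I * r * (z : ℂ) / N) = ((2 * π * r / N : ℝ) : ℂ) * (z : ℂ) * I := by
          push_cast; ring
        rw [this, Complex.mul_I_re]
        simp [UpperHalfPlane.coe_im]
      have := hexp.mul (tendsto_twist_cj hrN F q)
      simpa using this
  have hsum := tendsto_finsetSum (Finset.range N) hlim
  have hval : (∑ r ∈ Finset.range N, if r = 0 then jetR 0 F q else 0) = jetR 0 F q := by
    rw [Finset.sum_ite_eq' (Finset.range N) 0 (fun _ => jetR 0 F q)]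
    simp [hN]
  rw [hval] at hsum
  exact hsum

/-! ### The limit matrix of a frame -/

/-- The total jet `∑_{r<N} jetR r F q`. -/
noncomputable def jet (F : ModularForm (G0 N) k) (q : Q N) : ℂ :=
  ∑ r ∈ Finset.range N, jetR r F q

/-- The limit matrix `Binf = lim_{z → i∞} A(z)·E(z)` of a frame. -/
noncomputable def Frame.Binf (Φ : Frame N) : Matrix (Q N) (Q N) ℂ :=
  fun i q => jet (Φ.f i) q

/-- A frame is *good at the cusps* if its limit matrix is invertible. -/
def Frame.CuspGood (Φ : Frame N) : Prop := Φ.Binf.det ≠ 0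

lemma tendsto_row_mul_Emat (F : ModularForm (G0 N) k) (q : Q N) :
    Tendsto (fun z => ∑ q', cj F q' z * Emat N z q' q) atImInfty (𝓝 (jet F q)) := by
  have : (fun z => ∑ q', cj F q' z * Emat N z q' q)
      = fun z => ∑ r ∈ Finset.range N, twist N r (cj F q) z :=
    funext fun z => row_mul_Emat F z q
  rw [this]
  exact tendsto_finsetSum _ fun r hr => tendsto_twist_cj (Finset.mem_range.mp hr) F q

lemma Frame.tendsto_A_mul_Emat (Φ : Frame N) (i q : Q N) :
    Tendsto (fun z => (Φ.A z * Emat N z) i q) atImInfty (𝓝 (Φ.Binf i q)) := by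
  have : (fun z => (Φ.A z * Emat N z) i q)
      = fun z => ∑ r ∈ Finset.range N, twist N r (cj (Φ.f i) q) z :=
    funext fun z => A_mul_Emat Φ z i q
  rw [this]
  exact tendsto_finsetSum _ fun r hr => tendsto_twist_cj (Finset.mem_range.mp hr) (Φ.f i) q

end Fermat.Agent.S20
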