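/-
S20 package GLUE0: small glue lemmas on frames.
-/
import Fermat.Agent.S20.Conj

set_option autoImplicit false
set_option linter.unusedSectionVars false

open CongruenceSubgroup UpperHalfPlane ModularForm SlashInvariantForm
open scoped MatrixGroups Manifold

namespace Fermat.Agent.S20

variable {N : ℕ} [NeZero N]

/-- The conjugates of the zero form vanish. -/
lemma glue0_cj_zero {k : ℤ} (q : Q N) : cj (0 : ModularForm (G0 N) k) q = 0 := by
  obtain ⟨γ, rfl⟩ := mkQ_surjective q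
  rw [cj_mkQ]
  have : (⇑(0 : ModularForm (G0 N) k) : ℍ → ℂ) = 0 := rfl
  rw [this]
  exact SlashAction.zero_slash _ _

/-- If some form of a frame vanishes, then the frame is degenerate. -/
lemma glue0_det_eq_zero_of_f_eq_zero (Φ : Frame N) (i : Q N) (hi : Φ.f i = 0) (z : ℍ) :
    (Φ.A z).det = 0 := by
  apply Matrix.det_eq_zero_of_row_eq_zero i
  intro q
  change cj (Φ.f i) q z = 0
  rw [hi, glue0_cj_zero]
  rfl

theorem Frame.wt_nonneg (Φ : Frame N) (h : Φ.Nondeg) (i : Q N) : 0 ≤ Φ.wt i := by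
  by_contra hlt
  rw [not_le] at hlt
  obtain ⟨z, hz⟩ := h
  exact hz (glue0_det_eq_zero_of_f_eq_zero Φ i (ModularForm.isZero_of_neg_weight hlt (Φ.f i)) z)

lemma glue0_neg_one_mem_G0 : (-1 : GL (Fin 2) ℝ) ∈ G0 N := by
  refine ⟨-1, ?_, ?_⟩
  · change (-1 : SL(2, ℤ)) ∈ Gamma0 N
    rw [Gamma0_mem]
    simp
  · ext i j
    simp [Matrix.SpecialLinearGroup.mapGL]

theorem Frame.wt_even (Φ : Frame N) (h : Φ.Nondeg) (i : Q N) : Even (Φ.wt i) := by
  by_contra hodd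
  rw [Int.not_even_iff_odd] at hodd
  obtain ⟨z, hz⟩ := h
  exact hz (glue0_det_eq_zero_of_f_eq_zero Φ i
    (ModularForm.eq_zero_of_neg_one_mem glue0_neg_one_mem_G0 hodd (Φ.f i)) z)

lemma Frame.totalWt_nonneg (Φ : Frame N) (h : Φ.Nondeg) : 0 ≤ Φ.totalWt :=
  Finset.sum_nonneg fun i _ => Φ.wt_nonneg h i

theorem exists_good_frame (P1 P2 : Frame N → Prop)
    (hEX : ∃ Φ : Frame N, Φ.Nondeg)
    (h1 : ∀ Φ : Frame N, Φ.Nondeg → ¬ P1 Φ → ∃ Φ' : Frame N, Φ'.Nondeg ∧ Φ'.totalWt < Φ.totalWt)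
    (h2 : ∀ Φ : Frame N, Φ.Nondeg → ¬ P2 Φ → ∃ Φ' : Frame N, Φ'.Nondeg ∧ Φ'.totalWt < Φ.totalWt) :
    ∃ Φ : Frame N, Φ.Nondeg ∧ P1 Φ ∧ P2 Φ := by
  have key : ∀ n : ℕ, ∀ Φ : Frame N, Φ.Nondeg → Φ.totalWt.toNat = n →
      ∃ Ψ : Frame N, Ψ.Nondeg ∧ P1 Ψ ∧ P2 Ψ := by
    intro n
    induction n using Nat.strong_induction_on with
    | _ n ih =>
      intro Φ hΦ hn
      by_cases hP1 : P1 Φ
      · by_cases hP2 : P2 Φ
        · exact ⟨Φ, hΦ, hP1, hP2⟩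
        · obtain ⟨Φ', hΦ', hlt⟩ := h2 Φ hΦ hP2
          have h0 := Φ'.totalWt_nonneg hΦ'
          have h0' := Φ.totalWt_nonneg hΦ
          exact ih Φ'.totalWt.toNat (by omega) Φ' hΦ' rfl
      · obtain ⟨Φ', hΦ', hlt⟩ := h1 Φ hΦ hP1
        have h0 := Φ'.totalWt_nonneg hΦ'
        have h0' := Φ.totalWt_nonneg hΦ
        exact ih Φ'.totalWt.toNat (by omega) Φ' hΦ' rfl
  obtain ⟨Φ, hΦ⟩ := hEX
  exact key _ Φ hΦ rfl

theorem finrank_M_zero : Module.finrank ℂ (ModularForm (G0 N) 0) = 1 := by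
  have hne : (ModularForm.const (1 : ℂ) : ModularForm (G0 N) 0) ≠ 0 := by
    intro h
    have := congrArg (fun f : ModularForm (G0 N) 0 => f I) h
    simp at this
  rw [finrank_eq_one_iff_of_nonzero' _ hne]
  intro f
  obtain ⟨c, hc⟩ := ModularForm.eq_const_of_weight_zero f
  refine ⟨c, ?_⟩
  ext z
  have := congrFun hc z
  simp [this]

end Fermat.Agent.S20
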