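/-
S20, package C (helper88): values at `i∞` of level-one forms; `levelOne_infty`;
`E2 → 1` at `i∞`.
-/
import Mathlib

set_option autoImplicit false

open UpperHalfPlane ModularForm ModularFormClass MatrixGroups EisensteinSeries Derivative Filter Topology
open scoped Manifold Real

namespace Fermat.Agent.S20

theorem tendsto_levelOne_atImInfty {k : ℤ} (f : ModularForm 𝒮ℒ k) :
    Tendsto f atImInfty (𝓝 ((qExpansion 1 f).coeff 0)) := by
  have hper := SlashInvariantFormClass.periodic_comp_ofComplex f one_mem_strictPeriods_SL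
  have han : AnalyticAt ℂ (cuspFunction 1 f) 0 :=
    ModularFormClass.analyticAt_cuspFunction_zero f one_pos one_mem_strictPeriods_SL
  have hcomp : (cuspFunction 1 f ∘ fun τ : ℍ ↦ Function.Periodic.qParam 1 τ : ℍ → ℂ) = f := by
    funext τ
    simpa using eq_cuspFunction τ one_ne_zero hper
  have := han.continuousAt.tendsto.comp (qParam_tendsto_atImInfty one_pos)
  rw [hcomp] at this
  simpa [qExpansion_coeff] using this

theorem tendsto_E_atImInfty {k : ℕ} (hk : 3 ≤ k) (hk2 : Even k) :
    Tendsto (E hk) atImInfty (𝓝 1) := by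
  have := tendsto_levelOne_atImInfty (E hk)
  rwa [E_qExpansion_coeff_zero hk hk2] at this

theorem E2_vadd_one (z : ℍ) : E2 ((1 : ℝ) +ᵥ z) = E2 z := by
  have h := congrFun (E2_slash_action ModularGroup.T) z
  rw [D2_T] at h
  simp only [smul_zero, sub_zero] at h
  rw [← h, SL_slash_apply, modular_T_smul]
  simp [denom, ModularGroup.T]

theorem periodic_E2 : Function.Periodic (E2 ∘ ofComplex) (1 : ℝ) := by
  intro w
  by_cases hw : 0 < Complex.im w
  · have hw1 : 0 < Complex.im (w + (1 : ℝ)) := by simpa using hw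
    simp only [Function.comp_apply, ofComplex_apply_of_im_pos hw1, ofComplex_apply_of_im_pos hw]
    rw [← E2_vadd_one ⟨w, hw⟩]
    congr 1
    ext
    simp [add_comm]
  · have hw' : Complex.im w ≤ 0 := not_lt.mp hw
    have hw1 : Complex.im (w + (1 : ℝ)) ≤ 0 := by simpa using hw'
    simp only [Function.comp_apply, ofComplex_apply_of_im_nonpos hw1,
      ofComplex_apply_of_im_nonpos hw']

theorem tendsto_E2_atImInfty : Tendsto E2 atImInfty (𝓝 1) := by
  have hper := periodic_E2
  have han : AnalyticAt ℂ (cuspFunction 1 E2) 0 :=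
    analyticAt_cuspFunction_zero one_pos hper E2_mdifferentiable isBoundedAtImInfty_E2
  have hsum : ∀ τ : ℍ, HasSum (fun m : ℕ ↦ (if m = 0 then 1 else -24 * (ArithmeticFunction.sigma 1 m : ℂ) : ℂ) •
      Function.Periodic.qParam 1 τ ^ m) (E2 τ) := fun τ => by
    simpa only [Function.Periodic.qParam, Complex.ofReal_one, div_one] using
      hasSum_qExpansion_E2 (z := τ)
  have hps := hasFPowerSeriesOnBall_cuspFunction one_pos han hsum
  have h0 : cuspFunction 1 E2 0 = 1 := by
    have := hps.hasFPowerSeriesAt.coeff_zero (fun _ => (1 : ℂ))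
    simpa [FormalMultilinearSeries.ofScalars] using this.symm
  have hcomp : (cuspFunction 1 E2 ∘ fun τ : ℍ ↦ Function.Periodic.qParam 1 τ : ℍ → ℂ) = E2 := by
    funext τ
    simpa using eq_cuspFunction τ one_ne_zero hper
  have := han.continuousAt.tendsto.comp (qParam_tendsto_atImInfty one_pos)
  rwa [hcomp, h0] at this

/-- **Package C, `levelOne_infty`.** -/
theorem levelOne_infty : ∀ w : ℤ, 4 ≤ w → Even w →
    ∃ r : ModularForm 𝒮ℒ w, Tendsto r atImInfty (𝓝 1) := by
  intro w hw hev
  lift w to ℕ using (by omega)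
  have hw' : 3 ≤ w := by omega
  have hev' : Even w := by exact_mod_cast hev
  exact ⟨E hw', tendsto_E_atImInfty hw' hev'⟩

end Fermat.Agent.S20
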