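/-
S20, package M-ISO: for a frame `Φ` which is good on `ℍ` and whose Cramer coefficients are bounded
at `i∞`, `M_l(Γ0(N)) ≃ Π_i M_{l - k_i}(SL2(ℤ))`, hence the dimension formula `finrank_M`.
-/
import Fermat.Agent.S20.Conj

set_option autoImplicit false
set_option linter.unusedSectionVars false

open CongruenceSubgroup UpperHalfPlane ModularForm SlashInvariantForm
open scoped MatrixGroups Manifold

noncomputable section

namespace Fermat.Agent.S20

variable {N : ℕ} [NeZero N]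

/-- The determinant of a matrix of holomorphic functions is holomorphic. -/
lemma miso_mdiff_det {n : Type} [Fintype n] [DecidableEq n] (M : ℍ → Matrix n n ℂ)
    (h : ∀ i j, MDiff (fun z => M z i j)) : MDiff (fun z => (M z).det) := by
  have : (fun z => (M z).det) =
      ∑ σ : Equiv.Perm n, (fun z => ((Equiv.Perm.sign σ : ℤ) : ℂ) * ∏ i, M z (σ i) i) := by
    funext z
    rw [Matrix.det_apply, Finset.sum_apply]
    refine Finset.sum_congr rfl fun σ _ => ?_
    rw [Units.smul_def, zsmul_eq_mul]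
  rw [this]
  refine MDifferentiable.sum fun σ _ => ?_
  refine MDifferentiable.mul mdifferentiable_const ?_
  have h2 : (fun z => ∏ i, M z (σ i) i) = ∏ i, (fun z => M z (σ i) i) := by
    funext z; rw [Finset.prod_apply]
  rw [h2]
  exact MDifferentiable.prod fun i _ => h (σ i) i

lemma Frame.mdiff_A (Φ : Frame N) (i q : Q N) : MDiff (fun z => Φ.A z i q) :=
  cj_mdiff (Φ.f i) q

lemma Frame.mdiff_det (Φ : Frame N) : MDiff (fun z => (Φ.A z).det) :=
  miso_mdiff_det _ fun i q => Φ.mdiff_A i q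

lemma Frame.mdiff_inv (Φ : Frame N) (hH : Φ.GoodOnH) (q i : Q N) :
    MDiff (fun z => (Φ.A z)⁻¹ q i) := by
  have : (fun z => (Φ.A z)⁻¹ q i) =
      fun z => ((Φ.A z).det)⁻¹ * ((Φ.A z).updateRow i (Pi.single q 1)).det := by
    funext z
    rw [Matrix.inv_def, Matrix.smul_apply, Ring.inverse_eq_inv', Matrix.adjugate_apply,
      smul_eq_mul]
  rw [this]
  refine MDifferentiable.mul (MDifferentiable.inv Φ.mdiff_det hH) ?_
  refine miso_mdiff_det _ fun a b => ?_
  by_cases ha : a = i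
  · subst ha
    simp only [Matrix.updateRow_self]
    exact mdifferentiable_const
  · simp only [Matrix.updateRow_ne ha]
    exact Φ.mdiff_A a b


/-- The Cramer coefficients of `F` with respect to the frame `Φ`:
`coef F i z = ∑_q F_q(z) (A(z)⁻¹)_{q,i}`. -/
def Frame.coef (Φ : Frame N) {l : ℤ} (F : ModularForm (G0 N) l) (i : Q N) : ℍ → ℂ :=
  fun z => ∑ q, cj F q z * (Φ.A z)⁻¹ q i

lemma Frame.coef_apply (Φ : Frame N) {l : ℤ} (F : ModularForm (G0 N) l) (i : Q N) (z : ℍ) :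
    Φ.coef F i z = ∑ q, cj F q z * (Φ.A z)⁻¹ q i := rfl

lemma Frame.coef_eq_vecMul (Φ : Frame N) {l : ℤ} (F : ModularForm (G0 N) l) (z : ℍ) :
    (fun i => Φ.coef F i z) = Matrix.vecMul (fun q => cj F q z) (Φ.A z)⁻¹ := by
  funext i
  simp [Frame.coef, Matrix.vecMul, dotProduct]

lemma Frame.isUnit_det (Φ : Frame N) (hH : Φ.GoodOnH) (z : ℍ) : IsUnit (Φ.A z).det :=
  isUnit_iff_ne_zero.mpr (hH z)

/-- The coefficients solve the linear system `∑_i r_i A_{i,q} = F_q`. -/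
lemma Frame.sum_coef_mul (Φ : Frame N) (hH : Φ.GoodOnH) {l : ℤ} (F : ModularForm (G0 N) l)
    (z : ℍ) (q : Q N) : ∑ i, Φ.coef F i z * Φ.A z i q = cj F q z := by
  have h := congrFun (congrArg (fun v => Matrix.vecMul v (Φ.A z)) (Φ.coef_eq_vecMul F z)) q
  simp only [Matrix.vecMul_vecMul, Matrix.nonsing_inv_mul _ (Φ.isUnit_det hH z),
    Matrix.vecMul_one] at h
  rw [← h]
  simp [Matrix.vecMul, dotProduct]

/-- Uniqueness of the solution of the linear system. -/
lemma Frame.eq_coef_of_sum (Φ : Frame N) (hH : Φ.GoodOnH) {l : ℤ} (F : ModularForm (G0 N) l)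
    (z : ℍ) (r : Q N → ℂ) (hr : ∀ q, ∑ i, r i * Φ.A z i q = cj F q z) (i : Q N) :
    r i = Φ.coef F i z := by
  have h1 : Matrix.vecMul r (Φ.A z) = fun q => cj F q z := by
    funext q
    rw [← hr q]
    simp [Matrix.vecMul, dotProduct]
  have h2 : r = Matrix.vecMul (fun q => cj F q z) (Φ.A z)⁻¹ := by
    rw [← h1, Matrix.vecMul_vecMul, Matrix.mul_nonsing_inv _ (Φ.isUnit_det hH z),
      Matrix.vecMul_one]
  rw [← Φ.coef_eq_vecMul F z] at h2
  exact congrFun h2 i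

lemma Frame.coef_mdiff (Φ : Frame N) (hH : Φ.GoodOnH) {l : ℤ} (F : ModularForm (G0 N) l)
    (i : Q N) : MDiff (Φ.coef F i) := by
  have : Φ.coef F i = ∑ q, (fun z => cj F q z * (Φ.A z)⁻¹ q i) := by
    funext z; rw [Finset.sum_apply]; rfl
  rw [this]
  exact MDifferentiable.sum fun q _ => MDifferentiable.mul (cj_mdiff F q) (Φ.mdiff_inv hH q i)

/-- Transformation law of the coefficients under `SL(2,ℤ)`. -/
lemma Frame.coef_smul (Φ : Frame N) (hH : Φ.GoodOnH) {l : ℤ} (F : ModularForm (G0 N) l)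
    (i : Q N) (γ : SL(2, ℤ)) (z : ℍ) :
    Φ.coef F i (γ • z) = (denom γ z) ^ (l - Φ.wt i) * Φ.coef F i z := by
  have hd : denom γ z ≠ 0 := denom_ne_zero _ z
  have key := Φ.eq_coef_of_sum hH F z
    (fun j => (denom γ z) ^ (Φ.wt j - l) * Φ.coef F j (γ • z)) ?_ i
  · rw [← key, ← mul_assoc, ← zpow_add₀ hd]
    simp
  · intro q
    have h1 := Φ.sum_coef_mul hH F (γ • z) (toSL γ • q)
    rw [cj_smul_apply, inv_smul_smul] at h1
    have h2 : ∀ j, Φ.A (γ • z) j (toSL γ • q) = (denom γ z) ^ (Φ.wt j) * Φ.A z j q := by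
      intro j
      rw [Frame.A_smul, inv_smul_smul]
    simp only [h2] at h1
    have h3 : cj F q z = (denom γ z) ^ (-l) * ((denom γ z) ^ l * cj F q z) := by
      rw [← mul_assoc, ← zpow_add₀ hd]; simp
    rw [h3, ← h1, Finset.mul_sum]
    refine Finset.sum_congr rfl fun j _ => ?_
    rw [sub_eq_add_neg, zpow_add₀ hd]
    ring


lemma Frame.coef_slash (Φ : Frame N) (hH : Φ.GoodOnH) {l : ℤ} (F : ModularForm (G0 N) l)
    (i : Q N) (γ : SL(2, ℤ)) : Φ.coef F i ∣[l - Φ.wt i] γ = Φ.coef F i := by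
  funext z
  have hd : denom γ z ≠ 0 := denom_ne_zero _ z
  rw [SL_slash_apply, Φ.coef_smul hH F i γ z, mul_comm, ← mul_assoc, ← zpow_add₀ hd]
  simp

/-- The hypothesis of `finrank_M`: the Cramer coefficients are bounded at `i∞`. -/
def Frame.CoefBdd (Φ : Frame N) : Prop :=
  ∀ {l : ℤ} (F : ModularForm (G0 N) l) (i : Q N),
    IsBoundedAtImInfty (fun z => ∑ q, cj F q z * (Φ.A z)⁻¹ q i)

/-- The Cramer coefficients as level-one modular forms. -/
def Frame.coefForm (Φ : Frame N) (hH : Φ.GoodOnH) (hB : Φ.CoefBdd) {l : ℤ}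
    (F : ModularForm (G0 N) l) (i : Q N) : ModularForm 𝒮ℒ (l - Φ.wt i) where
  toFun := Φ.coef F i
  slash_action_eq' γ hγ := by
    obtain ⟨g, rfl⟩ := hγ
    exact Φ.coef_slash hH F i g
  holo' := Φ.coef_mdiff hH F i
  bdd_at_cusps' {c} hc := by
    rw [OnePoint.isBoundedAt_iff_forall_SL2Z hc]
    intro γ _
    show IsBoundedAtImInfty (Φ.coef F i ∣[l - Φ.wt i] γ)
    rw [Φ.coef_slash hH F i γ]
    exact hB F i

@[simp] lemma Frame.coefForm_apply (Φ : Frame N) (hH : Φ.GoodOnH) (hB : Φ.CoefBdd) {l : ℤ}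
    (F : ModularForm (G0 N) l) (i : Q N) (z : ℍ) :
    Φ.coefForm hH hB F i z = Φ.coef F i z := rfl


lemma miso_cj_zero {l : ℤ} (q : Q N) : cj (0 : ModularForm (G0 N) l) q = 0 := by
  have := cj_smul (0 : ℂ) (0 : ModularForm (G0 N) l) q
  rw [zero_smul, zero_smul] at this
  exact this

lemma miso_cj_sum {l : ℤ} {ι : Type} (s : Finset ι) (G : ι → ModularForm (G0 N) l) (q : Q N) :
    cj (∑ j ∈ s, G j) q = ∑ j ∈ s, cj (G j) q := by
  classical
  induction s using Finset.induction_on with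
  | empty => simp [miso_cj_zero]
  | insert a s ha ih => rw [Finset.sum_insert ha, Finset.sum_insert ha, cj_add, ih]

/-- The inverse map: `(r_i) ↦ ∑_i r_i f_i`. -/
def Frame.ofCoef (Φ : Frame N) {l : ℤ} (r : (i : Q N) → ModularForm 𝒮ℒ (l - Φ.wt i)) :
    ModularForm (G0 N) l :=
  ∑ i, ModularForm.mcast (sub_add_cancel l (Φ.wt i)) ((res N (r i)).mul (Φ.f i))

lemma Frame.cj_ofCoef (Φ : Frame N) {l : ℤ} (r : (i : Q N) → ModularForm 𝒮ℒ (l - Φ.wt i))
    (q : Q N) (z : ℍ) : cj (Φ.ofCoef r) q z = ∑ i, r i z * Φ.A z i q := by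
  rw [Frame.ofCoef, miso_cj_sum, Finset.sum_apply]
  refine Finset.sum_congr rfl fun i _ => ?_
  rw [cj_mcast, cj_mul, cj_res]
  rfl

lemma Frame.ofCoef_apply (Φ : Frame N) {l : ℤ} (r : (i : Q N) → ModularForm 𝒮ℒ (l - Φ.wt i))
    (z : ℍ) : Φ.ofCoef r z = ∑ i, r i z * Φ.A z i (q0 N) := by
  rw [← Φ.cj_ofCoef r (q0 N) z, cj_q0]

/-- The linear equivalence `M_l(Γ0(N)) ≃ Π_i M_{l-k_i}(SL2(ℤ))` attached to a good frame. -/
def Frame.coefEquiv (Φ : Frame N) (hH : Φ.GoodOnH) (hB : Φ.CoefBdd) (l : ℤ) :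
    ModularForm (G0 N) l ≃ₗ[ℂ] ((i : Q N) → ModularForm 𝒮ℒ (l - Φ.wt i)) where
  toFun F i := Φ.coefForm hH hB F i
  map_add' F G := by
    funext i
    ext z
    simp only [Frame.coefForm_apply, Pi.add_apply, FunLike.coe_add, Frame.coef_apply, cj_add,
      add_mul, Finset.sum_add_distrib]
  map_smul' c F := by
    funext i
    ext z
    simp only [Frame.coefForm_apply, Pi.smul_apply, FunLike.coe_smul, Frame.coef_apply, cj_smul,
      smul_eq_mul, RingHom.id_apply, Finset.mul_sum, mul_assoc]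
  invFun r := Φ.ofCoef r
  left_inv F := by
    ext z
    rw [Φ.ofCoef_apply]
    simp only [Frame.coefForm_apply]
    rw [Φ.sum_coef_mul hH F z (q0 N), cj_q0]
  right_inv r := by
    funext i
    ext z
    rw [Frame.coefForm_apply]
    exact (Φ.eq_coef_of_sum hH (Φ.ofCoef r) z (fun j => r j z)
      (fun q => (Φ.cj_ofCoef r q z).symm) i).symm

/-- **S20 package M-ISO.** -/
theorem finrank_M (Φ : Frame N) (hH : Φ.GoodOnH)
    (hB : ∀ {l : ℤ} (F : ModularForm (G0 N) l) (i : Q N),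
      IsBoundedAtImInfty (fun z => ∑ q, cj F q z * (Φ.A z)⁻¹ q i)) (l : ℤ) :
    Module.finrank ℂ (ModularForm (G0 N) l) =
      ∑ i, Module.finrank ℂ (ModularForm 𝒮ℒ (l - Φ.wt i)) := by
  rw [(Φ.coefEquiv hH (fun F i => hB F i) l).finrank_eq, Module.finrank_pi_fintype]

end Fermat.Agent.S20
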