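/-
S20, package CUSP-4 (helper32 for helper20): for a frame which is good on `ℍ`, good at the cusps
and has bounded Cramer coefficients, in every even weight `l ≥ wt i + 4` the constant-term map
`M_l(Γ0(N)) → (Q N → ℂ)` has image the `shift`-invariant functions and kernel the cusp forms, so
`dim M_l = dim S_l + numCusps N`.
-/
import Fermat.Agent.S20.CuspJet
import Fermat.Agent.S20.LevelOneInfty
import Fermat.Agent.S20.Glue0
import Fermat.Agent.S20.MIso

set_option autoImplicit false
set_option linter.unusedSectionVars false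

open Complex Filter Function Asymptotics
open UpperHalfPlane hiding I
open CongruenceSubgroup ModularForm
open scoped Real Topology Manifold MatrixGroups

namespace Fermat.Agent.S20

variable {N : ℕ} [NeZero N]

/-- The constant-term map `F ↦ (jetR 0 F q)_q`. -/
noncomputable def cuspc_c0 (N : ℕ) [NeZero N] (l : ℤ) :
    ModularForm (G0 N) l →ₗ[ℂ] (Q N → ℂ) where
  toFun F q := jetR 0 F q
  map_add' F G := funext fun q => jetR_add (Nat.pos_of_ne_zero (NeZero.ne N)) F G q
  map_smul' c F := funext fun q => jetR_smul (Nat.pos_of_ne_zero (NeZero.ne N)) c F q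

lemma cuspc_c0_apply (l : ℤ) (F : ModularForm (G0 N) l) (q : Q N) :
    cuspc_c0 N l F q = jetR 0 F q := rfl

/-- The inclusion of cusp forms into modular forms, as a linear map. -/
noncomputable def cuspc_incl (N : ℕ) [NeZero N] (l : ℤ) :
    CuspForm (G0 N) l →ₗ[ℂ] ModularForm (G0 N) l where
  toFun f := ofCusp f
  map_add' f g := by ext z; rfl
  map_smul' c f := by ext z; rfl

lemma cuspc_incl_injective (l : ℤ) : Function.Injective (cuspc_incl N l) := by
  intro f g h
  ext z
  have := congrArg (fun F : ModularForm (G0 N) l => F z) h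
  exact this

/-- The kernel of the constant-term map is the space of cusp forms. -/
lemma cuspc_range_incl (l : ℤ) :
    LinearMap.range (cuspc_incl N l) = LinearMap.ker (cuspc_c0 N l) := by
  ext F
  rw [LinearMap.mem_range, LinearMap.mem_ker]
  constructor
  · rintro ⟨f, rfl⟩
    funext q
    rw [cuspc_c0_apply]
    exact tendsto_nhds_unique (tendsto_cj (ofCusp f) q) (cj_ofCusp_zero f q)
  · intro hF
    have h0 : ∀ q, IsZeroAtImInfty (cj F q) := by
      intro q
      have h1 := tendsto_cj F q
      have h2 : jetR 0 F q = 0 := congrFun hF q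
      rw [h2] at h1
      exact h1
    refine ⟨toCusp F h0, ?_⟩
    ext z
    rfl

/-- The image of the constant-term map consists of `shift`-invariant functions. -/
lemma cuspc_range_le (l : ℤ) : LinearMap.range (cuspc_c0 N l) ≤ shiftInvariants N := by
  rintro _ ⟨F, rfl⟩
  rw [mem_shiftInvariants]
  intro q
  rw [cuspc_c0_apply, cuspc_c0_apply, jetR_shift (Nat.pos_of_ne_zero (NeZero.ne N)), pow_zero,
    one_mul]

/-- Every `shift`-invariant function is a constant term, for a cusp-good frame. -/
lemma cuspc_le_range (Φ : Frame N) (hH : Φ.GoodOnH) (hC : Φ.CuspGood)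
    (l : ℤ) (hl : ∀ i, Φ.wt i + 4 ≤ l) (hev : Even l) :
    shiftInvariants N ≤ LinearMap.range (cuspc_c0 N l) := by
  intro v hv
  rw [mem_shiftInvariants] at hv
  have hN : 0 < N := Nat.pos_of_ne_zero (NeZero.ne N)
  have hnd : Φ.Nondeg := ⟨UpperHalfPlane.I, hH _⟩
  -- the level-one forms `a i → 1`
  have ha : ∀ i, ∃ a : ModularForm 𝒮ℒ (l - Φ.wt i), Tendsto a atImInfty (𝓝 1) := by
    intro i
    apply levelOne_infty
    · have := hl i
      omega
    · exact hev.sub (Φ.wt_even hnd i)
  choose a ha using ha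
  -- the coefficients
  have hunit : IsUnit Φ.Binf.det := isUnit_iff_ne_zero.mpr hC
  set α : Q N → ℂ := Matrix.vecMul v Φ.Binf⁻¹ with hα
  have hαv : ∀ q, ∑ i, α i * jet (Φ.f i) q = v q := by
    intro q
    have h1 : Matrix.vecMul α Φ.Binf = v := by
      rw [hα, Matrix.vecMul_vecMul, Matrix.nonsing_inv_mul _ hunit, Matrix.vecMul_one]
    have h2 := congrFun h1 q
    rw [← h2]
    simp [Matrix.vecMul, dotProduct, Frame.Binf]
  -- eigen-separation
  set V : ℕ → Q N → ℂ := fun r q =>
    ∑ i, α i * jetR r (Φ.f i) q - (if r = 0 then v q else 0) with hV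
  have hVshift : ∀ r < N, ∀ q, V r (shift N q) = zetaN N ^ r * V r q := by
    intro r hr q
    simp only [hV]
    have h1 : ∑ i, α i * jetR r (Φ.f i) (shift N q)
        = zetaN N ^ r * ∑ i, α i * jetR r (Φ.f i) q := by
      rw [Finset.mul_sum]
      refine Finset.sum_congr rfl fun i _ => ?_
      rw [jetR_shift hr]
      ring
    rw [h1, mul_sub]
    congr 1
    split_ifs with h
    · subst h
      rw [hv q, pow_zero, one_mul]
    · rw [mul_zero]
  have hVsum : ∀ q, ∑ r ∈ Finset.range N, V r q = 0 := by
    intro q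
    simp only [hV]
    rw [Finset.sum_sub_distrib, Finset.sum_comm]
    have h1 : ∑ i, ∑ r ∈ Finset.range N, α i * jetR r (Φ.f i) q = v q := by
      rw [← hαv q]
      refine Finset.sum_congr rfl fun i _ => ?_
      rw [jet, Finset.mul_sum]
    have h2 : ∑ r ∈ Finset.range N, (if r = 0 then v q else 0) = v q := by
      rw [Finset.sum_ite_eq' (Finset.range N) 0 (fun _ => v q)]
      simp [hN]
    rw [h1, h2, sub_self]
  have hsep := eigen_separation N (zetaN N) (zetaN_isPrimitiveRoot N) V hVshift hVsum 0 hN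
  have hv0 : ∀ q, v q = ∑ i, α i * jetR 0 (Φ.f i) q := by
    intro q
    have := hsep q
    simp only [hV, if_true] at this
    exact (sub_eq_zero.mp this).symm
  -- the form
  refine ⟨Φ.ofCoef (fun i => α i • a i), ?_⟩
  funext q
  rw [cuspc_c0_apply, hv0 q, Frame.ofCoef, jetR_sum hN]
  refine Finset.sum_congr rfl fun i _ => ?_
  rw [jetR_mcast]
  apply jetR_res_mul hN
  have h1 : Tendsto (fun z => α i * a i z) atImInfty (𝓝 (α i * 1)) := (ha i).const_mul _
  rw [mul_one] at h1
  exact h1

/-- **S20 package CUSP-4.** -/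
theorem cusp_count (Φ : Frame N) (hH : Φ.GoodOnH) (hC : Φ.CuspGood)
    (hB : ∀ {l : ℤ} (F : ModularForm (G0 N) l) (i : Q N),
      IsBoundedAtImInfty (fun z => ∑ q, cj F q z * (Φ.A z)⁻¹ q i))
    (l : ℤ) (hl : ∀ i, Φ.wt i + 4 ≤ l) (hev : Even l) :
    Module.finrank ℂ (ModularForm (G0 N) l)
      = Module.finrank ℂ (CuspForm (G0 N) l) + numCusps N := by
  have : Module.Finite ℂ (ModularForm (G0 N) l) :=
    Module.Finite.equiv (Φ.coefEquiv hH (fun F i => hB F i) l).symm
  have h1 := LinearMap.finrank_range_add_finrank_ker (cuspc_c0 N l)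
  have h2 : LinearMap.range (cuspc_c0 N l) = shiftInvariants N :=
    le_antisymm (cuspc_range_le l) (cuspc_le_range Φ hH hC l hl hev)
  have h3 : Module.finrank ℂ (LinearMap.ker (cuspc_c0 N l))
      = Module.finrank ℂ (CuspForm (G0 N) l) := by
    rw [← cuspc_range_incl l]
    exact LinearMap.finrank_range_of_inj (cuspc_incl_injective l)
  rw [h2, finrank_shift_invariants, h3] at h1
  omega

end Fermat.Agent.S20
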