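/-
S20, package CUSP (helper20): CUSP-2 (`cramer_bounded`) and CUSP-3 (`disc_mul_inv_zero`).

For a frame `Φ` which is good on `ℍ` and good at the cusps, `A(z)⁻¹ = E(z) · Ã(z)⁻¹` with
`Ã = A·E → Binf` invertible, hence the Cramer coefficients of any form are bounded at `i∞`,
and `Δ · A⁻¹ → 0` at `i∞`.
-/
import Fermat.Agent.S20.CuspJet

set_option autoImplicit false
set_option linter.unusedSectionVars false

open Complex Filter Function Asymptotics
open UpperHalfPlane hiding I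
open CongruenceSubgroup ModularForm
open scoped Real Topology Manifold MatrixGroups

namespace Fermat.Agent.S20

variable {N : ℕ} [NeZero N] {k : ℤ}

/-- The matrix `Ã(z) = A(z) E(z)` tends to `Binf`. -/
lemma Frame.tendsto_Atil (Φ : Frame N) :
    Tendsto (fun z => Φ.A z * Emat N z) atImInfty (𝓝 Φ.Binf) :=
  tendsto_pi_nhds.mpr fun i => tendsto_pi_nhds.mpr fun q => Φ.tendsto_A_mul_Emat i q

lemma Frame.tendsto_det_Atil (Φ : Frame N) :
    Tendsto (fun z => (Φ.A z * Emat N z).det) atImInfty (𝓝 Φ.Binf.det) :=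
  ((continuous_id.matrix_det (R := ℂ) (n := Q N)).tendsto Φ.Binf).comp Φ.tendsto_Atil

lemma Frame.eventually_det_Atil_ne_zero (Φ : Frame N) (hC : Φ.CuspGood) :
    ∀ᶠ z in atImInfty, (Φ.A z * Emat N z).det ≠ 0 :=
  Φ.tendsto_det_Atil.eventually_ne hC

lemma Frame.tendsto_inv_Atil (Φ : Frame N) (hC : Φ.CuspGood) (q i : Q N) :
    Tendsto (fun z => (Φ.A z * Emat N z)⁻¹ q i) atImInfty (𝓝 (Φ.Binf⁻¹ q i)) := by
  have hcont : ContinuousAt (Inv.inv : Matrix (Q N) (Q N) ℂ → Matrix (Q N) (Q N) ℂ) Φ.Binf := by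
    apply continuousAt_matrix_inv
    rw [Ring.inverse_eq_inv']
    exact continuousAt_inv₀ hC
  have h1 : Tendsto (fun z => (Φ.A z * Emat N z)⁻¹) atImInfty (𝓝 Φ.Binf⁻¹) :=
    hcont.tendsto.comp Φ.tendsto_Atil
  exact ((continuous_apply i).tendsto _).comp (((continuous_apply q).tendsto _).comp h1)

/-- `A(z)⁻¹ = E(z) · Ã(z)⁻¹` when `A(z)` and `Ã(z)` are invertible. -/
lemma Frame.inv_eq_Emat_mul (Φ : Frame N) (z : ℍ) (hA : (Φ.A z).det ≠ 0)
    (hAt : (Φ.A z * Emat N z).det ≠ 0) :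
    (Φ.A z)⁻¹ = Emat N z * (Φ.A z * Emat N z)⁻¹ := by
  have hAu : IsUnit (Φ.A z).det := isUnit_iff_ne_zero.mpr hA
  have hAtu : IsUnit (Φ.A z * Emat N z).det := isUnit_iff_ne_zero.mpr hAt
  have h1 : Emat N z = (Φ.A z)⁻¹ * (Φ.A z * Emat N z) := by
    rw [← Matrix.mul_assoc, Matrix.nonsing_inv_mul _ hAu, Matrix.one_mul]
  calc (Φ.A z)⁻¹ = (Φ.A z)⁻¹ * ((Φ.A z * Emat N z) * (Φ.A z * Emat N z)⁻¹) := by
        rw [Matrix.mul_nonsing_inv _ hAtu, Matrix.mul_one]
    _ = ((Φ.A z)⁻¹ * (Φ.A z * Emat N z)) * (Φ.A z * Emat N z)⁻¹ := by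
        rw [← Matrix.mul_assoc ((Φ.A z)⁻¹)]
    _ = Emat N z * (Φ.A z * Emat N z)⁻¹ := by rw [← h1]

/-- **CUSP-2.** The Cramer coefficients of any form with respect to a good frame converge at
`i∞`. -/
theorem cramer_tendsto (Φ : Frame N) (hH : Φ.GoodOnH) (hC : Φ.CuspGood) {l : ℤ}
    (F : ModularForm (G0 N) l) (i : Q N) :
    Tendsto (fun z => ∑ q, cj F q z * (Φ.A z)⁻¹ q i) atImInfty
      (𝓝 (∑ q', jet F q' * Φ.Binf⁻¹ q' i)) := by
  have hlim : Tendsto (fun z => ∑ q', (∑ q, cj F q z * Emat N z q q') *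
      (Φ.A z * Emat N z)⁻¹ q' i) atImInfty (𝓝 (∑ q', jet F q' * Φ.Binf⁻¹ q' i)) :=
    tendsto_finsetSum _ fun q' _ => (tendsto_row_mul_Emat F q').mul (Φ.tendsto_inv_Atil hC q' i)
  refine hlim.congr' ?_
  filter_upwards [Φ.eventually_det_Atil_ne_zero hC] with z hz
  rw [Φ.inv_eq_Emat_mul z (hH z) hz]
  simp only [Matrix.mul_apply, Finset.mul_sum, Finset.sum_mul]
  rw [Finset.sum_comm]
  refine Finset.sum_congr rfl fun q _ => Finset.sum_congr rfl fun q' _ => ?_
  ring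

/-- **CUSP-2.** The Cramer coefficients of any form with respect to a good frame are bounded at
`i∞`. -/
theorem cramer_bounded (Φ : Frame N) (hH : Φ.GoodOnH) (hC : Φ.CuspGood) {l : ℤ}
    (F : ModularForm (G0 N) l) (i : Q N) :
    IsBoundedAtImInfty (fun z => ∑ q, cj F q z * (Φ.A z)⁻¹ q i) :=
  (cramer_tendsto Φ hH hC F i).isBigO_one ℝ

/-- The discriminant is `O(exp(-2π im))` at `i∞`. -/
lemma discriminant_isBigO_exp :
    ModularForm.discriminant =O[atImInfty] fun τ : ℍ => Real.exp (-(2 * π * τ.im)) := by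
  have h := CuspFormClass.exp_decay_atImInfty (h := 1) CuspForm.discriminant one_pos
    one_mem_strictPeriods_SL
  refine h.congr_right fun τ => ?_
  congr 1
  ring

/-- `Δ(z) · E(z) → 0` at `i∞`, entrywise. -/
lemma tendsto_disc_mul_Emat (q q' : Q N) :
    Tendsto (fun z => ModularForm.discriminant z * Emat N z q q') atImInfty (𝓝 0) := by
  have hN : (0 : ℝ) < N := Nat.cast_pos.mpr (Nat.pos_of_ne_zero (NeZero.ne N))
  obtain ⟨C, hC⟩ := discriminant_isBigO_exp.bound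
  rw [tendsto_zero_iff_norm_tendsto_zero]
  have hc : 0 < 2 * π / N := by positivity
  have hupper : Tendsto (fun z : ℍ => C * N * Real.exp (-((2 * π / N) * z.im))) atImInfty
      (𝓝 (C * N * 0)) := (tendsto_exp_neg_mul_im hc).const_mul _
  rw [mul_zero] at hupper
  refine squeeze_zero' (Eventually.of_forall fun z => norm_nonneg _) ?_ hupper
  filter_upwards [hC] with z hz
  rw [norm_mul]
  have h1 := norm_Emat_le (N := N) z q q'
  have h2 : ‖Real.exp (-(2 * π * z.im))‖ = Real.exp (-(2 * π * z.im)) :=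
    Real.norm_of_nonneg (Real.exp_pos _).le
  rw [h2] at hz
  calc ‖ModularForm.discriminant z‖ * ‖Emat N z q q'‖
      ≤ (C * Real.exp (-(2 * π * z.im))) * (N * Real.exp (2 * π * (N - 1) * z.im / N)) :=
        mul_le_mul hz h1 (norm_nonneg _) (le_trans (norm_nonneg _) hz)
    _ = C * N * (Real.exp (-(2 * π * z.im)) * Real.exp (2 * π * (N - 1) * z.im / N)) := by ring
    _ = C * N * Real.exp (-((2 * π / N) * z.im)) := by
        rw [← Real.exp_add]
        congr 2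
        field_simp
        ring

/-- **CUSP-3.** `Δ · A⁻¹ → 0` at `i∞`, entrywise. -/
theorem disc_mul_inv_zero (Φ : Frame N) (hH : Φ.GoodOnH) (hC : Φ.CuspGood) (q i : Q N) :
    IsZeroAtImInfty (fun z => ModularForm.discriminant z * (Φ.A z)⁻¹ q i) := by
  have hlim : Tendsto (fun z => ∑ q', (ModularForm.discriminant z * Emat N z q q') *
      (Φ.A z * Emat N z)⁻¹ q' i) atImInfty (𝓝 (∑ q', 0 * Φ.Binf⁻¹ q' i)) :=
    tendsto_finsetSum _ fun q' _ => (tendsto_disc_mul_Emat q q').mul (Φ.tendsto_inv_Atil hC q' i)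
  simp only [zero_mul, Finset.sum_const_zero] at hlim
  refine hlim.congr' ?_
  filter_upwards [Φ.eventually_det_Atil_ne_zero hC] with z hz
  rw [Φ.inv_eq_Emat_mul z (hH z) hz]
  simp only [Matrix.mul_apply, Finset.mul_sum]
  refine Finset.sum_congr rfl fun q' _ => ?_
  ring

end Fermat.Agent.S20
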