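/-
S20, package MIN-H (helper83), auxiliary lemmas:
identity-theorem consequences on ℍ, conjugates of powers, traces of powers, holomorphy of `det A`.
-/
import Fermat.Agent.S20.Conj
import Fermat.Agent.S20.PowerSums

set_option autoImplicit false
set_option linter.unusedSectionVars false

open CongruenceSubgroup UpperHalfPlane ModularForm SlashInvariantForm Filter Topology
open scoped MatrixGroups Manifold

namespace Fermat.Agent.S20

variable {N : ℕ} [NeZero N]

/-- The upper half plane (as a subset of `ℂ`) is preconnected. -/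
theorem minH_isPreconnected_upperHalfPlaneSet : IsPreconnected {z : ℂ | 0 < z.im} :=
  (convex_halfSpace_im_gt 0).isPreconnected

/-- A holomorphic function on `ℍ` vanishing on `{im z ≥ Y}` vanishes identically. -/
theorem minH_eq_zero_of_eventually {u : ℍ → ℂ} (hu : MDiff u) {Y : ℝ}
    (h : ∀ z : ℍ, Y ≤ z.im → u z = 0) : u = 0 := by
  have hd : DifferentiableOn ℂ (u ∘ ofComplex) {z : ℂ | 0 < z.im} :=
    UpperHalfPlane.mdifferentiable_iff.mp hu
  have hopen : IsOpen {z : ℂ | 0 < z.im} := isOpen_upperHalfPlaneSet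
  have han : AnalyticOnNhd ℂ (u ∘ ofComplex) {z : ℂ | 0 < z.im} := hd.analyticOnNhd hopen
  set Y' : ℝ := max Y 0 + 1 with hY'
  have hY'pos : 0 < Y' := by positivity
  set w0 : ℂ := ⟨0, Y' + 1⟩ with hw0
  have hw0mem : w0 ∈ {z : ℂ | 0 < z.im} := by
    show 0 < w0.im
    simp only [hw0]; linarith
  have hev : (u ∘ ofComplex) =ᶠ[𝓝 w0] 0 := by
    have hopen2 : IsOpen {z : ℂ | Y' < z.im} := isOpen_lt continuous_const Complex.continuous_im
    have hmem : w0 ∈ {z : ℂ | Y' < z.im} := by
      show Y' < w0.im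
      simp only [hw0]; linarith
    filter_upwards [hopen2.mem_nhds hmem] with w hw
    have hw' : Y' < w.im := hw
    have hwpos : 0 < w.im := hY'pos.trans hw'
    simp only [Function.comp_apply, Pi.zero_apply, ofComplex_apply_of_im_pos hwpos]
    apply h
    show Y ≤ w.im
    have : Y ≤ Y' := (le_max_left Y 0).trans (by linarith)
    linarith
  have key := han.eqOn_zero_of_preconnected_of_eventuallyEq_zero
    minH_isPreconnected_upperHalfPlaneSet hw0mem hev
  funext z
  have := key (show (z : ℂ) ∈ {z : ℂ | 0 < z.im} from z.im_pos)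
  simpa using this

/-- Cancellation: if `P` is bounded below near `i∞` and `P * u = 0` with `u` holomorphic,
then `u = 0`. -/
theorem minH_eq_zero_of_mul_eq_zero {P u : ℍ → ℂ} (hu : MDiff u)
    (hP : ∃ c : ℝ, 0 < c ∧ ∃ Y : ℝ, ∀ z : ℍ, Y ≤ z.im → c ≤ ‖P z‖)
    (h : ∀ z, P z * u z = 0) : u = 0 := by
  obtain ⟨c, hc, Y, hY⟩ := hP
  refine minH_eq_zero_of_eventually hu (Y := Y) fun z hz => ?_
  have hPz : P z ≠ 0 := by
    intro h0
    have := hY z hz
    rw [h0, norm_zero] at this
    linarith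
  exact (mul_eq_zero.mp (h z)).resolve_left hPz

/-- Two holomorphic functions on `ℍ`, neither identically zero, have a common non-zero. -/
theorem minH_exists_mul_ne_zero {u v : ℍ → ℂ} (hu : MDiff u) (hv : MDiff v)
    (hu0 : ∃ z, u z ≠ 0) (hv0 : ∃ z, v z ≠ 0) : ∃ z, u z * v z ≠ 0 := by
  by_contra hcon
  push Not at hcon
  have hopen : IsOpen {z : ℂ | 0 < z.im} := isOpen_upperHalfPlaneSet
  have hau : AnalyticOnNhd ℂ (u ∘ ofComplex) {z : ℂ | 0 < z.im} :=
    (UpperHalfPlane.mdifferentiable_iff.mp hu).analyticOnNhd hopen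
  have hav : AnalyticOnNhd ℂ (v ∘ ofComplex) {z : ℂ | 0 < z.im} :=
    (UpperHalfPlane.mdifferentiable_iff.mp hv).analyticOnNhd hopen
  have hmul : ∀ z ∈ {z : ℂ | 0 < z.im}, (u ∘ ofComplex) z * (v ∘ ofComplex) z = 0 := by
    intro z hz
    have hz' : 0 < z.im := hz
    simpa [Function.comp_apply, ofComplex_apply_of_im_pos hz'] using hcon ⟨z, hz'⟩
  rcases hau.eq_zero_or_eq_zero_of_mul_eq_zero hav hmul minH_isPreconnected_upperHalfPlaneSet
    with h | h
  · obtain ⟨z, hz⟩ := hu0
    apply hz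
    have := h (z : ℂ) z.im_pos
    simpa using this
  · obtain ⟨z, hz⟩ := hv0
    apply hz
    have := h (z : ℂ) z.im_pos
    simpa using this

/-- Slash of a power by an element of `SL(2,ℤ)`. -/
theorem minH_pow_slash (k : ℤ) (n : ℕ) (g : ℍ → ℂ) (A : SL(2, ℤ)) :
    (g ^ n) ∣[(n : ℤ) * k] A = (g ∣[k] A) ^ n := by
  induction n with
  | zero =>
    simp only [pow_zero, Nat.cast_zero, zero_mul]
    exact ModularForm.is_invariant_one A
  | succ n ih =>
    rw [pow_succ, pow_succ, ← ih]
    have : ((n + 1 : ℕ) : ℤ) * k = (n : ℤ) * k + k := by push_cast; ring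
    rw [this]
    exact mul_slash_SL2 _ _ A _ _

variable {k : ℤ}

/-- Conjugates of a power. -/
theorem minH_cj_pow (F : ModularForm (G0 N) k) (n : ℕ) (q : Q N) :
    cj (F.pow n) q = (cj F q) ^ n := by
  obtain ⟨γ, rfl⟩ := mkQ_surjective q
  rw [cj_mkQ, cj_mkQ, ModularForm.coe_pow, minH_pow_slash]

/-- The trace of the `n`-th power is the `n`-th power sum of the conjugates. -/
theorem trace_pow_apply (F : ModularForm (G0 N) k) (n : ℕ) (z : ℍ) :
    ModularForm.trace 𝒮ℒ (F.pow n) z = ∑ q : Q N, (cj F q z) ^ n := by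
  rw [trace_apply]
  refine Finset.sum_congr rfl fun q _ => ?_
  rw [minH_cj_pow]
  rfl

/-- The trace of `F^n * G`. -/
theorem trace_pow_mul_apply {k₁ k₂ : ℤ} (F : ModularForm (G0 N) k₁) (G : ModularForm (G0 N) k₂)
    (n : ℕ) (z : ℍ) :
    ModularForm.trace 𝒮ℒ ((F.pow n).mul G) z = ∑ q : Q N, (cj F q z) ^ n * cj G q z := by
  rw [trace_apply]
  refine Finset.sum_congr rfl fun q _ => ?_
  rw [cj_mul, minH_cj_pow]
  rfl

/-- `det A(z)` is holomorphic in `z`. -/
theorem Frame.det_A_mdiff (Φ : Frame N) : MDiff (fun z => (Φ.A z).det) := by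
  rw [UpperHalfPlane.mdifferentiable_iff]
  have hentry : ∀ i q : Q N, DifferentiableOn ℂ (fun w : ℂ => Φ.A (ofComplex w) i q)
      {z : ℂ | 0 < z.im} := by
    intro i q
    exact UpperHalfPlane.mdifferentiable_iff.mp (cj_mdiff (Φ.f i) q)
  have : (fun z : ℍ => (Φ.A z).det) ∘ ofComplex
      = fun w : ℂ => ∑ σ : Equiv.Perm (Q N), (Equiv.Perm.sign σ : ℤ) •
          ∏ i, Φ.A (ofComplex w) (σ i) i := by
    funext w
    simp only [Function.comp_apply, Matrix.det_apply]
    rfl
  rw [this]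
  refine DifferentiableOn.fun_sum fun σ _ => ?_
  refine DifferentiableOn.const_smul ?_ _
  exact DifferentiableOn.fun_finsetProd fun i _ => hentry (σ i) i

end Fermat.Agent.S20
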