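/-
S20, package MIN-H (helper83): class splitting at a point `z0` with level-one local datum.
If `∑ i, (g i)_q(z0) = 0` for all conjugates `q`, then the same holds for the sub-sum over each
class of weights modulo `L`.
-/
import Fermat.Agent.S20.MinHAux

set_option autoImplicit false
set_option linter.unusedSectionVars false

open CongruenceSubgroup UpperHalfPlane ModularForm SlashInvariantForm Filter Topology
open scoped MatrixGroups Manifold

namespace Fermat.Agent.S20

variable {N : ℕ} [NeZero N]

theorem minH_cj_zero {k : ℤ} (q : Q N) : cj (0 : ModularForm (G0 N) k) q = 0 := by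
  obtain ⟨γ, rfl⟩ := mkQ_surjective q
  rw [cj_mkQ]
  exact SlashAction.zero_slash _ _

theorem minH_cj_sum {k : ℤ} {ι : Type*} (s : Finset ι) (F : ι → ModularForm (G0 N) k) (q : Q N) :
    cj (∑ i ∈ s, F i) q = ∑ i ∈ s, cj (F i) q := by
  classical
  induction s using Finset.induction_on with
  | empty => simp [minH_cj_zero]
  | insert a s ha ih => rw [Finset.sum_insert ha, Finset.sum_insert ha, cj_add, ih]

/-- Level-one forms of weight not divisible by `L` vanish at `z0`. -/
theorem minH_trace_eq_zero (z0 : ℍ) (L : ℤ)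
    (ha : ∀ (w : ℤ) (r : ModularForm 𝒮ℒ w), r z0 ≠ 0 → L ∣ w)
    {w : ℤ} (r : ModularForm 𝒮ℒ w) (hw : ¬ L ∣ w) : r z0 = 0 := by
  by_contra h
  exact hw (ha w r h)

/-- **Class splitting.**  Let `z0 ∈ ℍ` be such that level-one forms not vanishing at `z0` have
weight divisible by `L`, and such that for every weight `w ≥ s` divisible by `L` there is a
level-one form with value `1` at `z0`.  If forms `g i` of weights `w i` on `Γ0(N)` satisfy
`∑ i, (g i)_q (z0) = 0` for all conjugates, then for each class `ρ` mod `L` the partial sum over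
`{i | w i ≡ ρ}` vanishes as well. -/
theorem minH_class_split (z0 : ℍ) (L s : ℤ) (hL : 0 < L)
    (ha : ∀ (w : ℤ) (r : ModularForm 𝒮ℒ w), r z0 ≠ 0 → L ∣ w)
    (hb : ∀ w : ℤ, s ≤ w → L ∣ w → ∃ r : ModularForm 𝒮ℒ w, r z0 = 1)
    {ι : Type} [Fintype ι] (w : ι → ℤ) (g : ∀ i, ModularForm (G0 N) (w i))
    (hsum : ∀ q : Q N, ∑ i, cj (g i) q z0 = 0) (ρ : ℤ) (q : Q N) :
    ∑ i with L ∣ w i - ρ, cj (g i) q z0 = 0 := by
  classical
  -- canonical residues
  set φ : ι → ℤ := fun i => w i % L with hφ
  have hφ0 : ∀ i, 0 ≤ φ i := fun i => Int.emod_nonneg _ hL.ne'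
  have hφL : ∀ i, φ i < L := fun i => Int.emod_lt_of_pos _ hL
  have hφdvd : ∀ i, L ∣ φ i - w i := fun i => by
    have := Int.emod_add_mul_ediv (w i) L
    exact ⟨-(w i / L), by simp only [hφ]; linarith⟩
  -- a big multiple of `L`
  set W : ℤ := L * (∑ i, |w i| + |s|) with hW
  have hWdvd : L ∣ W := ⟨_, rfl⟩
  have hWge : ∀ i, s ≤ W + φ i - w i := by
    intro i
    have h1 : |w i| ≤ ∑ j, |w j| :=
      Finset.single_le_sum (f := fun j => |w j|) (fun j _ => abs_nonneg _) (Finset.mem_univ i)
    have h2 : ∑ j, |w j| + |s| ≤ W := by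
      rw [hW]
      have h3 : 0 ≤ ∑ j, |w j| + |s| := by positivity
      nlinarith
    have h4 := le_abs_self (w i)
    have h5 := le_abs_self s
    have := hφ0 i
    linarith
  have hWdvd' : ∀ i, L ∣ W + φ i - w i := fun i => by
    have : W + φ i - w i = W + (φ i - w i) := by ring
    rw [this]
    exact dvd_add hWdvd (hφdvd i)
  -- homogenising factors
  choose a ha1 using fun i => hb (W + φ i - w i) (hWge i) (hWdvd' i)
  -- homogenised forms
  set G : ∀ i, ModularForm (G0 N) (W + φ i) := fun i =>
    ModularForm.mcast (by ring) ((res N (a i)).mul (g i)) with hG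
  have hGcj : ∀ i q z, cj (G i) q z = a i z * cj (g i) q z := by
    intro i q z
    simp only [hG]
    rw [cj_mcast, cj_mul, cj_res]
    rfl
  -- class forms
  set H : ∀ r : ℤ, ModularForm (G0 N) (W + r) := fun r =>
    ∑ i, if h : φ i = r then ModularForm.mcast (by rw [h]) (G i) else 0 with hH
  have hHcj : ∀ r q z, cj (H r) q z = ∑ i, if φ i = r then a i z * cj (g i) q z else 0 := by
    intro r q z
    simp only [hH]
    rw [minH_cj_sum, Finset.sum_apply]
    refine Finset.sum_congr rfl fun i _ => ?_
    by_cases h : φ i = r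
    · rw [dif_pos h, if_pos h, cj_mcast, hGcj]
    · rw [dif_neg h, if_neg h, minH_cj_zero]
      rfl
  -- the vectors `u r`
  set u : ℤ → Q N → ℂ := fun r q => cj (H r) q z0 with hu
  have hu_eq : ∀ r q, u r q = ∑ i with φ i = r, cj (g i) q z0 := by
    intro r q
    simp only [hu]
    rw [hHcj, Finset.sum_filter]
    refine Finset.sum_congr rfl fun i _ => ?_
    by_cases h : φ i = r
    · rw [if_pos h, if_pos h, ha1, one_mul]
    · rw [if_neg h, if_neg h]
  set R : Finset ℤ := Finset.univ.image φ with hR
  have hsumR : ∀ q, ∑ r ∈ R, u r q = 0 := by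
    intro q
    rw [← hsum q]
    simp_rw [hu_eq]
    exact Finset.sum_fiberwise_of_maps_to (fun i _ => Finset.mem_image_of_mem φ (Finset.mem_univ i)) _
  have hRmem : ∀ r ∈ R, 0 ≤ r ∧ r < L := by
    intro r hr
    obtain ⟨i, -, rfl⟩ := Finset.mem_image.mp hr
    exact ⟨hφ0 i, hφL i⟩
  -- all power sums of `u r` vanish
  have hps : ∀ r ∈ R, ∀ n : ℕ, 1 ≤ n → ∑ q, (u r q) ^ n = 0 := by
    intro r hr n hn
    by_cases hnr : L ∣ (n : ℤ) * r
    · -- use the relation `u r = - ∑_{r' ≠ r} u r'`
      obtain ⟨m, rfl⟩ : ∃ m, n = m + 1 := ⟨n - 1, by omega⟩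
      have hrel : ∀ q, u r q = - ∑ r' ∈ R.erase r, u r' q := by
        intro q
        have := hsumR q
        rw [← Finset.add_sum_erase R _ hr] at this
        linear_combination this
      have hmix : ∀ r' ∈ R.erase r, ∑ q, (u r q) ^ m * u r' q = 0 := by
        intro r' hr'
        have hne : r' ≠ r := (Finset.mem_erase.mp hr').1
        have hr'R := hRmem r' (Finset.mem_erase.mp hr').2
        have hrR := hRmem r hr
        have htr := trace_pow_mul_apply (H r) (H r') m z0
        rw [← htr]
        apply minH_trace_eq_zero z0 L ha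
        intro hdvd
        -- weight is `m * (W + r) + (W + r')`
        have h1 : (m : ℤ) * (W + r) + (W + r') = ((m : ℤ) + 1) * W + (((m + 1 : ℕ) : ℤ) * r) + (r' - r) := by
          push_cast; ring
        rw [h1] at hdvd
        have h2 : L ∣ ((m : ℤ) + 1) * W := Dvd.dvd.mul_left hWdvd _
        have h3 : L ∣ r' - r := by
          have := (Int.dvd_add_right (dvd_add h2 hnr)).mp hdvd
          exact this
        obtain ⟨t, ht⟩ := h3
        have : t = 0 := by
          by_contra ht0
          have : 1 ≤ |t| := Int.one_le_abs ht0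
          have habs : |r' - r| = L * |t| := by rw [ht, abs_mul, abs_of_pos hL]
          have hlt : |r' - r| < L := by
            rw [abs_lt]; constructor <;> linarith [hr'R.1, hr'R.2, hrR.1, hrR.2]
          nlinarith
        apply hne
        rw [this, mul_zero] at ht
        linarith
      calc ∑ q, (u r q) ^ (m + 1) = ∑ q, (u r q) ^ m * (- ∑ r' ∈ R.erase r, u r' q) := by
            refine Finset.sum_congr rfl fun q _ => ?_
            rw [pow_succ, ← hrel q]
        _ = - ∑ r' ∈ R.erase r, ∑ q, (u r q) ^ m * u r' q := by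
            simp_rw [mul_neg, Finset.mul_sum, Finset.sum_neg_distrib]
            rw [Finset.sum_comm]
        _ = 0 := by rw [Finset.sum_eq_zero hmix, neg_zero]
    · have htr := trace_pow_apply (H r) n z0
      rw [← htr]
      apply minH_trace_eq_zero z0 L ha
      intro hdvd
      apply hnr
      have h1 : (n : ℤ) * (W + r) = (n : ℤ) * W + (n : ℤ) * r := by ring
      rw [h1] at hdvd
      exact (Int.dvd_add_right (Dvd.dvd.mul_left hWdvd _)).mp hdvd
  have hu0 : ∀ r, u r = 0 := by
    intro r
    by_cases hr : r ∈ R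
    · exact eq_zero_of_forall_psum_eq_zero (u r) (hps r hr)
    · funext q
      rw [hu_eq]
      apply Finset.sum_eq_zero
      intro i hi
      exact absurd (Finset.mem_image.mpr ⟨i, Finset.mem_univ i, (Finset.mem_filter.mp hi).2⟩) hr
  -- conclusion
  have hfinal : ∑ i with L ∣ w i - ρ, cj (g i) q z0 = u (ρ % L) q := by
    rw [hu_eq]
    refine Finset.sum_congr ?_ fun _ _ => rfl
    ext i
    simp only [Finset.mem_filter, Finset.mem_univ, true_and, hφ]
    rw [dvd_sub_comm]
    exact (Int.modEq_iff_dvd (n := L) (a := w i) (b := ρ)).symm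
  rw [hfinal, hu0]
  rfl

end Fermat.Agent.S20
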