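/-
S20, package MIN-H (helper83): transfer of vanishing along the zero set of `P`, and division by `P`.
-/
import Fermat.Agent.S20.MinHSplit

set_option autoImplicit false
set_option linter.unusedSectionVars false

open CongruenceSubgroup UpperHalfPlane ModularForm SlashInvariantForm Filter Topology
open scoped MatrixGroups Manifold

namespace Fermat.Agent.S20

variable {N : ℕ} [NeZero N] {K : ℤ}

/-- If all conjugates of `h` vanish at `z0`, and level-one forms vanishing at `z0` vanish at `z1`,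
then all conjugates of `h` vanish at `z1`. -/
theorem minH_transfer (h : ModularForm (G0 N) K) (z0 z1 : ℍ)
    (hd : ∀ (w : ℤ) (r : ModularForm 𝒮ℒ w), r z0 = 0 → r z1 = 0)
    (h0 : ∀ q, cj h q z0 = 0) (q : Q N) : cj h q z1 = 0 := by
  have key : (fun q => cj h q z1) = 0 := by
    apply eq_zero_of_forall_psum_eq_zero
    intro n hn
    rw [← trace_pow_apply h n z1]
    apply hd
    rw [trace_pow_apply]
    refine Finset.sum_eq_zero fun q _ => ?_
    rw [h0 q, zero_pow (by omega)]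
  exact congrFun key q

/-- **Division.** If `h ∈ M_K(Γ0(N))` vanishes on the zero set of the level-one form `P` (weight `d`),
`P` is bounded below near `i∞` and has the division property, then `h = P · h'` with
`h' ∈ M_{K-d}(Γ0(N))`. -/
theorem minH_exists_div (h : ModularForm (G0 N) K) {d : ℤ} (P : ModularForm 𝒮ℒ d)
    (hPinf : ∃ c : ℝ, 0 < c ∧ ∃ Y : ℝ, ∀ z : ℍ, Y ≤ z.im → c ≤ ‖P z‖)
    (hdiv : ∀ f : ℍ → ℂ, MDiff f → (∀ z, P z = 0 → f z = 0) →
      ∃ g : ℍ → ℂ, MDiff g ∧ ∀ z, f z = P z * g z)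
    (hz : ∀ z, P z = 0 → h z = 0) :
    ∃ h' : ModularForm (G0 N) (K - d), ∀ z, h z = P z * h' z := by
  obtain ⟨g, hg, hgeq⟩ := hdiv h h.holo' hz
  have hfun : (⇑h : ℍ → ℂ) = ⇑P * g := funext hgeq
  -- slash behaviour of `g`
  have hslash : ∀ γ : SL(2, ℤ), (⇑h) ∣[K] γ = ⇑P * (g ∣[K - d] γ) := by
    intro γ
    have h1 : (⇑P * g) ∣[d + (K - d)] γ = (⇑P) ∣[d] γ * g ∣[K - d] γ := mul_slash_SL2 _ _ γ _ _
    have h2 : (⇑P) ∣[d] γ = ⇑P := SlashInvariantForm.slash_action_eqn P _ ⟨γ, rfl⟩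
    have h3 : d + (K - d) = K := by ring
    rw [h3, ← hfun, h2] at h1
    exact h1
  have hgslash_mdiff : ∀ γ : SL(2, ℤ), MDiff (g ∣[K - d] γ) := by
    intro γ
    rw [SL_slash]
    exact hg.slash _ _
  refine ⟨{ toFun := g
            slash_action_eq' := ?_
            holo' := hg
            bdd_at_cusps' := ?_ }, fun z => hgeq z⟩
  · rintro _ ⟨γ, hγ, rfl⟩
    have h1 := hslash γ
    have h2 : (⇑h) ∣[K] γ = ⇑h :=
      SlashInvariantForm.slash_action_eqn h _ ⟨γ, hγ, rfl⟩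
    rw [h2, hfun] at h1
    have h3 : g ∣[K - d] γ - g = 0 := by
      apply minH_eq_zero_of_mul_eq_zero ((hgslash_mdiff γ).sub hg) hPinf
      intro z
      have := congrFun h1 z
      simp only [Pi.mul_apply, Pi.sub_apply] at this ⊢
      rw [mul_sub, ← this, sub_self]
    exact sub_eq_zero.mp h3
  · intro c hc
    rw [Subgroup.IsArithmetic.isCusp_iff_isCusp_SL2Z] at hc
    rw [OnePoint.isBoundedAt_iff_forall_SL2Z hc]
    intro γ _
    have hb : IsBoundedAtImInfty ((⇑h) ∣[K] γ) := ModularFormClass.bdd_at_infty_slash h γ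
    rw [hslash γ] at hb
    obtain ⟨c, hcpos, Y, hY⟩ := hPinf
    rw [isBoundedAtImInfty_iff] at hb ⊢
    obtain ⟨M, A, hMA⟩ := hb
    refine ⟨M / c, max A Y, fun z hz => ?_⟩
    have h1 := hMA z ((le_max_left _ _).trans hz)
    have h2 := hY z ((le_max_right _ _).trans hz)
    simp only [Pi.mul_apply, norm_mul] at h1
    rw [le_div_iff₀ hcpos]
    calc ‖(g ∣[K - d] γ) z‖ * c ≤ ‖(g ∣[K - d] γ) z‖ * ‖P z‖ :=
          mul_le_mul_of_nonneg_left h2 (norm_nonneg _)
      _ = ‖P z‖ * ‖(g ∣[K - d] γ) z‖ := mul_comm _ _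
      _ ≤ M := h1

end Fermat.Agent.S20
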