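/-
S20, package MIN-H (helper83): a nondegenerate frame which is not good on ℍ can be improved
(strictly smaller total weight), given the level-one local datum (package C) at every point.
-/
import Fermat.Agent.S20.MinHDiv

set_option autoImplicit false
set_option linter.unusedSectionVars false

open CongruenceSubgroup UpperHalfPlane ModularForm SlashInvariantForm Filter Topology
open scoped MatrixGroups Manifold

namespace Fermat.Agent.S20

variable {N : ℕ} [NeZero N]

/-- The statement of package C (`levelOne_local`) at a point `z0`. -/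
def LevelOneLocalAt (z0 : ℍ) : Prop :=
  ∃ (L d s : ℤ) (P : ModularForm 𝒮ℒ d), 0 < L ∧ 0 ≤ s ∧ s < d ∧ L ∣ s ∧
      (∀ (w : ℤ) (r : ModularForm 𝒮ℒ w), r z0 ≠ 0 → L ∣ w) ∧
      (∀ w : ℤ, s ≤ w → L ∣ w → ∃ r : ModularForm 𝒮ℒ w, r z0 = 1) ∧
      P z0 = 0 ∧ (∀ z : ℍ, P z = 0 → ∀ (w : ℤ) (r : ModularForm 𝒮ℒ w), r z0 = 0 → r z = 0) ∧
      (∃ c : ℝ, 0 < c ∧ ∃ Y : ℝ, ∀ z : ℍ, Y ≤ z.im → c ≤ ‖P z‖) ∧
      (∀ h : ℍ → ℂ, MDiff h → (∀ z, P z = 0 → h z = 0) →
        ∃ g : ℍ → ℂ, MDiff g ∧ ∀ z, h z = P z * g z)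

/-- Replace the `i0`-th member of a frame. -/
noncomputable def Frame.replace (Φ : Frame N) (i0 : Q N) {k : ℤ} (h : ModularForm (G0 N) k) :
    Frame N where
  wt := Function.update Φ.wt i0 k
  f := fun i =>
    if hi : i = i0 then ModularForm.mcast (by rw [hi, Function.update_self]) h
    else ModularForm.mcast (by rw [Function.update_of_ne hi]) (Φ.f i)

theorem Frame.replace_A (Φ : Frame N) (i0 : Q N) {k : ℤ} (h : ModularForm (G0 N) k) (z : ℍ) :
    (Φ.replace i0 h).A z = (Φ.A z).updateRow i0 (fun q => cj h q z) := by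
  ext i q
  by_cases hi : i = i0
  · rw [hi, Matrix.updateRow_self]
    show cj ((Φ.replace i0 h).f i0) q z = cj h q z
    simp only [Frame.replace]
    rw [dif_pos trivial, cj_mcast]
  · rw [Matrix.updateRow_ne hi]
    show cj ((Φ.replace i0 h).f i) q z = cj (Φ.f i) q z
    simp only [Frame.replace]
    rw [dif_neg hi, cj_mcast]

theorem Frame.replace_totalWt (Φ : Frame N) (i0 : Q N) {k : ℤ} (h : ModularForm (G0 N) k) :
    (Φ.replace i0 h).totalWt = Φ.totalWt - Φ.wt i0 + k := by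
  classical
  simp only [Frame.totalWt, Frame.replace]
  rw [Finset.sum_update_of_mem (Finset.mem_univ i0)]
  have := Finset.add_sum_erase Finset.univ Φ.wt (Finset.mem_univ i0)
  have h2 : ∑ x ∈ Finset.univ \ {i0}, Φ.wt x = ∑ x ∈ Finset.univ.erase i0, Φ.wt x := by
    rw [Finset.sdiff_singleton_eq_erase]
  rw [h2]
  linarith

/-- **MIN-H.** A nondegenerate frame which is not good on `ℍ` can be replaced by a nondegenerate
frame of strictly smaller total weight (given the level-one local datum at every point). -/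
theorem minH_of_local (hC : ∀ z0 : ℍ, LevelOneLocalAt z0) (Φ : Frame N) (hΦ : Φ.Nondeg)
    (hbad : ¬ Φ.GoodOnH) : ∃ Φ' : Frame N, Φ'.Nondeg ∧ Φ'.totalWt < Φ.totalWt := by
  classical
  -- the bad point and a left kernel vector
  obtain ⟨z0, hz0⟩ : ∃ z0, (Φ.A z0).det = 0 := by
    by_contra hcon
    exact hbad fun z hz => hcon ⟨z, hz⟩
  obtain ⟨c, hc0, hcA⟩ := Matrix.exists_vecMul_eq_zero_iff.mpr hz0
  have hcA' : ∀ q, ∑ i, c i * Φ.A z0 i q = 0 := by
    intro q
    have := congrFun hcA q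
    simpa [Matrix.vecMul, dotProduct] using this
  obtain ⟨L, d, s, P, hL, hs0, hsd, hLs, ha, hb, hPz0, htr, hPinf, hdiv⟩ := hC z0
  -- splitting into classes
  have hsplit : ∀ (ρ : ℤ) (q : Q N), ∑ i with L ∣ Φ.wt i - ρ, c i * Φ.A z0 i q = 0 := by
    intro ρ q
    have := minH_class_split (N := N) z0 L s hL ha hb Φ.wt (fun i => c i • Φ.f i)
      (fun q => by
        rw [← hcA' q]
        refine Finset.sum_congr rfl fun i _ => ?_
        rw [cj_smul]; rfl) ρ q
    rw [← this]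
    refine Finset.sum_congr rfl fun i _ => ?_
    rw [cj_smul]; rfl
  -- choice of `i0`
  obtain ⟨i1, hi1⟩ : ∃ i, c i ≠ 0 := by
    by_contra hcon
    exact hc0 (funext fun i => by_contra fun h => hcon ⟨i, h⟩)
  set S : Finset (Q N) := Finset.univ.filter (fun i => c i ≠ 0 ∧ L ∣ Φ.wt i - Φ.wt i1) with hS
  have hSne : S.Nonempty := ⟨i1, by simp [hS, hi1]⟩
  obtain ⟨i0, hi0S, hi0max⟩ := S.exists_max_image Φ.wt hSne
  have hi0 : c i0 ≠ 0 ∧ L ∣ Φ.wt i0 - Φ.wt i1 := by simpa [hS] using hi0S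
  have hclass : ∀ i, (c i ≠ 0 ∧ L ∣ Φ.wt i - Φ.wt i0) → i ∈ S := by
    intro i hi
    simp only [hS, Finset.mem_filter, Finset.mem_univ, true_and]
    refine ⟨hi.1, ?_⟩
    have : Φ.wt i - Φ.wt i1 = (Φ.wt i - Φ.wt i0) + (Φ.wt i0 - Φ.wt i1) := by ring
    rw [this]
    exact dvd_add hi.2 hi0.2
  set K : ℤ := Φ.wt i0 + s with hK
  -- homogenising factors
  have hex : ∀ i, (c i ≠ 0 ∧ L ∣ Φ.wt i - Φ.wt i0) →
      ∃ r : ModularForm 𝒮ℒ (K - Φ.wt i), r z0 = 1 := by
    intro i hi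
    apply hb
    · have := hi0max i (hclass i hi)
      simp only [hK]; linarith
    · have : K - Φ.wt i = s - (Φ.wt i - Φ.wt i0) := by simp only [hK]; ring
      rw [this]
      exact dvd_sub hLs hi.2
  choose a ha1 using hex
  set T : Q N → ModularForm (G0 N) K := fun i =>
    if hi : c i ≠ 0 ∧ L ∣ Φ.wt i - Φ.wt i0 then
      ModularForm.mcast (by ring) ((res N (a i hi)).mul (Φ.f i))
    else 0 with hT
  set α : Q N → ℍ → ℂ := fun i =>
    if hi : c i ≠ 0 ∧ L ∣ Φ.wt i - Φ.wt i0 then ⇑(a i hi) else 0 with hα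
  have hTcj : ∀ i q z, cj (T i) q z = α i z * Φ.A z i q := by
    intro i q z
    by_cases hi : c i ≠ 0 ∧ L ∣ Φ.wt i - Φ.wt i0
    · simp only [hT, hα, dif_pos hi]
      rw [cj_mcast, cj_mul, cj_res]
      rfl
    · simp only [hT, hα, dif_neg hi]
      rw [minH_cj_zero]
      simp
  have hα0 : ∀ i, (c i ≠ 0 ∧ L ∣ Φ.wt i - Φ.wt i0) → α i z0 = 1 := by
    intro i hi
    simp only [hα, dif_pos hi]
    exact ha1 i hi
  have hαnot : ∀ i, ¬ (c i ≠ 0 ∧ L ∣ Φ.wt i - Φ.wt i0) → α i = 0 := by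
    intro i hi
    simp only [hα, dif_neg hi]
  have hαmdiff : ∀ i, MDiff (α i) := by
    intro i
    by_cases hi : c i ≠ 0 ∧ L ∣ Φ.wt i - Φ.wt i0
    · simp only [hα, dif_pos hi]
      exact (a i hi).holo'
    · rw [hαnot i hi]
      exact mdifferentiable_const
  -- the form `h`
  set h : ModularForm (G0 N) K := ∑ i, c i • T i with hh
  have hcj : ∀ q z, cj h q z = ∑ i, (c i * α i z) * Φ.A z i q := by
    intro q z
    simp only [hh]
    rw [minH_cj_sum, Finset.sum_apply]
    refine Finset.sum_congr rfl fun i _ => ?_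
    rw [cj_smul, Pi.smul_apply, hTcj, smul_eq_mul, mul_assoc]
  have hcj0 : ∀ q, cj h q z0 = 0 := by
    intro q
    rw [hcj, ← hsplit (Φ.wt i0) q, Finset.sum_filter]
    refine Finset.sum_congr rfl fun i _ => ?_
    by_cases hi : c i ≠ 0 ∧ L ∣ Φ.wt i - Φ.wt i0
    · rw [hα0 i hi, mul_one, if_pos hi.2]
    · rw [hαnot i hi]
      by_cases hi2 : L ∣ Φ.wt i - Φ.wt i0
      · have hci : c i = 0 := by
          by_contra hne
          exact hi ⟨hne, hi2⟩
        rw [if_pos hi2, hci]; simp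
      · rw [if_neg hi2]; simp
  -- vanishing on the zero set of `P` and division
  have hvan : ∀ z, P z = 0 → h z = 0 := by
    intro z hz
    have := minH_transfer h z0 z (htr z hz) hcj0 (q0 N)
    rwa [cj_q0] at this
  obtain ⟨h', hh'⟩ := minH_exists_div h P hPinf hdiv hvan
  have hh'cj : ∀ q z, cj h q z = P z * cj h' q z := by
    intro q z
    have heq : h = ModularForm.mcast (by ring) ((res N P).mul h') := by
      ext w
      rw [hh' w]
      rfl
    rw [heq, cj_mcast, cj_mul, cj_res]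
    rfl
  -- the new frame
  refine ⟨Φ.replace i0 h', ?_, ?_⟩
  · -- nondegeneracy
    obtain ⟨z, hz⟩ := minH_exists_mul_ne_zero (hαmdiff i0) Φ.det_A_mdiff
      ⟨z0, by rw [hα0 i0 ⟨hi0.1, by simp⟩]; exact one_ne_zero⟩ hΦ
    refine ⟨z, ?_⟩
    rw [Frame.replace_A]
    intro hdet
    have h1 : ((Φ.A z).updateRow i0 (P z • fun q => cj h' q z)).det = 0 := by
      rw [Matrix.det_updateRow_smul, hdet, mul_zero]
    have h2 : (P z • fun q => cj h' q z) = ∑ i, (c i * α i z) • Φ.A z i := by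
      funext q
      simp only [Pi.smul_apply, smul_eq_mul, Finset.sum_apply]
      rw [← hh'cj, hcj]
    rw [h2, Matrix.det_updateRow_sum] at h1
    apply hz
    have h3 : c i0 * α i0 z * (Φ.A z).det = 0 := by simpa [smul_eq_mul] using h1
    rcases mul_eq_zero.mp h3 with h4 | h4
    · rcases mul_eq_zero.mp h4 with h5 | h5
      · exact absurd h5 hi0.1
      · rw [h5, zero_mul]
    · rw [h4, mul_zero]
  · -- total weight drops
    rw [Frame.replace_totalWt]
    simp only [hK]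
    linarith

end Fermat.Agent.S20
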