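/-
S20 (helper83): the SHARED replacement lemma used by MIN-H and MIN-∞.
Replacing the member `i0` of a nondegenerate frame by a form `h'` of smaller weight with
`P · h'_q = ∑ i, u_i · f_{i,q}` (`u_{i0} ≢ 0`) gives a nondegenerate frame of smaller total weight.
-/
import Fermat.Agent.S20.MinH

set_option autoImplicit false
set_option linter.unusedSectionVars false

open CongruenceSubgroup UpperHalfPlane ModularForm SlashInvariantForm Filter Topology
open scoped MatrixGroups Manifold

namespace Fermat.Agent.S20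

variable {N : ℕ} [NeZero N]

/-- General replacement lemma (functions `u i`, identity for all conjugates). -/
theorem Frame.replace_nondeg_of_cj_eq (Φ : Frame N) (hΦ : Φ.Nondeg) (i0 : Q N) {w : ℤ}
    (h' : ModularForm (G0 N) w) (hw : w < Φ.wt i0)
    (P : ℍ → ℂ) (u : Q N → ℍ → ℂ) (hu : MDiff (u i0)) (hu0 : ∃ z, u i0 z ≠ 0)
    (heq : ∀ q z, P z * cj h' q z = ∑ i, u i z * Φ.A z i q) :
    ∃ Φ' : Frame N, Φ'.Nondeg ∧ Φ'.totalWt < Φ.totalWt := by
  classical
  refine ⟨Φ.replace i0 h', ?_, ?_⟩
  · obtain ⟨z, hz⟩ := minH_exists_mul_ne_zero hu Φ.det_A_mdiff hu0 hΦ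
    refine ⟨z, ?_⟩
    rw [Frame.replace_A]
    intro hdet
    have h1 : ((Φ.A z).updateRow i0 (P z • fun q => cj h' q z)).det = 0 := by
      rw [Matrix.det_updateRow_smul, hdet, mul_zero]
    have h2 : (P z • fun q => cj h' q z) = ∑ i, (u i z) • Φ.A z i := by
      funext q
      simp only [Pi.smul_apply, smul_eq_mul, Finset.sum_apply]
      rw [heq]
    rw [h2, Matrix.det_updateRow_sum] at h1
    apply hz
    simpa [smul_eq_mul] using h1
  · rw [Frame.replace_totalWt]
    linarith

/-- Replacement lemma in the form requested for MIN-∞: level-one coefficients `a i`, a level-one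
form `P` of weight `d`, and the identity `P · h' = ∑ i, c_i · a_i · f_i` as functions on `ℍ`. -/
theorem Frame.replace_nondeg_levelOne (Φ : Frame N) (hΦ : Φ.Nondeg) (i0 : Q N) {K d : ℤ}
    (c : Q N → ℂ) (a : ∀ i, ModularForm 𝒮ℒ (K - Φ.wt i)) (P : ModularForm 𝒮ℒ d)
    (h' : ModularForm (G0 N) (K - d))
    (heq : ∀ z, P z * h' z = ∑ i, c i * a i z * Φ.f i z)
    (hc : c i0 ≠ 0) (ha : ∃ z, a i0 z ≠ 0) (hlt : K - d < Φ.wt i0) :
    ∃ Φ' : Frame N, Φ'.Nondeg ∧ Φ'.totalWt < Φ.totalWt := by
  classical
  -- the identity as an identity of modular forms of weight `K`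
  have hform : ModularForm.mcast (show d + (K - d) = K by ring) ((res N P).mul h')
      = ∑ i, c i • ModularForm.mcast (show (K - Φ.wt i) + Φ.wt i = K by ring)
          ((res N (a i)).mul (Φ.f i)) := by
    ext z
    have h1 : (ModularForm.mcast (show d + (K - d) = K by ring) ((res N P).mul h')) z
        = P z * h' z := rfl
    rw [h1, heq z]
    have h2 : ∀ (s : Finset (Q N)),
        (∑ i ∈ s, c i • ModularForm.mcast (show (K - Φ.wt i) + Φ.wt i = K by ring)
          ((res N (a i)).mul (Φ.f i)) : ModularForm (G0 N) K) z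
        = ∑ i ∈ s, c i * a i z * Φ.f i z := by
      intro s
      induction s using Finset.induction_on with
      | empty => simp
      | insert j s hj ih =>
        rw [Finset.sum_insert hj, Finset.sum_insert hj, add_apply, ih]
        congr 1
        show c j * (a j z * Φ.f j z) = c j * a j z * Φ.f j z
        ring
    rw [h2]
  refine Φ.replace_nondeg_of_cj_eq hΦ i0 h' hlt (⇑P) (fun i z => c i * a i z)
    (mdifferentiable_const.mul (a i0).holo') ?_ ?_
  · obtain ⟨z, hz⟩ := ha
    exact ⟨z, mul_ne_zero hc hz⟩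
  · intro q z
    have h3 : cj (ModularForm.mcast (show d + (K - d) = K by ring) ((res N P).mul h')) q z
        = cj (∑ i, c i • ModularForm.mcast (show (K - Φ.wt i) + Φ.wt i = K by ring)
          ((res N (a i)).mul (Φ.f i))) q z := by rw [hform]
    rw [cj_mcast, cj_mul, cj_res, minH_cj_sum, Finset.sum_apply] at h3
    rw [show P z * cj h' q z = (⇑P * cj h' q) z from rfl, h3]
    refine Finset.sum_congr rfl fun i _ => ?_
    rw [cj_smul, Pi.smul_apply, cj_mcast, cj_mul, cj_res, smul_eq_mul]
    show c i * (a i z * cj (Φ.f i) q z) = c i * a i z * cj (Φ.f i) q z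
    rw [mul_assoc]

end Fermat.Agent.S20
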