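/-
S20, package CUSP-1 (helper83): descent at the cusps.
A nondegenerate frame whose limit matrix `Binf` is singular can be replaced by a nondegenerate
frame of smaller total weight.
-/
import Fermat.Agent.S20.CuspJet
import Fermat.Agent.S20.Replace
import Fermat.Agent.S20.LevelOneInfty
import Fermat.Agent.S20.Glue0
import Fermat.Agent.S20.ShiftAlg

set_option autoImplicit false
set_option linter.unusedSectionVars false

open Complex Filter Function Asymptotics
open UpperHalfPlane hiding I
open CongruenceSubgroup ModularForm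
open scoped Real Topology Manifold MatrixGroups

namespace Fermat.Agent.S20

variable {N : ℕ} [NeZero N]

/-- The discriminant as a level-one modular form of weight 12. -/
noncomputable def cusp83_discMF : ModularForm 𝒮ℒ 12 where
  toFun := ModularForm.discriminant
  slash_action_eq' := CuspForm.discriminant.slash_action_eq'
  holo' := CuspForm.discriminant.holo'
  bdd_at_cusps' := fun hc g hg => (CuspForm.discriminant.zero_at_cusps' hc g hg).boundedAtFilter

lemma cusp83_discMF_apply (z : ℍ) : cusp83_discMF z = ModularForm.discriminant z := rfl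

/-- The level-one multipliers used in the descent. -/
lemma cusp83_exists_mult (Φ : Frame N) (hΦ : Φ.Nondeg) (c : Q N → ℂ) (K : ℤ)
    (hK : ∀ i, c i ≠ 0 → Φ.wt i + 4 ≤ K) (hKev : Even K) (i : Q N) :
    ∃ a : ModularForm 𝒮ℒ (K - Φ.wt i), ∃ L : ℂ, Tendsto (⇑a) atImInfty (𝓝 L) ∧ c i * L = c i ∧
      (c i ≠ 0 → ∃ z, a z ≠ 0) := by
  by_cases hci : c i = 0
  · refine ⟨0, 0, ?_, by simp [hci], fun h => absurd hci h⟩
    have h0 : (⇑(0 : ModularForm 𝒮ℒ (K - Φ.wt i)) : ℍ → ℂ) = fun _ => 0 := rfl
    rw [h0]
    exact tendsto_const_nhds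
  · have h4 : 4 ≤ K - Φ.wt i := by have := hK i hci; omega
    have hev : Even (K - Φ.wt i) := hKev.sub (Φ.wt_even hΦ i)
    obtain ⟨a, ha⟩ := levelOne_infty (K - Φ.wt i) h4 hev
    refine ⟨a, 1, ha, mul_one _, fun _ => ?_⟩
    by_contra hne
    push Not at hne
    have h0 : Tendsto (⇑a) atImInfty (𝓝 0) := by
      have : (⇑a : ℍ → ℂ) = fun _ => 0 := funext hne
      rw [this]
      exact tendsto_const_nhds
    exact one_ne_zero (tendsto_nhds_unique ha h0)

/-- **CUSP-1.** Descent at the cusps. -/
theorem cusp_descent (Φ : Frame N) (hΦ : Φ.Nondeg) (hbad : ¬ Φ.CuspGood) :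
    ∃ Φ' : Frame N, Φ'.Nondeg ∧ Φ'.totalWt < Φ.totalWt := by
  classical
  have hN : 0 < N := Nat.pos_of_ne_zero (NeZero.ne N)
  have hdet : Φ.Binf.det = 0 := by
    by_contra h
    exact hbad h
  obtain ⟨c, hc0, hc⟩ := Matrix.exists_vecMul_eq_zero_iff.mpr hdet
  have hcq : ∀ q, ∑ i, c i * jet (Φ.f i) q = 0 := by
    intro q
    have := congrFun hc q
    simpa [Matrix.vecMul, dotProduct, Frame.Binf] using this
  -- the eigen-components vanish
  have hv : ∀ r < N, ∀ q, ∑ i, c i * jetR r (Φ.f i) q = 0 := by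
    refine eigen_separation N (zetaN N) (zetaN_isPrimitiveRoot N)
      (fun r q => ∑ i, c i * jetR r (Φ.f i) q) ?_ ?_
    · intro r hr q
      rw [Finset.mul_sum]
      refine Finset.sum_congr rfl fun i _ => ?_
      rw [jetR_shift hr]
      ring
    · intro q
      rw [Finset.sum_comm]
      rw [← hcq q]
      refine Finset.sum_congr rfl fun i _ => ?_
      rw [jet, Finset.mul_sum]
  -- the index of maximal weight among `c i ≠ 0`
  have hne : (Finset.univ.filter fun i => c i ≠ 0).Nonempty := by
    by_contra h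
    rw [Finset.not_nonempty_iff_eq_empty] at h
    apply hc0
    funext i
    show c i = 0
    by_contra hi
    have : i ∈ (Finset.univ.filter fun i => c i ≠ 0) := by
      rw [Finset.mem_filter]
      exact ⟨Finset.mem_univ _, hi⟩
    rw [h] at this
    simp at this
  obtain ⟨i0, hi0, hmax⟩ := Finset.exists_max_image _ Φ.wt hne
  have hci0 : c i0 ≠ 0 := by simpa using hi0
  have hmax' : ∀ i, c i ≠ 0 → Φ.wt i ≤ Φ.wt i0 := fun i hi => hmax i (by simp [hi])
  set K : ℤ := Φ.wt i0 + 4 with hK
  have hKev : Even K := (Φ.wt_even hΦ i0).add ⟨2, by norm_num⟩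
  have hKle : ∀ i, c i ≠ 0 → Φ.wt i + 4 ≤ K := fun i hi => by have := hmax' i hi; omega
  choose a L haL hcL hane using cusp83_exists_mult Φ hΦ c K hKle hKev
  -- the combination
  set h : ModularForm (G0 N) K :=
    ∑ i, c i • ModularForm.mcast (show (K - Φ.wt i) + Φ.wt i = K by ring)
      ((res N (a i)).mul (Φ.f i)) with hh
  have hjet : ∀ r < N, ∀ q, jetR r h q = 0 := by
    intro r hr q
    rw [hh, jetR_sum hr, ← hv r hr q]
    refine Finset.sum_congr rfl fun i _ => ?_
    rw [jetR_smul hr, jetR_mcast, jetR_res_mul hr (a i) (haL i), ← mul_assoc, hcL]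
  obtain ⟨h', hh'⟩ := div_disc h fun q => isBigO_exp_of_jetR_eq_zero h q fun r hr => hjet r hr q
  have hval : ∀ z, h z = ∑ i, c i * a i z * Φ.f i z := by
    intro z
    have h2 : ∀ (s : Finset (Q N)),
        (∑ i ∈ s, c i • ModularForm.mcast (show (K - Φ.wt i) + Φ.wt i = K by ring)
          ((res N (a i)).mul (Φ.f i)) : ModularForm (G0 N) K) z
        = ∑ i ∈ s, c i * a i z * Φ.f i z := by
      intro s
      induction s using Finset.induction_on with
      | empty => simp
      | insert j s hj ih =>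
        rw [Finset.sum_insert hj, Finset.sum_insert hj, add_apply, ih]
        congr 1
        show c j * (a j z * Φ.f j z) = c j * a j z * Φ.f j z
        ring
    rw [hh, h2]
  refine Φ.replace_nondeg_levelOne hΦ i0 (K := K) (d := 12) c a cusp83_discMF h' ?_ hci0
    (hane i0 hci0) (by omega)
  intro z
  rw [cusp83_discMF_apply, ← hh' z, hval z]

end Fermat.Agent.S20
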