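import Mathlib

set_option autoImplicit false

open scoped MatrixGroups ModularForm Topology Manifold
open UpperHalfPlane EisensteinSeries CongruenceSubgroup Filter ModularForm

noncomputable section

namespace Fermat.Agent.S20

/-- The point `i (|t| + 1)` of the upper half plane. -/
def pePt (t : ℝ) : ℍ := ⟨⟨0, |t| + 1⟩, by positivity⟩

lemma pePt_im (t : ℝ) : (pePt t).im = |t| + 1 := rfl

lemma pePt_re (t : ℝ) : (pePt t).re = 0 := rfl

lemma pePt_mem_verticalStrip (t : ℝ) : pePt t ∈ verticalStrip 0 1 := by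
  refine ⟨?_, ?_⟩
  · simp [pePt_re]
  · rw [pePt_im]; linarith [abs_nonneg t]

lemma pePt_tendsto_im : Tendsto (fun t : ℝ => (pePt t).im) atTop atTop := by
  simp only [pePt_im]
  exact tendsto_atTop_add_const_right _ _ (tendsto_abs_atTop_atTop)

/-- limit of a single Eisenstein summand along the imaginary axis. -/
lemma pe_tendsto_eisSummand (k : ℤ) (hk : 0 < k) (v : Fin 2 → ℤ) :
    Tendsto (fun t : ℝ => eisSummand k v (pePt t)) atTop
      (𝓝 (if v 0 = 0 then ((v 1 : ℂ)) ^ (-k) else 0)) := by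
  by_cases hv : v 0 = 0
  · simp only [eisSummand, hv, if_true, Int.cast_zero, zero_mul, zero_add]
    exact tendsto_const_nhds
  · simp only [hv, if_false]
    rw [tendsto_zero_iff_norm_tendsto_zero]
    simp only [eisSummand, norm_zpow]
    have h1 : Tendsto (fun t : ℝ => ‖(v 0 : ℂ) * ((pePt t : ℍ) : ℂ) + (v 1 : ℂ)‖) atTop atTop := by
      have h2 : ∀ t : ℝ, |(v 0 : ℝ)| * (pePt t).im ≤ ‖(v 0 : ℂ) * ((pePt t : ℍ) : ℂ) + (v 1 : ℂ)‖ := by
        intro t
        have h3 := Complex.abs_im_le_norm ((v 0 : ℂ) * ((pePt t : ℍ) : ℂ) + (v 1 : ℂ))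
        have h4 : ((v 0 : ℂ) * ((pePt t : ℍ) : ℂ) + (v 1 : ℂ)).im = (v 0 : ℝ) * (pePt t).im := by
          simp [UpperHalfPlane.coe_im]
        rw [h4, abs_mul, abs_of_pos (pePt t).im_pos] at h3
        exact h3
      refine tendsto_atTop_mono h2 ?_
      have h5 : 0 < |(v 0 : ℝ)| := abs_pos.mpr (by exact_mod_cast hv)
      exact Tendsto.const_mul_atTop h5 pePt_tendsto_im
    exact (tendsto_zpow_atTop_zero (by omega : -k < 0)).comp h1


/-- The limit function of the Eisenstein summands. -/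
def peLim (k : ℤ) (v : Fin 2 → ℤ) : ℂ := if v 0 = 0 then ((v 1 : ℂ)) ^ (-k) else 0

/-- Tannery: limit of the Eisenstein series of level `N` along the imaginary axis. -/
lemma pe_tendsto_eisensteinSeries {N : ℕ} (a : Fin 2 → ZMod N) {k : ℤ} (hk : 3 ≤ k) :
    Tendsto (fun t : ℝ => eisensteinSeries a k (pePt t)) atTop
      (𝓝 (∑' v : gammaSet N 1 a, peLim k v)) := by
  unfold eisensteinSeries
  have hk' : (2 : ℝ) < k := by exact_mod_cast (by omega : (2 : ℤ) < k)
  have hsum : Summable fun v : gammaSet N 1 a =>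
      r ⟨⟨0, 1⟩, one_pos⟩ ^ (-(k : ℝ)) * ‖(v : Fin 2 → ℤ)‖ ^ (-(k : ℝ)) :=
    ((summable_one_div_norm_rpow hk').mul_left _).subtype _
  refine tendsto_tsum_of_dominated_convergence hsum
    (fun v => pe_tendsto_eisSummand k (by omega) v) ?_
  refine Eventually.of_forall fun t v => ?_
  simp only [eisSummand, norm_zpow]
  have := summand_bound_of_mem_verticalStrip (k := (k : ℝ)) (by positivity) (v : Fin 2 → ℤ)
    one_pos (pePt_mem_verticalStrip t)
  rw [← Real.rpow_intCast]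
  push_cast
  exact this


lemma pe_tsum_peLim_eq_zero {N : ℕ} (a : Fin 2 → ZMod N) (k : ℤ) (ha : a 0 ≠ 0) :
    (∑' v : gammaSet N 1 a, peLim k v) = 0 := by
  have : ∀ v : gammaSet N 1 a, peLim k v = 0 := by
    rintro ⟨v, hv⟩
    have h0 : v 0 ≠ 0 := by
      intro h
      apply ha
      have := congrFun hv.1 0
      simp only [Function.comp_apply] at this
      rw [← this, h, Int.cast_zero]
    simp [peLim, h0]
  simp [this]

lemma pe_tsum_peLim_eq {N : ℕ} (u : (ZMod N)ˣ) {k : ℤ} (hk : Even k) :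
    (∑' v : gammaSet N 1 ![0, (u : ZMod N)], peLim k v) =
      (if u = 1 then 1 else 0) + (if u = -1 then 1 else 0) := by
  classical
  rw [tsum_subtype (gammaSet N 1 ![0, (u : ZMod N)]) (peLim k)]
  have hsupp : ∀ v : Fin 2 → ℤ, v ∉ ({![0, 1], ![0, -1]} : Finset (Fin 2 → ℤ)) →
      (gammaSet N 1 ![0, (u : ZMod N)]).indicator (peLim k) v = 0 := by
    intro v hv
    by_cases hmem : v ∈ gammaSet N 1 ![0, (u : ZMod N)]
    · rw [Set.indicator_of_mem hmem]
      by_cases h0 : v 0 = 0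
      · exfalso
        apply hv
        have hg := hmem.2
        rw [h0, Int.gcd_zero_left] at hg
        have h1 : v 1 = 1 ∨ v 1 = -1 := by
          have : (v 1).natAbs = 1 := hg
          exact Int.natAbs_eq_natAbs_iff.mp (by simpa using this)
        rcases h1 with h1 | h1
        · have : v = ![0, 1] := by
            ext i; fin_cases i <;> simp [h0, h1]
          simp [this]
        · have : v = ![0, -1] := by
            ext i; fin_cases i <;> simp [h0, h1]
          simp [this]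
      · simp [peLim, h0]
    · exact Set.indicator_of_notMem hmem _
  rw [tsum_eq_sum hsupp]
  have hne : (![0, 1] : Fin 2 → ℤ) ≠ ![0, -1] := by
    intro h
    have := congrFun h 1
    simp at this
  rw [Finset.sum_pair hne]
  have hmem1 : (![0, 1] : Fin 2 → ℤ) ∈ gammaSet N 1 ![0, (u : ZMod N)] ↔ u = 1 := by
    constructor
    · intro h
      have := congrFun h.1 1
      simp only [Function.comp_apply, Matrix.cons_val_one, Matrix.cons_val_zero, Int.cast_one] at this
      exact Units.ext this.symm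
    · rintro rfl
      refine ⟨?_, by simp⟩
      ext i; fin_cases i <;> simp
  have hmem2 : (![0, -1] : Fin 2 → ℤ) ∈ gammaSet N 1 ![0, (u : ZMod N)] ↔ u = -1 := by
    constructor
    · intro h
      have := congrFun h.1 1
      simp only [Function.comp_apply, Matrix.cons_val_one, Matrix.cons_val_zero, Int.cast_neg,
        Int.cast_one] at this
      exact Units.ext (by simpa using this.symm)
    · rintro rfl
      refine ⟨?_, by simp⟩
      ext i; fin_cases i <;> simp
  have hpow : ((-1 : ℂ)) ^ (-k) = 1 := by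
    rw [zpow_neg, hk.neg_one_zpow, inv_one]
  congr 1
  · by_cases h : u = 1
    · rw [Set.indicator_of_mem (hmem1.mpr h), if_pos h]
      simp [peLim]
    · rw [Set.indicator_of_notMem (fun hh => h (hmem1.mp hh)), if_neg h]
  · by_cases h : u = -1
    · rw [Set.indicator_of_mem (hmem2.mpr h), if_pos h]
      simp [peLim, hpow]
    · rw [Set.indicator_of_notMem (fun hh => h (hmem2.mp hh)), if_neg h]


open Matrix in
lemma pe_vecMul (N : ℕ) (a b : ZMod N) (M : Matrix (Fin 2) (Fin 2) (ZMod N)) :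
    ![a, b] ᵥ* M = ![a * M 0 0 + b * M 1 0, a * M 0 1 + b * M 1 1] := by
  ext i; fin_cases i <;> simp [Matrix.vecMul, dotProduct, Fin.sum_univ_two]

/-- The underlying function of the primitive element: the sum of the Eisenstein series of level
`N` with congruence condition `(0, u)`, `u` a unit mod `N`. -/
def peFun (N : ℕ) [NeZero N] (k : ℤ) : ℍ → ℂ :=
  ∑ u : (ZMod N)ˣ, (eisensteinSeries ![0, (u : ZMod N)] k : ℍ → ℂ)

lemma peFun_apply (N : ℕ) [NeZero N] (k : ℤ) (z : ℍ) :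
    peFun N k z = ∑ u : (ZMod N)ˣ, eisensteinSeries ![0, (u : ZMod N)] k z := by
  simp [peFun, Finset.sum_apply]

lemma peFun_slash (N : ℕ) [NeZero N] (k : ℤ) (γ : SL(2, ℤ)) :
    peFun N k ∣[k] γ = ∑ u : (ZMod N)ˣ,
      (eisensteinSeries ![(u : ZMod N) * ((γ 1 0 : ℤ) : ZMod N),
        (u : ZMod N) * ((γ 1 1 : ℤ) : ZMod N)] k : ℍ → ℂ) := by
  rw [peFun, SlashAction.sum_slash]
  refine Finset.sum_congr rfl fun u _ => ?_
  rw [eisensteinSeries_slash_apply, pe_vecMul]
  simp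


lemma pe_tendsto_peFun (N : ℕ) [NeZero N] {k : ℤ} (hk : 3 ≤ k) (hk2 : Even k) :
    Tendsto (fun t : ℝ => peFun N k (pePt t)) atTop (𝓝 2) := by
  have h1 : Tendsto (fun t : ℝ => peFun N k (pePt t)) atTop
      (𝓝 (∑ u : (ZMod N)ˣ, ((if u = 1 then (1 : ℂ) else 0) + (if u = -1 then 1 else 0)))) := by
    simp only [peFun_apply]
    refine tendsto_finsetSum _ fun u _ => ?_
    rw [← pe_tsum_peLim_eq u hk2]
    exact pe_tendsto_eisensteinSeries _ hk
  have h2 : (∑ u : (ZMod N)ˣ, ((if u = 1 then (1 : ℂ) else 0) + (if u = -1 then 1 else 0))) = 2 := by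
    rw [Finset.sum_add_distrib, Finset.sum_ite_eq', Finset.sum_ite_eq']
    simp
    norm_num
  rwa [h2] at h1

lemma pe_tendsto_peFun_slash (N : ℕ) [NeZero N] {k : ℤ} (hk : 3 ≤ k) (γ : SL(2, ℤ))
    (hγ : γ ∉ Gamma0 N) :
    Tendsto (fun t : ℝ => (peFun N k ∣[k] γ) (pePt t)) atTop (𝓝 0) := by
  rw [peFun_slash]
  have hc : ((γ 1 0 : ℤ) : ZMod N) ≠ 0 := fun h => hγ (Gamma0_mem.mpr h)
  have h1 : Tendsto (fun t : ℝ => ∑ u : (ZMod N)ˣ,
      eisensteinSeries ![(u : ZMod N) * ((γ 1 0 : ℤ) : ZMod N),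
        (u : ZMod N) * ((γ 1 1 : ℤ) : ZMod N)] k (pePt t)) atTop
      (𝓝 (∑ _u : (ZMod N)ˣ, (0 : ℂ))) := by
    refine tendsto_finsetSum _ fun u _ => ?_
    have hne : (![(u : ZMod N) * ((γ 1 0 : ℤ) : ZMod N),
        (u : ZMod N) * ((γ 1 1 : ℤ) : ZMod N)] : Fin 2 → ZMod N) 0 ≠ 0 := by
      simp only [Matrix.cons_val_zero]
      exact fun h => hc (by simpa using h)
    rw [← pe_tsum_peLim_eq_zero _ k hne]
    exact pe_tendsto_eisensteinSeries _ hk
  simpa [Finset.sum_apply] using h1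

/-- The primitive element as a modular form on `Γ₀(N)`. -/
def peForm (N : ℕ) [NeZero N] {k : ℤ} (hk : 3 ≤ k) : ModularForm (Gamma0 N) k where
  toFun := peFun N k
  slash_action_eq' := by
    intro g hg
    obtain ⟨γ, hγ, rfl⟩ := Subgroup.mem_map.mp hg
    show peFun N k ∣[k] γ = peFun N k
    rw [peFun_slash]
    have hc : ((γ 1 0 : ℤ) : ZMod N) = 0 := Gamma0_mem.mp hγ
    have hdet : ((γ 0 0 : ℤ) : ZMod N) * ((γ 1 1 : ℤ) : ZMod N) = 1 := by
      have := γ.det_coe
      rw [Matrix.det_fin_two] at this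
      have h2 := congrArg (Int.cast : ℤ → ZMod N) this
      push_cast at h2
      rw [hc, mul_zero, sub_zero] at h2
      exact h2
    let d : (ZMod N)ˣ := ⟨((γ 1 1 : ℤ) : ZMod N), ((γ 0 0 : ℤ) : ZMod N),
      by rw [mul_comm]; exact hdet, hdet⟩
    rw [peFun]
    refine Fintype.sum_equiv (Equiv.mulRight d) _ _ fun u => ?_
    simp only [hc, mul_zero, Equiv.coe_mulRight, Units.val_mul]
    rfl
  holo' := by
    show MDiff (peFun N k)
    rw [peFun]
    exact MDifferentiable.sum fun u _ => eisensteinSeriesSIF_mdifferentiable hk _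
  bdd_at_cusps' {c} hc := by
    rw [Subgroup.IsArithmetic.isCusp_iff_isCusp_SL2Z] at hc
    rw [OnePoint.isBoundedAt_iff_forall_SL2Z hc]
    intro γ _
    show IsBoundedAtImInfty (peFun N k ∣[k] γ)
    rw [peFun, SlashAction.sum_slash, IsBoundedAtImInfty, Filter.BoundedAtFilter, Finset.sum_fn]
    exact .fun_sum fun u _ => isBoundedAtImInfty_eisensteinSeriesSIF _ hk γ


@[simp] lemma coe_peForm (N : ℕ) [NeZero N] {k : ℤ} (hk : 3 ≤ k) :
    (⇑(peForm N hk) : ℍ → ℂ) = peFun N k := rfl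

/-- The primitive element is not fixed by any `γ ∈ SL(2, ℤ)` outside `Γ₀(N)`. -/
theorem peForm_slash_ne (N : ℕ) [NeZero N] {k : ℤ} (hk : 3 ≤ k) (hk2 : Even k) (γ : SL(2, ℤ))
    (hγ : γ ∉ Gamma0 N) : (⇑(peForm N hk) : ℍ → ℂ) ∣[k] γ ≠ ⇑(peForm N hk) := by
  intro h
  rw [coe_peForm] at h
  have h0 := pe_tendsto_peFun_slash N hk γ hγ
  rw [h] at h0
  have h2 := pe_tendsto_peFun N hk hk2
  have := tendsto_nhds_unique h0 h2
  norm_num at this

/-- **S20 package D** (primitive element): there is a modular form on `Γ₀(N)` (of weight `4`)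
which is not fixed by any element of `SL(2, ℤ)` outside `Γ₀(N)`. -/
theorem exists_primitive_element (N : ℕ) [NeZero N] :
    ∃ (k : ℤ) (F : ModularForm (Gamma0 N) k), 0 < k ∧
      ∀ γ : SL(2, ℤ), γ ∉ Gamma0 N → (⇑F : ℍ → ℂ) ∣[k] γ ≠ ⇑F :=
  ⟨4, peForm N (by norm_num), by norm_num,
    fun γ hγ => peForm_slash_ne N (by norm_num) (by decide) γ hγ⟩

/-- Version with explicit weight `4`, including the limits along the imaginary axis. -/
theorem primitive_element_four (N : ℕ) [NeZero N] :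
    ∃ F : ModularForm (Gamma0 N) 4,
      Tendsto (fun t : ℝ => F (pePt t)) atTop (𝓝 2) ∧
      (∀ γ : SL(2, ℤ), γ ∉ Gamma0 N →
        Tendsto (fun t : ℝ => ((⇑F : ℍ → ℂ) ∣[(4 : ℤ)] γ) (pePt t)) atTop (𝓝 0)) ∧
      ∀ γ : SL(2, ℤ), γ ∉ Gamma0 N → (⇑F : ℍ → ℂ) ∣[(4 : ℤ)] γ ≠ ⇑F :=
  ⟨peForm N (by norm_num), pe_tendsto_peFun N (by norm_num) (by decide),
    fun γ hγ => pe_tendsto_peFun_slash N (by norm_num) γ hγ,
    fun γ hγ => peForm_slash_ne N (by norm_num) (by decide) γ hγ⟩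

end Fermat.Agent.S20
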