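import Fermat.Agent.S20.Basic
import Fermat.Agent.S20.PrimitiveElement

set_option autoImplicit false

open scoped MatrixGroups ModularForm Topology Manifold
open UpperHalfPlane EisensteinSeries CongruenceSubgroup Filter ModularForm

noncomputable section

namespace Fermat.Agent.S20

/-- The conjugate `cj F ⟦h⟧` for `h = mapGL ℝ g`, `g : SL(2, ℤ)`, is `F ∣[k] g⁻¹`. -/
lemma cj_mk_mapGL {N : ℕ} {k : ℤ} (F : ModularForm (G0 N) k) (g : SL(2, ℤ)) :
    cj F (QuotientGroup.mk (⟨Matrix.SpecialLinearGroup.mapGL ℝ g, ⟨g, rfl⟩⟩ : 𝒮ℒ)) =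
      (⇑F : ℍ → ℂ) ∣[k] g⁻¹ := by
  show SlashInvariantForm.quotientFunc F _ = _
  erw [SlashInvariantForm.quotientFunc_mk]
  rw [← map_inv]
  rfl

/-- `⟦mapGL g⟧ = q0` iff `g ∈ Γ₀(N)`. -/
lemma mk_mapGL_eq_q0_iff {N : ℕ} (g : SL(2, ℤ)) :
    (QuotientGroup.mk (⟨Matrix.SpecialLinearGroup.mapGL ℝ g, ⟨g, rfl⟩⟩ : 𝒮ℒ) : Q N) = q0 N ↔
      g ∈ Gamma0 N := by
  rw [q0, QuotientGroup.eq]
  simp only [mul_one, Subgroup.mem_subgroupOf, inv_mem_iff]
  constructor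
  · rintro ⟨γ, hγ, h⟩
    have : γ = g := Matrix.SpecialLinearGroup.mapGL_injective h
    exact this ▸ hγ
  · intro h
    exact ⟨g, h, rfl⟩

/-- **S20 package D**, in the form of `NOTES/S20-route.md`: a primitive element for `Γ₀(N)`. -/
theorem exists_primitive (N : ℕ) [NeZero N] :
    ∃ (k : ℤ) (F : ModularForm (G0 N) k), 0 < k ∧ ∀ q : Q N, q ≠ q0 N → cj F q ≠ ⇑F := by
  refine ⟨4, peForm N (by norm_num), by norm_num, fun q hq => ?_⟩
  induction q using QuotientGroup.induction_on with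
  | H h =>
    obtain ⟨h, ⟨g, rfl⟩⟩ := h
    have hg : g ∉ Gamma0 N := fun hg => hq ((mk_mapGL_eq_q0_iff g).mpr hg)
    have hg' : g⁻¹ ∉ Gamma0 N := fun h' => hg (by simpa using inv_mem h')
    rw [cj_mk_mapGL]
    exact peForm_slash_ne N (by norm_num) (by decide) g⁻¹ hg'

end Fermat.Agent.S20
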