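/-
S20 package EX: a nondegenerate frame exists (powers of a primitive element; Vandermonde).
-/
import Fermat.Agent.S20.Conj
import Fermat.Agent.S20.PrimitiveQ

set_option autoImplicit false

open CongruenceSubgroup UpperHalfPlane ModularForm SlashInvariantForm
open scoped MatrixGroups Manifold

noncomputable section

namespace Fermat.Agent.S20

variable {N : ℕ} [NeZero N] {k : ℤ}

/-- Conjugates of a power are powers of the conjugates. -/
lemma cj_pow (F : ModularForm (G0 N) k) (n : ℕ) (q : Q N) :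
    cj (F.pow n) q = (cj F q) ^ n := by
  induction n with
  | zero =>
    obtain ⟨γ, rfl⟩ := mkQ_surjective q
    rw [cj_mkQ, ModularForm.coe_pow, pow_zero, pow_zero]
    simp only [Nat.cast_zero, zero_mul]
    exact ModularForm.is_invariant_one _
  | succ n ih =>
    have h : F.pow (n + 1) = ((F.pow n).mul F).mcast (by push_cast; ring) := rfl
    rw [h, cj_mcast, cj_mul, ih, pow_succ]

/-- A primitive element has pairwise distinct conjugates. -/
lemma cj_injective_of_primitive (F : ModularForm (G0 N) k)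
    (hF : ∀ q : Q N, q ≠ q0 N → cj F q ≠ ⇑F) : Function.Injective (cj F) := by
  intro q q' h
  obtain ⟨γ, rfl⟩ := mkQ_surjective q
  obtain ⟨δ, rfl⟩ := mkQ_surjective q'
  have h1 := congrArg (fun f : ℍ → ℂ => f ∣[k] γ) h
  simp only [cj_slash, smul_mkQ, ← toSL_inv] at h1
  rw [inv_mul_cancel, mkQ_one, cj_q0] at h1
  have h2 : mkQ N (γ⁻¹ * δ) = q0 N := by
    by_contra hne
    exact hF _ hne h1.symm
  rw [← mkQ_one, mkQ_eq_iff, mul_one] at h2
  rw [mkQ_eq_iff]
  simpa using inv_mem h2

/-- Finitely many pairwise distinct holomorphic functions on `ℍ` take pairwise distinct values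
at some point. -/
lemma exists_point_injective (F : ModularForm (G0 N) k) (hinj : Function.Injective (cj F)) :
    ∃ z : ℍ, Function.Injective (fun q : Q N => cj F q z) := by
  classical
  let s : Finset (Q N × Q N) := Finset.univ.filter fun p => p.1 ≠ p.2
  have hmd : ∀ p ∈ s, MDiff (fun z => cj F p.1 z - cj F p.2 z) := fun p _ =>
    (cj_mdiff F p.1).sub (cj_mdiff F p.2)
  have hne : ¬ (∏ p ∈ s, fun z => cj F p.1 z - cj F p.2 z) = 0 := by
    rw [UpperHalfPlane.prod_eq_zero_iff hmd]
    rintro ⟨p, hp, h0⟩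
    have hp' : p.1 ≠ p.2 := (Finset.mem_filter.mp hp).2
    apply hp'
    apply hinj
    funext z
    have := congrFun h0 z
    simpa [sub_eq_zero] using this
  obtain ⟨z, hz⟩ : ∃ z : ℍ, (∏ p ∈ s, fun z => cj F p.1 z - cj F p.2 z) z ≠ 0 := by
    by_contra hcon
    push Not at hcon
    exact hne (funext hcon)
  refine ⟨z, fun q q' hqq => ?_⟩
  by_contra hne'
  apply hz
  rw [Finset.prod_apply]
  refine Finset.prod_eq_zero (i := (q, q')) (Finset.mem_filter.mpr ⟨Finset.mem_univ _, hne'⟩) ?_
  simpa [sub_eq_zero] using hqq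

/-- The frame of powers `F^0, F^1, …, F^(μ-1)` of a modular form `F` of weight `k`. -/
def powerFrame (F : ModularForm (G0 N) k) : Frame N where
  wt i := ((Fintype.equivFin (Q N) i : ℕ) : ℤ) * k
  f i := F.pow (Fintype.equivFin (Q N) i : ℕ)

lemma powerFrame_A (F : ModularForm (G0 N) k) (z : ℍ) (i q : Q N) :
    (powerFrame F).A z i q = (cj F q z) ^ (Fintype.equivFin (Q N) i : ℕ) := by
  show cj (F.pow _) q z = _
  rw [cj_pow]; rfl

lemma powerFrame_det_ne_zero (F : ModularForm (G0 N) k) (z : ℍ)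
    (hz : Function.Injective (fun q : Q N => cj F q z)) : ((powerFrame F).A z).det ≠ 0 := by
  let e := Fintype.equivFin (Q N)
  have hre : Matrix.reindex e e ((powerFrame F).A z) =
      (Matrix.vandermonde (fun j => cj F (e.symm j) z)).transpose := by
    ext i j
    simp only [Matrix.reindex_apply, Matrix.submatrix_apply, Matrix.transpose_apply,
      Matrix.vandermonde_apply, powerFrame_A]
    simp [e]
  rw [← Matrix.det_reindex_self e, hre, Matrix.det_transpose, Matrix.det_vandermonde_ne_zero_iff]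
  intro a b hab
  exact e.symm.injective (hz hab)

/-- **S20 package EX**: a nondegenerate frame exists. -/
theorem exists_nondeg (N : ℕ) [NeZero N] : ∃ Φ : Frame N, Φ.Nondeg := by
  obtain ⟨k, F, -, hF⟩ := exists_primitive N
  obtain ⟨z, hz⟩ := exists_point_injective F (cj_injective_of_primitive F hF)
  exact ⟨powerFrame F, z, powerFrame_det_ne_zero F z hz⟩

/-- Version with control of the weights: the frame `F^i` (`i < μ`) has even weights `≥ 0`. -/
theorem exists_nondeg_wt (N : ℕ) [NeZero N] :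
    ∃ Φ : Frame N, Φ.Nondeg ∧ (∀ i, 0 ≤ Φ.wt i) ∧ (∀ i, Even (Φ.wt i)) := by
  obtain ⟨F, hF⟩ : ∃ F : ModularForm (G0 N) 4, ∀ q : Q N, q ≠ q0 N → cj F q ≠ ⇑F := by
    refine ⟨peForm N (by norm_num), fun q hq => ?_⟩
    induction q using QuotientGroup.induction_on with
    | H h =>
      obtain ⟨h, ⟨g, rfl⟩⟩ := h
      have hg : g ∉ Gamma0 N := fun hg => hq ((mk_mapGL_eq_q0_iff g).mpr hg)
      have hg' : g⁻¹ ∉ Gamma0 N := fun h' => hg (by simpa using inv_mem h')
      rw [cj_mk_mapGL]
      exact peForm_slash_ne N (by norm_num) (by decide) g⁻¹ hg'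
  obtain ⟨z, hz⟩ := exists_point_injective F (cj_injective_of_primitive F hF)
  refine ⟨powerFrame F, ⟨z, powerFrame_det_ne_zero F z hz⟩, fun i => ?_, fun i => ?_⟩
  · show (0 : ℤ) ≤ ((Fintype.equivFin (Q N) i : ℕ) : ℤ) * 4
    positivity
  · show Even (((Fintype.equivFin (Q N) i : ℕ) : ℤ) * 4)
    exact ⟨((Fintype.equivFin (Q N) i : ℕ) : ℤ) * 2, by ring⟩

end Fermat.Agent.S20
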