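/-
S20 package C-c (helper87): division by a holomorphic function with simple zeros.

* `exists_div_of_simple_zeros`: if `P, h : ℍ → ℂ` are holomorphic, all zeros of `P` are simple
  and `h` vanishes at every zero of `P`, then `h = P * g` with `g` holomorphic on `ℍ`.
-/
import Mathlib

set_option autoImplicit false

open UpperHalfPlane Filter Topology
open scoped Manifold

namespace Fermat.Agent.S20

/-- Local statement on `ℂ`: if `p, q` are differentiable near `z₀`, `p z₀ = 0 = q z₀` and
`deriv p z₀ ≠ 0`, then the function `z ↦ q z / p z` (with value `q'(z)/p'(z)` at the zeros of `p`)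
is differentiable at `z₀`. -/
theorem divSimple_differentiableAt_zero {p q : ℂ → ℂ} {U : Set ℂ} (hU : IsOpen U)
    (hp : DifferentiableOn ℂ p U) (hq : DifferentiableOn ℂ q U) {z₀ : ℂ} (hz₀ : z₀ ∈ U)
    (hp0 : p z₀ = 0) (hq0 : q z₀ = 0) (hp' : deriv p z₀ ≠ 0) :
    DifferentiableAt ℂ (fun z => if p z = 0 then deriv q z / deriv p z else q z / p z) z₀ := by
  have hUn : U ∈ 𝓝 z₀ := hU.mem_nhds hz₀
  have hdp : DifferentiableAt ℂ (dslope p z₀) z₀ :=
    ((Complex.differentiableOn_dslope hUn).2 hp).differentiableAt hUn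
  have hdq : DifferentiableAt ℂ (dslope q z₀) z₀ :=
    ((Complex.differentiableOn_dslope hUn).2 hq).differentiableAt hUn
  have hne : dslope p z₀ z₀ ≠ 0 := by rwa [dslope_same]
  have hG : DifferentiableAt ℂ (fun z => dslope q z₀ z / dslope p z₀ z) z₀ := hdq.div hdp hne
  have hev : ∀ᶠ z in 𝓝 z₀, dslope p z₀ z ≠ 0 := hdp.continuousAt.eventually_ne hne
  refine hG.congr_of_eventuallyEq ?_
  filter_upwards [hev] with z hz
  by_cases hzz : z = z₀
  · subst hzz
    simp [hp0, dslope_same]
  · have hsub : z - z₀ ≠ 0 := sub_ne_zero.2 hzz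
    have e1 : p z = (z - z₀) * dslope p z₀ z := by
      have := sub_smul_dslope p z₀ z
      rw [hp0, sub_zero, smul_eq_mul] at this
      exact this.symm
    have e2 : q z = (z - z₀) * dslope q z₀ z := by
      have := sub_smul_dslope q z₀ z
      rw [hq0, sub_zero, smul_eq_mul] at this
      exact this.symm
    have hpz : p z ≠ 0 := by
      rw [e1]
      exact mul_ne_zero hsub hz
    simp only [hpz, if_false]
    rw [e1, e2, mul_div_mul_left _ _ hsub]

/-- Division by a holomorphic function on `ℍ` with simple zeros: if `h` vanishes at all zeros of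
`P` and these are simple, then `h = P * g` with `g` holomorphic. -/
theorem exists_div_of_simple_zeros (P h : ℍ → ℂ) (hP : MDiff P) (hh : MDiff h)
    (hsimple : ∀ z : ℍ, P z = 0 → deriv (P ∘ UpperHalfPlane.ofComplex) z ≠ 0)
    (hvan : ∀ z : ℍ, P z = 0 → h z = 0) : ∃ g : ℍ → ℂ, MDiff g ∧ ∀ z, h z = P z * g z := by
  classical
  set p : ℂ → ℂ := P ∘ UpperHalfPlane.ofComplex with hpdef
  set q : ℂ → ℂ := h ∘ UpperHalfPlane.ofComplex with hqdef
  have hp : DifferentiableOn ℂ p {z | 0 < z.im} := UpperHalfPlane.mdifferentiable_iff.1 hP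
  have hq : DifferentiableOn ℂ q {z | 0 < z.im} := UpperHalfPlane.mdifferentiable_iff.1 hh
  have hopen : IsOpen {z : ℂ | 0 < z.im} := isOpen_upperHalfPlaneSet
  set g' : ℂ → ℂ := fun z => if p z = 0 then deriv q z / deriv p z else q z / p z with hg'def
  have hpval : ∀ z : ℍ, p z = P z := fun z => by simp [hpdef]
  have hqval : ∀ z : ℍ, q z = h z := fun z => by simp [hqdef]
  refine ⟨fun z => g' z, ?_, ?_⟩
  · rw [UpperHalfPlane.mdifferentiable_iff]
    intro z₀ hz₀
    have hz₀' : (0 : ℝ) < z₀.im := hz₀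
    have hUn : {z : ℂ | 0 < z.im} ∈ 𝓝 z₀ := hopen.mem_nhds hz₀
    -- near `z₀` the composite with `ofComplex` is just `g'`
    have hcongr : ((fun z : ℍ => g' z) ∘ UpperHalfPlane.ofComplex) =ᶠ[𝓝 z₀] g' := by
      filter_upwards [hUn] with z hz
      have hz' : (0 : ℝ) < z.im := hz
      simp only [Function.comp_apply]
      rw [UpperHalfPlane.ofComplex_apply_of_im_pos hz']
    suffices hmain : DifferentiableAt ℂ g' z₀ from
      (hmain.congr_of_eventuallyEq hcongr).differentiableWithinAt
    by_cases hp0 : p z₀ = 0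
    · have hP0 : P ⟨z₀, hz₀'⟩ = 0 := by rw [← hpval]; exact hp0
      have hq0 : q z₀ = 0 := by
        have := hvan ⟨z₀, hz₀'⟩ hP0
        rw [← hqval] at this
        exact this
      have hp' : deriv p z₀ ≠ 0 := hsimple ⟨z₀, hz₀'⟩ hP0
      exact divSimple_differentiableAt_zero hopen hp hq hz₀ hp0 hq0 hp'
    · have hpd : DifferentiableAt ℂ p z₀ := hp.differentiableAt hUn
      have hqd : DifferentiableAt ℂ q z₀ := hq.differentiableAt hUn
      have hev : ∀ᶠ z in 𝓝 z₀, p z ≠ 0 := hpd.continuousAt.eventually_ne hp0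
      refine (hqd.div hpd hp0).congr_of_eventuallyEq ?_
      filter_upwards [hev] with z hz
      simp [hg'def, hz]
  · intro z
    by_cases hz : P z = 0
    · rw [hvan z hz, hz, zero_mul]
    · simp only [hg'def, hpval, hqval, if_neg hz]
      field_simp

end Fermat.Agent.S20
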