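import Mathlib

/-!
# S20, package C (level one)

* `Fermat.Agent.S20.levelOne_exists_E4_E6_decomp`: every level-one modular form of weight `w ≠ 0`
  is `E₄ · a + E₆ · b` with `a`, `b` level-one modular forms of weights `w - 4`, `w - 6`.
-/

set_option autoImplicit false

open UpperHalfPlane ModularForm ModularFormClass MatrixGroups EisensteinSeries

namespace Fermat.Agent.S20

/-- value at infinity -/
noncomputable def levelOneConst {k : ℤ} (f : ModularForm 𝒮ℒ k) : ℂ := (qExpansion 1 f).coeff 0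

theorem levelOne_eq_delta_mul_of_coeff_zero {k : ℤ} (g : ModularForm 𝒮ℒ k)
    (hg : (qExpansion 1 g).coeff 0 = 0) :
    ∃ h : ModularForm 𝒮ℒ (k - 12), ∀ z : ℍ, g z = ModularForm.discriminant z * h z := by
  refine ⟨CuspForm.discriminantEquiv (toCuspForm g hg), fun z => ?_⟩
  rw [ModularForm.discriminant_mul_discriminantEquiv_apply, toCuspForm_apply]

theorem levelOne_exists_E4_E6_decomp_nat (w : ℕ) (hw : 8 ≤ w) (hw2 : Even w)
    (f : ModularForm 𝒮ℒ (w : ℤ)) :
    ∃ (a : ModularForm 𝒮ℒ ((w : ℤ) - 4)) (b : ModularForm 𝒮ℒ ((w : ℤ) - 6)),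
      ∀ z : ℍ, f z = E₄ z * a z + E₆ z * b z := by
  have hk : 3 ≤ w - 4 := by omega
  have hk2 : Even (w - 4) := by
    rcases hw2 with ⟨m, hm⟩
    exact ⟨m - 2, by omega⟩
  -- the Eisenstein series of weight `w - 4`
  let Ew : ModularForm 𝒮ℒ ((w : ℤ) - 4) := ModularForm.mcast (by omega) (E hk)
  let G : ModularForm 𝒮ℒ (w : ℤ) := ModularForm.mcast (by ring) (E₄.mul Ew)
  set c : ℂ := (qExpansion 1 f).coeff 0 with hc
  have hG0 : (qExpansion 1 G).coeff 0 = 1 := by
    have h1 : (G : ℍ → ℂ) = (E₄ : ℍ → ℂ) * (E hk : ℍ → ℂ) := by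
      ext z; rfl
    rw [h1, ModularForm.qExpansion_mul_coe one_pos one_mem_strictPeriods_SL]
    simp [PowerSeries.coeff_mul, E_qExpansion_coeff_zero _ ⟨2, rfl⟩,
      E_qExpansion_coeff_zero hk hk2, -PowerSeries.coeff_zero_eq_constantCoeff]
  let g : ModularForm 𝒮ℒ (w : ℤ) := f - c • G
  have hg0 : (qExpansion 1 g).coeff 0 = 0 := by
    have h2 : (g : ℍ → ℂ) = (f : ℍ → ℂ) - c • (G : ℍ → ℂ) := rfl
    rw [h2, qExpansion_sub (ModularFormClass.analyticAt_cuspFunction_zero f one_pos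
        one_mem_strictPeriods_SL), qExpansion_smul (ModularFormClass.analyticAt_cuspFunction_zero G
        one_pos one_mem_strictPeriods_SL), map_sub, PowerSeries.coeff_smul, hG0]
    · simp [hc]
    · have := ModularFormClass.analyticAt_cuspFunction_zero (c • G) one_pos
        one_mem_strictPeriods_SL
      exact this
  obtain ⟨h, hh⟩ := levelOne_eq_delta_mul_of_coeff_zero g hg0
  -- assemble
  let a : ModularForm 𝒮ℒ ((w : ℤ) - 4) :=
    c • Ew + (1 / 1728 : ℂ) • ModularForm.mcast (by ring) ((E₄.mul E₄).mul h)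
  let b : ModularForm 𝒮ℒ ((w : ℤ) - 6) :=
    (-(1 / 1728) : ℂ) • ModularForm.mcast (by ring) (E₆.mul h)
  refine ⟨a, b, fun z => ?_⟩
  have h1 := hh z
  have hΔ := ModularForm.discriminant_eq_E₄_cube_sub_E₆_sq z
  have hfz : f z = c * (E₄ z * Ew z) + ModularForm.discriminant z * h z := by
    have : g z = f z - c * (E₄ z * Ew z) := rfl
    rw [this] at h1
    linear_combination h1
  have haz : a z = c * Ew z + (1 / 1728 : ℂ) * (E₄ z * E₄ z * h z) := rfl
  have hbz : b z = (-(1 / 1728) : ℂ) * (E₆ z * h z) := rfl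
  rw [hfz, haz, hbz, hΔ]
  ring


/-- **Package C1.** Every level-one modular form of weight `w ≠ 0` lies in
`E₄ · M_{w-4} + E₆ · M_{w-6}`. -/
theorem levelOne_exists_E4_E6_decomp {w : ℤ} (hw : w ≠ 0) (f : ModularForm 𝒮ℒ w) :
    ∃ (a : ModularForm 𝒮ℒ (w - 4)) (b : ModularForm 𝒮ℒ (w - 6)),
      ∀ z : ℍ, f z = E₄ z * a z + E₆ z * b z := by
  have hzero : f = 0 → ∃ (a : ModularForm 𝒮ℒ (w - 4)) (b : ModularForm 𝒮ℒ (w - 6)),
      ∀ z : ℍ, f z = E₄ z * a z + E₆ z * b z := by
    rintro rfl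
    exact ⟨0, 0, fun z => by simp⟩
  rcases lt_or_ge w 0 with hneg | hnonneg
  · exact hzero (rank_zero_iff_forall_zero.mp (levelOne_neg_weight_rank_zero hneg) f)
  rcases Int.even_or_odd w with hev | hodd
  swap
  · exact hzero (ModularForm.levelOne_odd_weight_eq_zero hodd f)
  lift w to ℕ using hnonneg
  have hev' : Even w := by exact_mod_cast hev
  have hw' : w ≠ 0 := by exact_mod_cast hw
  rcases lt_or_ge w 8 with hlt | hge
  · obtain ⟨m, hm⟩ := hev'
    have hcases : w = 2 ∨ w = 4 ∨ w = 6 := by omega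
    rcases hcases with rfl | rfl | rfl
    · exact hzero (rank_zero_iff_forall_zero.mp levelOne_weight_two_rank_zero f)
    · obtain ⟨c, hc⟩ : ∃ c : ℂ, c • E₄ = f :=
        (finrank_eq_one_iff_of_nonzero' E₄ (E_ne_zero _ ⟨2, rfl⟩)).mp
          (Module.rank_eq_one_iff_finrank_eq_one.mp levelOne_weight_four_rank_one) _
      refine ⟨ModularForm.mcast (by norm_num) (ModularForm.const c), 0, fun z => ?_⟩
      rw [← hc]
      have h1 : (c • E₄ : ModularForm 𝒮ℒ 4) z = c * E₄ z := rfl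
      have h2 : (ModularForm.mcast (by norm_num) (ModularForm.const c) :
          ModularForm 𝒮ℒ (((4 : ℕ) : ℤ) - 4)) z = c := rfl
      rw [h1, h2]
      simp
      ring
    · obtain ⟨c, hc⟩ : ∃ c : ℂ, c • E₆ = f :=
        (finrank_eq_one_iff_of_nonzero' E₆ (E_ne_zero _ ⟨3, rfl⟩)).mp
          (Module.rank_eq_one_iff_finrank_eq_one.mp levelOne_weight_six_rank_one) _
      refine ⟨0, ModularForm.mcast (by norm_num) (ModularForm.const c), fun z => ?_⟩
      rw [← hc]
      have h1 : (c • E₆ : ModularForm 𝒮ℒ 6) z = c * E₆ z := rfl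
      have h2 : (ModularForm.mcast (by norm_num) (ModularForm.const c) :
          ModularForm 𝒮ℒ (((6 : ℕ) : ℤ) - 6)) z = c := rfl
      rw [h1, h2]
      simp
      ring
  · exact levelOne_exists_E4_E6_decomp_nat w hge hev' f

end Fermat.Agent.S20
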