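/-
S20 package C-a (helper87): "`M_*(SL₂(ℤ)) = ℂ[E₄, E₆]`" in evaluation form.

* `levelOne_eval_scale`: if `E₄ z = t⁴ E₄ z0` and `E₆ z = t⁶ E₆ z0` then `r z = t^w r z0` for every
  level-one form `r` of weight `w`;
* `levelOne_eval_E6_zero`, `levelOne_eval_E4_zero`: values at the zeros of `E₆` resp. `E₄`.
-/
import Fermat.Agent.S20.LevelOneC

set_option autoImplicit false

open UpperHalfPlane ModularForm ModularFormClass MatrixGroups EisensteinSeries

namespace Fermat.Agent.S20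

theorem ca_neg_weight_apply {w : ℤ} (hw : w < 0) (r : ModularForm 𝒮ℒ w) (z : ℍ) : r z = 0 := by
  have h : (r : ℍ → ℂ) = 0 := levelOne_neg_weight_eq_zero hw r
  exact congrFun h z

theorem ca_E4_ne_zero_of_E6_eq_zero (z : ℍ) (h6 : E₆ z = 0) : E₄ z ≠ 0 := by
  intro h4
  have h := ModularForm.discriminant_eq_E₄_cube_sub_E₆_sq z
  rw [h4, h6] at h
  exact ModularForm.discriminant_ne_zero z (by rw [h]; norm_num)

theorem ca_E6_ne_zero_of_E4_eq_zero (z : ℍ) (h4 : E₄ z = 0) : E₆ z ≠ 0 := by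
  intro h6
  have h := ModularForm.discriminant_eq_E₄_cube_sub_E₆_sq z
  rw [h4, h6] at h
  exact ModularForm.discriminant_ne_zero z (by rw [h]; norm_num)

theorem ca_eval_scale_aux (z0 z : ℍ) (t : ℂ) (h4 : E₄ z = t ^ 4 * E₄ z0)
    (h6 : E₆ z = t ^ 6 * E₆ z0) :
    ∀ (n : ℕ) (w : ℤ), w.toNat = n → ∀ r : ModularForm 𝒮ℒ w, r z = t ^ n * r z0 := by
  intro n
  induction n using Nat.strong_induction_on with
  | _ n ih =>
    intro w hw r
    rcases lt_trichotomy w 0 with hneg | hzero | hpos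
    · rw [ca_neg_weight_apply hneg r z, ca_neg_weight_apply hneg r z0, mul_zero]
    · subst hzero
      obtain ⟨c, hc⟩ := levelOne_weight_zero_const r
      have hn : n = 0 := by simpa using hw.symm
      rw [hc, hn]
      simp
    · obtain ⟨a, b, hab⟩ := levelOne_exists_E4_E6_decomp hpos.ne' r
      have hA : E₄ z * a z = t ^ n * (E₄ z0 * a z0) := by
        rcases lt_or_ge w 4 with h | h
        · rw [ca_neg_weight_apply (by omega) a z, ca_neg_weight_apply (by omega) a z0]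
          simp
        · have hn4 : (w - 4).toNat + 4 = n := by omega
          have ha := ih (w - 4).toNat (by omega) (w - 4) rfl a
          rw [ha, h4, ← hn4, pow_add]
          ring
      have hB : E₆ z * b z = t ^ n * (E₆ z0 * b z0) := by
        rcases lt_or_ge w 6 with h | h
        · rw [ca_neg_weight_apply (by omega) b z, ca_neg_weight_apply (by omega) b z0]
          simp
        · have hn6 : (w - 6).toNat + 6 = n := by omega
          have hb := ih (w - 6).toNat (by omega) (w - 6) rfl b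
          rw [hb, h6, ← hn6, pow_add]
          ring
      rw [hab z, hab z0, hA, hB]
      ring

/-- **C-a, scaling.** -/
theorem levelOne_eval_scale (z0 z : ℍ) (t : ℂ) (h4 : E₄ z = t ^ 4 * E₄ z0)
    (h6 : E₆ z = t ^ 6 * E₆ z0) {w : ℤ} (r : ModularForm 𝒮ℒ w) : r z = t ^ w.toNat * r z0 :=
  ca_eval_scale_aux z0 z t h4 h6 w.toNat w rfl r

theorem ca_eval_E6_zero_aux :
    ∀ (n : ℕ) (w : ℤ), w.toNat = n → ∀ r : ModularForm 𝒮ℒ w,
      ∃ c : ℂ, ∀ z : ℍ, E₆ z = 0 → r z = if (4 : ℤ) ∣ w then c * E₄ z ^ (n / 4) else 0 := by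
  intro n
  induction n using Nat.strong_induction_on with
  | _ n ih =>
    intro w hw r
    rcases lt_trichotomy w 0 with hneg | hzero | hpos
    · refine ⟨0, fun z _ => ?_⟩
      rw [ca_neg_weight_apply hneg r z]
      simp
    · subst hzero
      obtain ⟨c, hc⟩ := levelOne_weight_zero_const r
      have hn : n = 0 := by simpa using hw.symm
      refine ⟨c, fun z _ => ?_⟩
      rw [hc, hn]
      simp
    · obtain ⟨a, b, hab⟩ := levelOne_exists_E4_E6_decomp hpos.ne' r
      rcases lt_or_ge w 4 with h | h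
      · refine ⟨0, fun z hz => ?_⟩
        rw [hab z, hz, ca_neg_weight_apply (by omega) a z]
        simp
      · obtain ⟨c, hc⟩ := ih (w - 4).toNat (by omega) (w - 4) rfl a
        refine ⟨c, fun z hz => ?_⟩
        have hdvd : (4 : ℤ) ∣ w - 4 ↔ (4 : ℤ) ∣ w := dvd_sub_self_right
        have hn4 : (w - 4).toNat / 4 + 1 = n / 4 := by omega
        rw [hab z, hz, hc z hz]
        by_cases hd : (4 : ℤ) ∣ w
        · rw [if_pos (hdvd.2 hd), if_pos hd, ← hn4, pow_succ]
          ring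
        · rw [if_neg (fun h' => hd (hdvd.1 h')), if_neg hd]
          simp

/-- **C-a, zeros of `E₆`.** -/
theorem levelOne_eval_E6_zero (z0 : ℍ) (h6 : E₆ z0 = 0) {w : ℤ} (r : ModularForm 𝒮ℒ w) :
    (¬ (4 : ℤ) ∣ w → r z0 = 0) ∧ ∀ z : ℍ, E₆ z = 0 → r z0 = 0 → r z = 0 := by
  obtain ⟨c, hc⟩ := ca_eval_E6_zero_aux w.toNat w rfl r
  refine ⟨fun hd => ?_, fun z hz hr => ?_⟩
  · rw [hc z0 h6, if_neg hd]
  · rw [hc z hz]
    by_cases hd : (4 : ℤ) ∣ w
    · rw [if_pos hd]
      rw [hc z0 h6, if_pos hd] at hr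
      have hE : E₄ z0 ^ (w.toNat / 4) ≠ 0 := pow_ne_zero _ (ca_E4_ne_zero_of_E6_eq_zero z0 h6)
      rcases mul_eq_zero.1 hr with h | h
      · rw [h, zero_mul]
      · exact absurd h hE
    · rw [if_neg hd]

theorem ca_eval_E4_zero_aux :
    ∀ (n : ℕ) (w : ℤ), w.toNat = n → ∀ r : ModularForm 𝒮ℒ w,
      ∃ c : ℂ, ∀ z : ℍ, E₄ z = 0 → r z = if (6 : ℤ) ∣ w then c * E₆ z ^ (n / 6) else 0 := by
  intro n
  induction n using Nat.strong_induction_on with
  | _ n ih =>
    intro w hw r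
    rcases lt_trichotomy w 0 with hneg | hzero | hpos
    · refine ⟨0, fun z _ => ?_⟩
      rw [ca_neg_weight_apply hneg r z]
      simp
    · subst hzero
      obtain ⟨c, hc⟩ := levelOne_weight_zero_const r
      have hn : n = 0 := by simpa using hw.symm
      refine ⟨c, fun z _ => ?_⟩
      rw [hc, hn]
      simp
    · obtain ⟨a, b, hab⟩ := levelOne_exists_E4_E6_decomp hpos.ne' r
      rcases lt_or_ge w 6 with h | h
      · refine ⟨0, fun z hz => ?_⟩
        rw [hab z, hz, ca_neg_weight_apply (by omega) b z]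
        simp
      · obtain ⟨c, hc⟩ := ih (w - 6).toNat (by omega) (w - 6) rfl b
        refine ⟨c, fun z hz => ?_⟩
        have hdvd : (6 : ℤ) ∣ w - 6 ↔ (6 : ℤ) ∣ w := dvd_sub_self_right
        have hn6 : (w - 6).toNat / 6 + 1 = n / 6 := by omega
        rw [hab z, hz, hc z hz]
        by_cases hd : (6 : ℤ) ∣ w
        · rw [if_pos (hdvd.2 hd), if_pos hd, ← hn6, pow_succ]
          ring
        · rw [if_neg (fun h' => hd (hdvd.1 h')), if_neg hd]
          simp

/-- **C-a, zeros of `E₄`.** -/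
theorem levelOne_eval_E4_zero (z0 : ℍ) (h4 : E₄ z0 = 0) {w : ℤ} (r : ModularForm 𝒮ℒ w) :
    (¬ (6 : ℤ) ∣ w → r z0 = 0) ∧ ∀ z : ℍ, E₄ z = 0 → r z0 = 0 → r z = 0 := by
  obtain ⟨c, hc⟩ := ca_eval_E4_zero_aux w.toNat w rfl r
  refine ⟨fun hd => ?_, fun z hz hr => ?_⟩
  · rw [hc z0 h4, if_neg hd]
  · rw [hc z hz]
    by_cases hd : (6 : ℤ) ∣ w
    · rw [if_pos hd]
      rw [hc z0 h4, if_pos hd] at hr
      have hE : E₆ z0 ^ (w.toNat / 6) ≠ 0 := pow_ne_zero _ (ca_E6_ne_zero_of_E4_eq_zero z0 h4)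
      rcases mul_eq_zero.1 hr with h | h
      · rw [h, zero_mul]
      · exact absurd h hE
    · rw [if_neg hd]

end Fermat.Agent.S20
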