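/-
S20, package C (helper88): the zeros of `E₄`, `E₆` and of the pencil `E₄³ - c E₆²` (`c ≠ 0`) are
simple.  Uses helper67's bracket `2 E₄ D E₆ - 3 D E₄ E₆ ≠ 0` (`Fermat.Agent.S24.JOrder`).
-/
import Fermat.Agent.S24.JOrder

set_option autoImplicit false

open UpperHalfPlane ModularForm ModularFormClass MatrixGroups EisensteinSeries Derivative Filter
open scoped Manifold Topology

namespace Fermat.Agent.S20

theorem levelOne_simple_zero_E4 (z : ℍ) (h : E₄ z = 0) :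
    deriv (⇑E₄ ∘ UpperHalfPlane.ofComplex) z ≠ 0 := fun h0 =>
  Fermat.Agent.S24.D_E₄_ne_zero h ((Fermat.Agent.S24.D_eq_zero_iff_deriv z).mpr h0)

theorem levelOne_simple_zero_E6 (z : ℍ) (h : E₆ z = 0) :
    deriv (⇑E₆ ∘ UpperHalfPlane.ofComplex) z ≠ 0 := fun h0 =>
  Fermat.Agent.S24.D_E₆_ne_zero h ((Fermat.Agent.S24.D_eq_zero_iff_deriv z).mpr h0)

theorem levelOne_D_pencil (c : ℂ) (z : ℍ) :
    D (fun w : ℍ => E₄ w ^ 3 - c * E₆ w ^ 2) z =
      3 * E₄ z ^ 2 * D E₄ z - c * (2 * E₆ z * D E₆ z) := by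
  have h4 : MDiff (⇑E₄) := E₄.holo'
  have h6 : MDiff (⇑E₆) := E₆.holo'
  have hP : (fun w : ℍ => E₄ w ^ 3 - c * E₆ w ^ 2) = (⇑E₄) ^ 3 - c • (⇑E₆) ^ 2 := by
    funext w
    simp
  rw [hP, normalizedDerivOfComplex_sub _ _ (h4.pow 3) ((h6.pow 2).const_smul c),
    normalizedDerivOfComplex_smul _ _ (h6.pow 2),
    normalizedDerivOfComplex_pow _ _ h4, normalizedDerivOfComplex_pow _ _ h6]
  simp only [Pi.smul_apply, Pi.sub_apply, Pi.mul_apply, Pi.pow_apply, smul_eq_mul,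
    Pi.natCast_apply]
  push_cast
  ring

theorem levelOne_simple_zero_pencil (c : ℂ) (hc0 : c ≠ 0) (z : ℍ)
    (h : E₄ z ^ 3 - c * E₆ z ^ 2 = 0) :
    deriv ((fun w : ℍ => E₄ w ^ 3 - c * E₆ w ^ 2) ∘ UpperHalfPlane.ofComplex) z ≠ 0 := by
  intro h0
  have hD := (Fermat.Agent.S24.D_eq_zero_iff_deriv (F := fun w : ℍ => E₄ w ^ 3 - c * E₆ w ^ 2) z).mpr h0
  rw [levelOne_D_pencil] at hD
  have hB := Fermat.Agent.S24.bracketFun_ne_zero z
  have hΔ : ModularForm.discriminant z ≠ 0 := ModularForm.discriminant_ne_zero z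
  rw [discriminant_eq_E₄_cube_sub_E₆_sq] at hΔ
  have h6 : E₆ z ≠ 0 := by
    intro h6
    rw [h6] at h
    have h4 : E₄ z = 0 := by
      have : E₄ z ^ 3 = 0 := by simpa using h
      exact pow_eq_zero_iff (by norm_num) |>.mp this
    apply hΔ
    simp [h4, h6]
  apply hB
  unfold Fermat.Agent.S24.bracketFun
  -- E₄ · DP = -c · E₆ · B
  have key : c * E₆ z * (2 * E₄ z * D E₆ z - 3 * D E₄ z * E₆ z) = 0 := by
    have h3 : E₄ z ^ 3 = c * E₆ z ^ 2 := by linear_combination h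
    linear_combination (-(E₄ z)) * hD + 3 * D E₄ z * h3
  rcases mul_eq_zero.mp key with hk | hk
  · exact absurd hk (mul_ne_zero hc0 h6)
  · exact hk

end Fermat.Agent.S20
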