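/-
S20, package C-d (helper88): `levelOne_local` — the level-one local datum at every point of `ℍ`.
-/
import Fermat.Agent.S20.LevelOnePoly
import Fermat.Agent.S20.LevelOneSimple
import Fermat.Agent.S20.LevelOneInfty
import Fermat.Agent.S20.DivSimple

set_option autoImplicit false

open UpperHalfPlane ModularForm ModularFormClass MatrixGroups EisensteinSeries Derivative Filter
open scoped Manifold Topology

namespace Fermat.Agent.S20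

/-- A function with a nonzero limit at `i∞` is bounded below near `i∞`. -/
theorem cd_lower_bound {P : ℍ → ℂ} {a : ℂ} (ha : a ≠ 0) (h : Tendsto P atImInfty (𝓝 a)) :
    ∃ c : ℝ, 0 < c ∧ ∃ Y : ℝ, ∀ z : ℍ, Y ≤ z.im → c ≤ ‖P z‖ := by
  have hpos : 0 < ‖a‖ := norm_pos_iff.mpr ha
  have h1 : Tendsto (fun z => ‖P z‖) atImInfty (𝓝 ‖a‖) := h.norm
  have h2 : ∀ᶠ z in atImInfty, ‖a‖ / 2 < ‖P z‖ := h1.eventually (lt_mem_nhds (by linarith))
  rw [Filter.Eventually, atImInfty_mem] at h2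
  obtain ⟨Y, hY⟩ := h2
  exact ⟨‖a‖ / 2, by positivity, Y, fun z hz => (hY z hz).le⟩

theorem cd_tendsto_E4 : Tendsto E₄ atImInfty (𝓝 1) := tendsto_E_atImInfty _ ⟨2, rfl⟩

theorem cd_tendsto_E6 : Tendsto E₆ atImInfty (𝓝 1) := tendsto_E_atImInfty _ ⟨3, rfl⟩

/-- The monomial `E₄^a E₆^b` as a level-one form of weight `w = 4a + 6b`. -/
theorem cd_exists_monomial (a b : ℕ) (w : ℤ) (hw : w = 4 * a + 6 * b) :
    ∃ r : ModularForm 𝒮ℒ w, ∀ z, r z = E₄ z ^ a * E₆ z ^ b :=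
  ⟨ModularForm.mcast (by rw [hw]; ring) ((E₄.pow a).mul (E₆.pow b)), fun z => by
    simp [ModularForm.mcast_apply, ModularForm.coe_mul, ModularForm.coe_pow]⟩

/-- A normalised monomial. -/
theorem cd_exists_monomial_one (z0 : ℍ) (a b : ℕ) (w : ℤ) (hw : w = 4 * a + 6 * b)
    (h : E₄ z0 ^ a * E₆ z0 ^ b ≠ 0) : ∃ r : ModularForm 𝒮ℒ w, r z0 = 1 := by
  obtain ⟨r, hr⟩ := cd_exists_monomial a b w hw
  refine ⟨(E₄ z0 ^ a * E₆ z0 ^ b)⁻¹ • r, ?_⟩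
  have : ((E₄ z0 ^ a * E₆ z0 ^ b)⁻¹ • r) z0 = (E₄ z0 ^ a * E₆ z0 ^ b)⁻¹ * r z0 := rfl
  rw [this, hr, inv_mul_cancel₀ h]

theorem cd_discr_ne (z : ℍ) : E₄ z ^ 3 - E₆ z ^ 2 ≠ 0 := by
  have hΔ : ModularForm.discriminant z ≠ 0 := ModularForm.discriminant_ne_zero z
  rw [discriminant_eq_E₄_cube_sub_E₆_sq] at hΔ
  intro h
  apply hΔ
  rw [h]
  simp

/-- Case `E₆ z0 = 0`. -/
theorem cd_local_E6 (z0 : ℍ) (h6 : E₆ z0 = 0) :
    ∃ (L d s : ℤ) (P : ModularForm 𝒮ℒ d), 0 < L ∧ 0 ≤ s ∧ s < d ∧ L ∣ s ∧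
      (∀ (w : ℤ) (r : ModularForm 𝒮ℒ w), r z0 ≠ 0 → L ∣ w) ∧
      (∀ w : ℤ, s ≤ w → L ∣ w → ∃ r : ModularForm 𝒮ℒ w, r z0 = 1) ∧
      P z0 = 0 ∧ (∀ z : ℍ, P z = 0 → ∀ (w : ℤ) (r : ModularForm 𝒮ℒ w), r z0 = 0 → r z = 0) ∧
      (∃ c : ℝ, 0 < c ∧ ∃ Y : ℝ, ∀ z : ℍ, Y ≤ z.im → c ≤ ‖P z‖) ∧
      (∀ h : ℍ → ℂ, MDiff h → (∀ z, P z = 0 → h z = 0) →
        ∃ g : ℍ → ℂ, MDiff g ∧ ∀ z, h z = P z * g z) := by
  have h4 : E₄ z0 ≠ 0 := by
    intro h4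
    apply cd_discr_ne z0
    simp [h4, h6]
  refine ⟨4, 6, 0, E₆, by norm_num, le_refl _, by norm_num, dvd_zero _, ?_, ?_, h6, ?_, ?_, ?_⟩
  · intro w r hr
    by_contra hdiv
    exact hr ((levelOne_eval_E6_zero z0 h6 r).1 hdiv)
  · intro w hw hdiv
    obtain ⟨m, rfl⟩ := hdiv
    have hm : 0 ≤ m := by omega
    lift m to ℕ using hm
    exact cd_exists_monomial_one z0 m 0 _ (by push_cast; ring) (by simpa using pow_ne_zero m h4)
  · intro z hz w r hr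
    exact (levelOne_eval_E6_zero z0 h6 r).2 z hz hr
  · exact cd_lower_bound one_ne_zero cd_tendsto_E6
  · intro h hh hvan
    exact exists_div_of_simple_zeros (⇑E₆) h E₆.holo' hh
      (fun z hz => levelOne_simple_zero_E6 z hz) hvan

/-- Case `E₄ z0 = 0`. -/
theorem cd_local_E4 (z0 : ℍ) (h4 : E₄ z0 = 0) :
    ∃ (L d s : ℤ) (P : ModularForm 𝒮ℒ d), 0 < L ∧ 0 ≤ s ∧ s < d ∧ L ∣ s ∧
      (∀ (w : ℤ) (r : ModularForm 𝒮ℒ w), r z0 ≠ 0 → L ∣ w) ∧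
      (∀ w : ℤ, s ≤ w → L ∣ w → ∃ r : ModularForm 𝒮ℒ w, r z0 = 1) ∧
      P z0 = 0 ∧ (∀ z : ℍ, P z = 0 → ∀ (w : ℤ) (r : ModularForm 𝒮ℒ w), r z0 = 0 → r z = 0) ∧
      (∃ c : ℝ, 0 < c ∧ ∃ Y : ℝ, ∀ z : ℍ, Y ≤ z.im → c ≤ ‖P z‖) ∧
      (∀ h : ℍ → ℂ, MDiff h → (∀ z, P z = 0 → h z = 0) →
        ∃ g : ℍ → ℂ, MDiff g ∧ ∀ z, h z = P z * g z) := by
  have h6 : E₆ z0 ≠ 0 := by
    intro h6
    apply cd_discr_ne z0
    simp [h4, h6]
  refine ⟨6, 4, 0, E₄, by norm_num, le_refl _, by norm_num, dvd_zero _, ?_, ?_, h4, ?_, ?_, ?_⟩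
  · intro w r hr
    by_contra hdiv
    exact hr ((levelOne_eval_E4_zero z0 h4 r).1 hdiv)
  · intro w hw hdiv
    obtain ⟨m, rfl⟩ := hdiv
    have hm : 0 ≤ m := by omega
    lift m to ℕ using hm
    exact cd_exists_monomial_one z0 0 m _ (by push_cast; ring) (by simpa using pow_ne_zero m h6)
  · intro z hz w r hr
    exact (levelOne_eval_E4_zero z0 h4 r).2 z hz hr
  · exact cd_lower_bound one_ne_zero cd_tendsto_E4
  · intro h hh hvan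
    exact exists_div_of_simple_zeros (⇑E₄) h E₄.holo' hh
      (fun z hz => levelOne_simple_zero_E4 z hz) hvan

/-- The pencil `E₄³ - c E₆²` as a level-one form of weight `12`. -/
theorem cd_exists_pencil (c : ℂ) :
    ∃ P : ModularForm 𝒮ℒ 12, ∀ z, P z = E₄ z ^ 3 - c * E₆ z ^ 2 := by
  obtain ⟨A, hA⟩ := cd_exists_monomial 3 0 12 (by norm_num)
  obtain ⟨B, hB⟩ := cd_exists_monomial 0 2 12 (by norm_num)
  refine ⟨A - c • B, fun z => ?_⟩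
  have : (A - c • B) z = A z - c * B z := rfl
  rw [this, hA, hB]
  simp

/-- Generic case. -/
theorem cd_local_generic (z0 : ℍ) (h4 : E₄ z0 ≠ 0) (h6 : E₆ z0 ≠ 0) :
    ∃ (L d s : ℤ) (P : ModularForm 𝒮ℒ d), 0 < L ∧ 0 ≤ s ∧ s < d ∧ L ∣ s ∧
      (∀ (w : ℤ) (r : ModularForm 𝒮ℒ w), r z0 ≠ 0 → L ∣ w) ∧
      (∀ w : ℤ, s ≤ w → L ∣ w → ∃ r : ModularForm 𝒮ℒ w, r z0 = 1) ∧
      P z0 = 0 ∧ (∀ z : ℍ, P z = 0 → ∀ (w : ℤ) (r : ModularForm 𝒮ℒ w), r z0 = 0 → r z = 0) ∧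
      (∃ c : ℝ, 0 < c ∧ ∃ Y : ℝ, ∀ z : ℍ, Y ≤ z.im → c ≤ ‖P z‖) ∧
      (∀ h : ℍ → ℂ, MDiff h → (∀ z, P z = 0 → h z = 0) →
        ∃ g : ℍ → ℂ, MDiff g ∧ ∀ z, h z = P z * g z) := by
  set c : ℂ := E₄ z0 ^ 3 / E₆ z0 ^ 2 with hc
  have h62 : E₆ z0 ^ 2 ≠ 0 := pow_ne_zero 2 h6
  have hc0 : c ≠ 0 := div_ne_zero (pow_ne_zero 3 h4) h62
  have hc1 : c ≠ 1 := by
    intro h1
    apply cd_discr_ne z0
    have : E₄ z0 ^ 3 = E₆ z0 ^ 2 := by
      have := (div_eq_one_iff_eq h62).mp (hc ▸ h1)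
      exact this
    rw [this]
    ring
  obtain ⟨P, hP⟩ := cd_exists_pencil c
  have hPfun : (⇑P : ℍ → ℂ) = fun w : ℍ => E₄ w ^ 3 - c * E₆ w ^ 2 := funext hP
  refine ⟨2, 12, 4, P, by norm_num, by norm_num, by norm_num, ⟨2, by norm_num⟩, ?_, ?_, ?_, ?_,
    ?_, ?_⟩
  · intro w r hr
    by_contra hdiv
    have hodd : Odd w := by
      rcases Int.even_or_odd w with he | ho
      · exact absurd (even_iff_two_dvd.mp he) hdiv
      · exact ho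
    apply hr
    rw [ModularForm.levelOne_odd_weight_eq_zero hodd r]
    rfl
  · intro w hw hdiv
    obtain ⟨m, rfl⟩ := hdiv
    have hm : 2 ≤ m := by omega
    rcases Int.even_or_odd m with he | ho
    · obtain ⟨j, hj⟩ := he
      have hj0 : 0 ≤ j := by omega
      lift j to ℕ using hj0
      exact cd_exists_monomial_one z0 j 0 _ (by push_cast; omega) (by simpa using pow_ne_zero j h4)
    · obtain ⟨j, hj⟩ := ho
      have hj0 : 1 ≤ j := by omega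
      obtain ⟨i, rfl⟩ : ∃ i : ℤ, j = i + 1 := ⟨j - 1, by ring⟩
      have hi0 : 0 ≤ i := by omega
      lift i to ℕ using hi0
      exact cd_exists_monomial_one z0 i 1 _ (by push_cast; omega)
        (mul_ne_zero (pow_ne_zero i h4) (by simpa using h6))
  · rw [hP, hc]
    field_simp
    ring
  · intro z hz w r hr
    rw [hP] at hz
    -- `E₄ z, E₆ z ≠ 0`
    have hz6 : E₆ z ≠ 0 := by
      intro h6z
      rw [h6z] at hz
      have h4z : E₄ z = 0 := by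
        have : E₄ z ^ 3 = 0 := by simpa using hz
        exact pow_eq_zero_iff (by norm_num) |>.mp this
      apply cd_discr_ne z
      simp [h4z, h6z]
    have hz4 : E₄ z ≠ 0 := by
      intro h4z
      rw [h4z] at hz
      have : c * E₆ z ^ 2 = 0 := by
        have h0 : (0 : ℂ) ^ 3 - c * E₆ z ^ 2 = 0 := hz
        simpa using h0
      rcases mul_eq_zero.mp this with h | h
      · exact hc0 h
      · exact hz6 (pow_eq_zero_iff (by norm_num) |>.mp h)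
    set u : ℂ := E₄ z / E₄ z0 with hu
    set v : ℂ := E₆ z / E₆ z0 with hv
    have hu0 : u ≠ 0 := div_ne_zero hz4 h4
    have huv : u ^ 3 = v ^ 2 := by
      rw [hu, hv, div_pow, div_pow, div_eq_div_iff (pow_ne_zero 3 h4) h62]
      have h3 : E₄ z ^ 3 = c * E₆ z ^ 2 := by linear_combination hz
      rw [h3, hc]
      field_simp
    obtain ⟨t, ht⟩ : ∃ t : ℂ, t ^ 2 = v / u := IsAlgClosed.exists_pow_nat_eq _ (by norm_num)
    have hmu2 : (v / u) ^ 2 = u := by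
      rw [div_pow, ← huv]
      field_simp
    have hmu3 : (v / u) ^ 3 = v := by
      rw [div_pow, huv]
      have hv0 : v ≠ 0 := div_ne_zero hz6 h6
      field_simp
    have ht4 : t ^ 4 = u := by
      have : t ^ 4 = (t ^ 2) ^ 2 := by ring
      rw [this, ht, hmu2]
    have ht6 : t ^ 6 = v := by
      have : t ^ 6 = (t ^ 2) ^ 3 := by ring
      rw [this, ht, hmu3]
    have e4 : E₄ z = t ^ 4 * E₄ z0 := by
      rw [ht4, hu]
      field_simp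
    have e6 : E₆ z = t ^ 6 * E₆ z0 := by
      rw [ht6, hv]
      field_simp
    rw [levelOne_eval_scale z0 z t e4 e6 r, hr, mul_zero]
  · have hlim : Tendsto (⇑P) atImInfty (𝓝 (1 ^ 3 - c * 1 ^ 2)) := by
      rw [hPfun]
      exact (cd_tendsto_E4.pow 3).sub ((cd_tendsto_E6.pow 2).const_mul c)
    refine cd_lower_bound ?_ hlim
    intro h
    apply hc1
    have : (1 : ℂ) - c = 0 := by simpa using h
    linear_combination -this
  · intro h hh hvan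
    refine exists_div_of_simple_zeros (⇑P) h P.holo' hh (fun z hz => ?_) hvan
    rw [hPfun]
    apply levelOne_simple_zero_pencil c hc0 z
    rw [← hP]
    exact hz

/-- **Package C, `levelOne_local`.** -/
theorem levelOne_local (z0 : ℍ) :
    ∃ (L d s : ℤ) (P : ModularForm 𝒮ℒ d), 0 < L ∧ 0 ≤ s ∧ s < d ∧ L ∣ s ∧
      (∀ (w : ℤ) (r : ModularForm 𝒮ℒ w), r z0 ≠ 0 → L ∣ w) ∧
      (∀ w : ℤ, s ≤ w → L ∣ w → ∃ r : ModularForm 𝒮ℒ w, r z0 = 1) ∧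
      P z0 = 0 ∧ (∀ z : ℍ, P z = 0 → ∀ (w : ℤ) (r : ModularForm 𝒮ℒ w), r z0 = 0 → r z = 0) ∧
      (∃ c : ℝ, 0 < c ∧ ∃ Y : ℝ, ∀ z : ℍ, Y ≤ z.im → c ≤ ‖P z‖) ∧
      (∀ h : ℍ → ℂ, MDiff h → (∀ z, P z = 0 → h z = 0) →
        ∃ g : ℍ → ℂ, MDiff g ∧ ∀ z, h z = P z * g z) := by
  by_cases h6 : E₆ z0 = 0
  · exact cd_local_E6 z0 h6
  by_cases h4 : E₄ z0 = 0
  · exact cd_local_E4 z0 h4
  exact cd_local_generic z0 h4 h6

end Fermat.Agent.S20
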