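/-
S20, package S-ISO: for a frame `Φ` which is good on `ℍ` and such that `Δ · A⁻¹` vanishes at `i∞`,
`S_l(Γ0(N)) ≃ Π_i S_{l + k_i}(SL2(ℤ))`, `g ↦ (Tr (f_i g))_i`, hence the dimension formula
`finrank_S`.
-/
import Fermat.Agent.S20.MIso

set_option autoImplicit false
set_option linter.unusedSectionVars false

open CongruenceSubgroup UpperHalfPlane ModularForm SlashInvariantForm
open scoped MatrixGroups Manifold

noncomputable section

namespace Fermat.Agent.S20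

variable {N : ℕ} [NeZero N]

/-- Reindexing a sum over `Q N` by the action of an element of `𝒮ℒ`. -/
lemma siso_sum_smul (h : 𝒮ℒ) (φ : Q N → ℂ) : ∑ q, φ (h • q) = ∑ q, φ q :=
  Equiv.sum_comp (MulAction.toPerm h) φ

/-- Transformation law of the inverse of the frame matrix under `SL(2,ℤ)`. -/
lemma Frame.inv_A_smul (Φ : Frame N) (hH : Φ.GoodOnH) (γ : SL(2, ℤ)) (z : ℍ) (q i : Q N) :
    (Φ.A (γ • z))⁻¹ q i = (denom γ z) ^ (-(Φ.wt i)) * (Φ.A z)⁻¹ ((toSL γ)⁻¹ • q) i := by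
  have hd : denom γ z ≠ 0 := denom_ne_zero _ z
  have key : Φ.A (γ • z) * (Matrix.of fun q i =>
      (denom γ z) ^ (-(Φ.wt i)) * (Φ.A z)⁻¹ ((toSL γ)⁻¹ • q) i) = 1 := by
    ext i j
    rw [Matrix.mul_apply]
    simp only [Matrix.of_apply, Frame.A_smul]
    have h1 : ∑ q, (denom γ z) ^ (Φ.wt i) * Φ.A z i ((toSL γ)⁻¹ • q) *
          ((denom γ z) ^ (-(Φ.wt j)) * (Φ.A z)⁻¹ ((toSL γ)⁻¹ • q) j)
        = (denom γ z) ^ (Φ.wt i) * (denom γ z) ^ (-(Φ.wt j)) *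
          ∑ q, Φ.A z i q * (Φ.A z)⁻¹ q j := by
      rw [← siso_sum_smul (toSL γ)⁻¹ (fun q => Φ.A z i q * (Φ.A z)⁻¹ q j), Finset.mul_sum]
      refine Finset.sum_congr rfl fun q _ => ?_
      ring
    rw [h1, ← Matrix.mul_apply, Matrix.mul_nonsing_inv _ (Φ.isUnit_det hH z)]
    by_cases h : i = j
    · subst h
      rw [Matrix.one_apply_eq, mul_one, ← zpow_add₀ hd, add_neg_cancel, zpow_zero]
    · rw [Matrix.one_apply_ne h, mul_zero]
  rw [Matrix.inv_eq_right_inv key]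
  rfl

/-- The trace functions `λ_i = ∑_q (f_i)_q g_q` of a cusp form `g` against a frame. -/
def Frame.sTr (Φ : Frame N) {l : ℤ} (g : CuspForm (G0 N) l) (i : Q N) : ℍ → ℂ :=
  fun z => ∑ q, Φ.A z i q * cj (ofCusp g) q z

lemma Frame.sTr_apply (Φ : Frame N) {l : ℤ} (g : CuspForm (G0 N) l) (i : Q N) (z : ℍ) :
    Φ.sTr g i z = ∑ q, Φ.A z i q * cj (ofCusp g) q z := rfl

lemma Frame.sTr_eq_sum (Φ : Frame N) {l : ℤ} (g : CuspForm (G0 N) l) (i : Q N) :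
    Φ.sTr g i = ∑ q, (fun z => Φ.A z i q) * cj (ofCusp g) q := by
  funext z
  rw [Finset.sum_apply]
  rfl

lemma Frame.sTr_mdiff (Φ : Frame N) {l : ℤ} (g : CuspForm (G0 N) l) (i : Q N) :
    MDiff (Φ.sTr g i) := by
  rw [Φ.sTr_eq_sum]
  exact MDifferentiable.sum fun q _ =>
    MDifferentiable.mul (Φ.mdiff_A i q) (cj_mdiff (ofCusp g) q)

lemma siso_zero_sum {ι : Type} (s : Finset ι) (φ : ι → ℍ → ℂ)
    (h : ∀ j ∈ s, IsZeroAtImInfty (φ j)) : IsZeroAtImInfty (∑ j ∈ s, φ j) := by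
  classical
  induction s using Finset.induction_on with
  | empty =>
    rw [Finset.sum_empty]
    exact Filter.zero_zeroAtFilter _
  | insert a s ha ih =>
    rw [Finset.sum_insert ha]
    exact Filter.ZeroAtFilter.add (h a (Finset.mem_insert_self a s))
      (ih fun j hj => h j (Finset.mem_insert_of_mem hj))

lemma Frame.sTr_zero (Φ : Frame N) {l : ℤ} (g : CuspForm (G0 N) l) (i : Q N) :
    IsZeroAtImInfty (Φ.sTr g i) := by
  rw [Φ.sTr_eq_sum]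
  refine siso_zero_sum _ _ fun q _ => ?_
  exact Filter.BoundedAtFilter.mul_zeroAtFilter (cj_bdd (Φ.f i) q) (cj_ofCusp_zero g q)

lemma Frame.sTr_smul (Φ : Frame N) {l : ℤ} (g : CuspForm (G0 N) l) (i : Q N)
    (γ : SL(2, ℤ)) (z : ℍ) :
    Φ.sTr g i (γ • z) = (denom γ z) ^ (l + Φ.wt i) * Φ.sTr g i z := by
  have hd : denom γ z ≠ 0 := denom_ne_zero _ z
  rw [Φ.sTr_apply, Φ.sTr_apply,
    ← siso_sum_smul (toSL γ)⁻¹ (fun q => Φ.A z i q * cj (ofCusp g) q z), Finset.mul_sum]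
  refine Finset.sum_congr rfl fun q _ => ?_
  rw [Frame.A_smul, cj_smul_apply, zpow_add₀ hd]
  ring

lemma Frame.sTr_slash (Φ : Frame N) {l : ℤ} (g : CuspForm (G0 N) l) (i : Q N)
    (γ : SL(2, ℤ)) : Φ.sTr g i ∣[l + Φ.wt i] γ = Φ.sTr g i := by
  funext z
  have hd : denom γ z ≠ 0 := denom_ne_zero _ z
  rw [SL_slash_apply, Φ.sTr_smul g i γ z, mul_comm, ← mul_assoc, ← zpow_add₀ hd]
  simp

/-- The traces as level-one cusp forms. -/
def Frame.sTrForm (Φ : Frame N) {l : ℤ} (g : CuspForm (G0 N) l) (i : Q N) :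
    CuspForm 𝒮ℒ (l + Φ.wt i) where
  toFun := Φ.sTr g i
  slash_action_eq' γ hγ := by
    obtain ⟨δ, rfl⟩ := hγ
    exact Φ.sTr_slash g i δ
  holo' := Φ.sTr_mdiff g i
  zero_at_cusps' {c} hc := by
    rw [OnePoint.isZeroAt_iff_forall_SL2Z hc]
    intro γ _
    show IsZeroAtImInfty (Φ.sTr g i ∣[l + Φ.wt i] γ)
    rw [Φ.sTr_slash g i γ]
    exact Φ.sTr_zero g i

@[simp] lemma Frame.sTrForm_apply (Φ : Frame N) {l : ℤ} (g : CuspForm (G0 N) l) (i : Q N)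
    (z : ℍ) : Φ.sTrForm g i z = Φ.sTr g i z := rfl

/-- The candidate conjugates `g_q = ∑_i (A⁻¹)_{q,i} λ_i` of the preimage of `(λ_i)`. -/
def Frame.sLift (Φ : Frame N) {l : ℤ} (lam : (i : Q N) → CuspForm 𝒮ℒ (l + Φ.wt i)) (q : Q N) :
    ℍ → ℂ :=
  fun z => ∑ i, (Φ.A z)⁻¹ q i * lam i z

lemma Frame.sLift_apply (Φ : Frame N) {l : ℤ} (lam : (i : Q N) → CuspForm 𝒮ℒ (l + Φ.wt i))
    (q : Q N) (z : ℍ) : Φ.sLift lam q z = ∑ i, (Φ.A z)⁻¹ q i * lam i z := rfl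

lemma Frame.sLift_mdiff (Φ : Frame N) (hH : Φ.GoodOnH) {l : ℤ}
    (lam : (i : Q N) → CuspForm 𝒮ℒ (l + Φ.wt i)) (q : Q N) : MDiff (Φ.sLift lam q) := by
  have : Φ.sLift lam q = ∑ i, (fun z => (Φ.A z)⁻¹ q i) * ⇑(lam i) := by
    funext z
    rw [Finset.sum_apply]
    rfl
  rw [this]
  exact MDifferentiable.sum fun i _ =>
    MDifferentiable.mul (Φ.mdiff_inv hH q i) (CuspFormClass.holo (lam i))

lemma Frame.sLift_smul (Φ : Frame N) (hH : Φ.GoodOnH) {l : ℤ}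
    (lam : (i : Q N) → CuspForm 𝒮ℒ (l + Φ.wt i)) (q : Q N) (γ : SL(2, ℤ)) (z : ℍ) :
    Φ.sLift lam q (γ • z) = (denom γ z) ^ l * Φ.sLift lam ((toSL γ)⁻¹ • q) z := by
  have hd : denom γ z ≠ 0 := denom_ne_zero _ z
  rw [Φ.sLift_apply, Φ.sLift_apply, Finset.mul_sum]
  refine Finset.sum_congr rfl fun i _ => ?_
  have h1 : lam i (γ • z) = (denom γ z) ^ (l + Φ.wt i) * lam i z := by
    have h : (⇑(lam i) ∣[l + Φ.wt i] γ) z = lam i z :=
      congrFun (SlashInvariantForm.slash_action_eqn (lam i) _ ⟨γ, rfl⟩) z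
    rw [SL_slash_apply] at h
    rw [← h, mul_comm (lam i (γ • z)), ← mul_assoc, ← zpow_add₀ hd]
    simp
  rw [Φ.inv_A_smul hH, h1, zpow_add₀ hd, zpow_neg]
  field_simp

lemma Frame.sLift_slash (Φ : Frame N) (hH : Φ.GoodOnH) {l : ℤ}
    (lam : (i : Q N) → CuspForm 𝒮ℒ (l + Φ.wt i)) (q : Q N) (γ : SL(2, ℤ)) :
    Φ.sLift lam q ∣[l] γ = Φ.sLift lam ((toSL γ)⁻¹ • q) := by
  funext z
  have hd : denom γ z ≠ 0 := denom_ne_zero _ z
  rw [SL_slash_apply, Φ.sLift_smul hH lam q γ z, mul_comm, ← mul_assoc, ← zpow_add₀ hd]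
  simp

lemma Frame.sLift_zero (Φ : Frame N)
    (hZ : ∀ q i : Q N, IsZeroAtImInfty (fun z => ModularForm.discriminant z * (Φ.A z)⁻¹ q i))
    {l : ℤ} (lam : (i : Q N) → CuspForm 𝒮ℒ (l + Φ.wt i)) (q : Q N) :
    IsZeroAtImInfty (Φ.sLift lam q) := by
  have : Φ.sLift lam q = ∑ i, (fun z => ModularForm.discriminant z * (Φ.A z)⁻¹ q i) *
      ⇑(CuspForm.discriminantEquiv (lam i)) := by
    funext z
    rw [Finset.sum_apply, Φ.sLift_apply]
    refine Finset.sum_congr rfl fun i _ => ?_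
    rw [Pi.mul_apply, ← ModularForm.discriminant_mul_discriminantEquiv_apply (lam i) z]
    ring
  rw [this]
  refine siso_zero_sum _ _ fun i _ => ?_
  exact Filter.ZeroAtFilter.mul_boundedAtFilter (hZ q i)
    (ModularFormClass.bdd_at_infty (CuspForm.discriminantEquiv (lam i)))

lemma siso_smul_q0 (γ : SL(2, ℤ)) (hγ : γ ∈ Gamma0 N) : (toSL γ)⁻¹ • q0 N = q0 N := by
  rw [← mkQ_one, ← toSL_inv, smul_mkQ, mul_one, mkQ_eq_iff, inv_inv]
  simpa using hγ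

/-- The preimage of `(λ_i)`, as a cusp form on `Γ0(N)`. -/
def Frame.sLiftForm (Φ : Frame N) (hH : Φ.GoodOnH)
    (hZ : ∀ q i : Q N, IsZeroAtImInfty (fun z => ModularForm.discriminant z * (Φ.A z)⁻¹ q i))
    {l : ℤ} (lam : (i : Q N) → CuspForm 𝒮ℒ (l + Φ.wt i)) : CuspForm (G0 N) l where
  toFun := Φ.sLift lam (q0 N)
  slash_action_eq' γ hγ := by
    obtain ⟨δ, hδ, rfl⟩ := hγ
    show Φ.sLift lam (q0 N) ∣[l] δ = Φ.sLift lam (q0 N)
    rw [Φ.sLift_slash hH lam (q0 N) δ, siso_smul_q0 δ hδ]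
  holo' := Φ.sLift_mdiff hH lam (q0 N)
  zero_at_cusps' {c} hc := by
    rw [Subgroup.IsArithmetic.isCusp_iff_isCusp_SL2Z] at hc
    rw [OnePoint.isZeroAt_iff_forall_SL2Z hc]
    intro γ _
    show IsZeroAtImInfty (Φ.sLift lam (q0 N) ∣[l] γ)
    rw [Φ.sLift_slash hH lam (q0 N) γ]
    exact Φ.sLift_zero hZ lam _

@[simp] lemma Frame.sLiftForm_apply (Φ : Frame N) (hH : Φ.GoodOnH)
    (hZ : ∀ q i : Q N, IsZeroAtImInfty (fun z => ModularForm.discriminant z * (Φ.A z)⁻¹ q i))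
    {l : ℤ} (lam : (i : Q N) → CuspForm 𝒮ℒ (l + Φ.wt i)) (z : ℍ) :
    Φ.sLiftForm hH hZ lam z = Φ.sLift lam (q0 N) z := rfl

/-- The conjugates of the preimage are the `sLift`s. -/
lemma Frame.cj_sLiftForm (Φ : Frame N) (hH : Φ.GoodOnH)
    (hZ : ∀ q i : Q N, IsZeroAtImInfty (fun z => ModularForm.discriminant z * (Φ.A z)⁻¹ q i))
    {l : ℤ} (lam : (i : Q N) → CuspForm 𝒮ℒ (l + Φ.wt i)) (q : Q N) :
    cj (ofCusp (Φ.sLiftForm hH hZ lam)) q = Φ.sLift lam q := by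
  obtain ⟨γ, rfl⟩ := mkQ_surjective q
  rw [cj_mkQ]
  have : (⇑(ofCusp (Φ.sLiftForm hH hZ lam)) : ℍ → ℂ) = Φ.sLift lam (q0 N) := rfl
  rw [this, Φ.sLift_slash hH lam (q0 N) γ⁻¹, toSL_inv, inv_inv, ← mkQ_one, smul_mkQ, mul_one]

/-- The linear equivalence `S_l(Γ0(N)) ≃ Π_i S_{l+k_i}(SL2(ℤ))` attached to a good frame. -/
def Frame.sEquiv (Φ : Frame N) (hH : Φ.GoodOnH)
    (hZ : ∀ q i : Q N, IsZeroAtImInfty (fun z => ModularForm.discriminant z * (Φ.A z)⁻¹ q i))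
    (l : ℤ) : CuspForm (G0 N) l ≃ₗ[ℂ] ((i : Q N) → CuspForm 𝒮ℒ (l + Φ.wt i)) where
  toFun g i := Φ.sTrForm g i
  map_add' g h := by
    funext i
    ext z
    have e : ofCusp (g + h) = ofCusp g + ofCusp h := rfl
    simp only [Frame.sTrForm_apply, Pi.add_apply, FunLike.coe_add, Frame.sTr_apply, e, cj_add,
      mul_add, Finset.sum_add_distrib]
  map_smul' c g := by
    funext i
    ext z
    have e : ofCusp (c • g) = c • ofCusp g := rfl
    simp only [Frame.sTrForm_apply, Pi.smul_apply, FunLike.coe_smul, Frame.sTr_apply, e, cj_smul,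
      smul_eq_mul, RingHom.id_apply, Finset.mul_sum]
    refine Finset.sum_congr rfl fun q _ => ?_
    ring
  invFun lam := Φ.sLiftForm hH hZ lam
  left_inv g := by
    ext z
    rw [Frame.sLiftForm_apply, Frame.sLift_apply]
    simp only [Frame.sTrForm_apply, Frame.sTr_apply]
    have h1 : ∑ i, (Φ.A z)⁻¹ (q0 N) i * ∑ q, Φ.A z i q * cj (ofCusp g) q z
        = ∑ q, ((Φ.A z)⁻¹ * Φ.A z) (q0 N) q * cj (ofCusp g) q z := by
      simp only [Finset.mul_sum, Matrix.mul_apply, Finset.sum_mul]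
      rw [Finset.sum_comm]
      refine Finset.sum_congr rfl fun q _ => Finset.sum_congr rfl fun i _ => ?_
      ring
    rw [h1, Matrix.nonsing_inv_mul _ (Φ.isUnit_det hH z)]
    simp [Matrix.one_apply]
  right_inv lam := by
    funext i
    ext z
    rw [Frame.sTrForm_apply, Frame.sTr_apply]
    simp only [Φ.cj_sLiftForm hH hZ lam, Frame.sLift_apply]
    have h1 : ∑ q, Φ.A z i q * ∑ j, (Φ.A z)⁻¹ q j * lam j z
        = ∑ j, (Φ.A z * (Φ.A z)⁻¹) i j * lam j z := by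
      simp only [Finset.mul_sum, Matrix.mul_apply, Finset.sum_mul]
      rw [Finset.sum_comm]
      refine Finset.sum_congr rfl fun q _ => Finset.sum_congr rfl fun i _ => ?_
      ring
    rw [h1, Matrix.mul_nonsing_inv _ (Φ.isUnit_det hH z)]
    simp [Matrix.one_apply]

/-- **S20 package S-ISO.** -/
theorem finrank_S (Φ : Frame N) (hH : Φ.GoodOnH)
    (hZ : ∀ q i : Q N, IsZeroAtImInfty (fun z => ModularForm.discriminant z * (Φ.A z)⁻¹ q i))
    (l : ℤ) :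
    Module.finrank ℂ (CuspForm (G0 N) l) = ∑ i, Module.finrank ℂ (CuspForm 𝒮ℒ (l + Φ.wt i)) := by
  have : ∀ k : ℤ, Module.Finite ℂ (CuspForm 𝒮ℒ k) := fun k =>
    Module.Finite.equiv (CuspForm.discriminantEquiv (k := k)).symm
  rw [(Φ.sEquiv hH hZ l).finrank_eq, Module.finrank_pi_fintype]

end Fermat.Agent.S20
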