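/-
S20 helper file (helper83): Cauchy estimates at `i∞` for the normalised derivative `D`.
* `norm_deriv_comp_ofComplex_le`: Cauchy estimate on the upper half plane;
* `isBoundedAtImInfty_normalizedDeriv`: `D F` is bounded at `i∞` if `F` is;
* `tendsto_normalizedDeriv_atImInfty`: `D F → 0` at `i∞` if `F` has a limit there;
* `serreDerivMF`: the Serre derivative of a level-one modular form as a modular form.
-/
import Mathlib

set_option autoImplicit false

open UpperHalfPlane ModularForm EisensteinSeries Derivative Filter Topology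
open scoped MatrixGroups Manifold Real

namespace Fermat.Agent.S20

/-- Cauchy estimate on the upper half plane: if `F - L` is bounded by `M` on `{im ≥ A}` then the
derivative of `F` is bounded by `M` on `{im ≥ A + 1}`. -/
theorem norm_deriv_comp_ofComplex_le {F : ℍ → ℂ} (hF : MDiff F) {A M : ℝ} (hA : 0 < A) (L : ℂ)
    (hb : ∀ z : ℍ, A ≤ z.im → ‖F z - L‖ ≤ M) (z : ℍ) (hz : A + 1 ≤ z.im) :
    ‖deriv (F ∘ ofComplex) z‖ ≤ M := by
  have hFd : DifferentiableOn ℂ (F ∘ ofComplex) {w : ℂ | 0 < w.im} :=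
    UpperHalfPlane.mdifferentiable_iff.mp hF
  have him : ∀ w ∈ Metric.closedBall (z : ℂ) 1, A ≤ w.im := by
    intro w hw
    have h1 : |(w - (z : ℂ)).im| ≤ ‖w - (z : ℂ)‖ := Complex.abs_im_le_norm _
    have h2 : ‖w - (z : ℂ)‖ ≤ 1 := by simpa [dist_eq_norm] using hw
    have h3 := abs_le.mp (h1.trans h2)
    have h4 : (w - (z : ℂ)).im = w.im - z.im := by simp
    rw [h4] at h3
    linarith [h3.1]
  have hsub : Metric.closedBall (z : ℂ) 1 ⊆ {w : ℂ | 0 < w.im} := fun w hw => by
    have := him w hw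
    simp only [Set.mem_ofPred_eq]
    linarith
  set f : ℂ → ℂ := fun w => (F ∘ ofComplex) w - L with hf
  have hfd : DifferentiableOn ℂ f (Metric.closedBall (z : ℂ) 1) :=
    (hFd.mono hsub).sub (differentiableOn_const _)
  have hderiv : deriv f z = deriv (F ∘ ofComplex) z := by
    rw [hf]
    exact deriv_sub_const (f := F ∘ ofComplex) (x := (z : ℂ)) L
  have key := Complex.norm_deriv_le_of_forall_mem_sphere_norm_le (c := (z : ℂ)) (R := 1) (C := M)
    (f := f) one_pos (hfd.diffContOnCl_ball Set.Subset.rfl) (fun w hw => by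
      have hw' : w ∈ Metric.closedBall (z : ℂ) 1 := Metric.sphere_subset_closedBall hw
      have hwim : 0 < w.im := hsub hw'
      have := hb ⟨w, hwim⟩ (him w hw')
      simpa [hf, Function.comp_apply, ofComplex_apply_of_im_pos hwim] using this)
  rw [hderiv] at key
  simpa using key

/-- `D F` is bounded at `i∞` if `F` is. -/
theorem isBoundedAtImInfty_normalizedDeriv {F : ℍ → ℂ} (hF : MDiff F)
    (hb : IsBoundedAtImInfty F) : IsBoundedAtImInfty (D F) := by
  rw [isBoundedAtImInfty_iff] at hb ⊢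
  obtain ⟨M, A, h⟩ := hb
  refine ⟨‖(2 * π * Complex.I)⁻¹‖ * M, max A 1 + 1, fun z hz => ?_⟩
  have hA : 0 < max A 1 := lt_of_lt_of_le one_pos (le_max_right _ _)
  have := norm_deriv_comp_ofComplex_le hF hA 0
    (fun w hw => by simpa using h w ((le_max_left _ _).trans hw)) z hz
  simp only [normalizedDerivOfComplex, norm_mul]
  exact mul_le_mul_of_nonneg_left this (norm_nonneg _)

/-- `D F` tends to `0` at `i∞` if `F` has a limit there. -/
theorem tendsto_normalizedDeriv_atImInfty {F : ℍ → ℂ} (hF : MDiff F) {L : ℂ}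
    (hL : Tendsto F atImInfty (𝓝 L)) : Tendsto (D F) atImInfty (𝓝 0) := by
  rw [Metric.tendsto_nhds] at hL ⊢
  intro ε hε
  have h2π : 0 < ‖(2 * π * Complex.I)⁻¹‖ := by
    rw [norm_pos_iff]
    exact inv_ne_zero (by simp [Real.pi_ne_zero])
  set δ : ℝ := ε / (2 * ‖(2 * π * Complex.I)⁻¹‖) with hδ
  have hδpos : 0 < δ := by positivity
  have hev := hL δ hδpos
  rw [Filter.Eventually, atImInfty_mem] at hev
  obtain ⟨A, hA⟩ := hev
  rw [Filter.Eventually, atImInfty_mem]
  refine ⟨max A 1 + 1, fun z hz => ?_⟩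
  have hA' : 0 < max A 1 := lt_of_lt_of_le one_pos (le_max_right _ _)
  have := norm_deriv_comp_ofComplex_le hF hA' L
    (fun w hw => by
      have := hA w ((le_max_left _ _).trans hw)
      simp only [Set.mem_ofPred_eq, dist_eq_norm] at this
      exact this.le) z hz
  simp only [Set.mem_ofPred_eq, dist_zero_right, normalizedDerivOfComplex, norm_mul]
  calc ‖(2 * π * Complex.I)⁻¹‖ * ‖deriv (F ∘ ofComplex) z‖
      ≤ ‖(2 * π * Complex.I)⁻¹‖ * δ := mul_le_mul_of_nonneg_left this (norm_nonneg _)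
    _ = ε / 2 := by rw [hδ]; field_simp
    _ < ε := by linarith

theorem levelOne_SL_slash_eq {k : ℤ} (f : ModularForm 𝒮ℒ k) (γ : SL(2, ℤ)) : (⇑f) ∣[k] γ = ⇑f :=
  SlashInvariantForm.slash_action_eqn f _ ⟨γ, rfl⟩

theorem isBoundedAtImInfty_serreDerivative {k : ℤ} (f : ModularForm 𝒮ℒ k) :
    IsBoundedAtImInfty (serreDerivative k ⇑f) := by
  have hf : IsBoundedAtImInfty (⇑f) := ModularFormClass.bdd_at_infty f
  have hD := isBoundedAtImInfty_normalizedDeriv f.holo' hf
  have hE := isBoundedAtImInfty_E2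
  have hc : IsBoundedAtImInfty (fun _ : ℍ => (k : ℂ) * 12⁻¹) := Filter.const_boundedAtFilter _ _
  have h2 : IsBoundedAtImInfty (fun z => (k : ℂ) * 12⁻¹ * E2 z * f z) := (hc.mul hE).mul hf
  exact hD.sub h2

/-- The Serre derivative of a level-one modular form, as a modular form of weight `k + 2`. -/
noncomputable def serreDerivMF {k : ℤ} (f : ModularForm 𝒮ℒ k) : ModularForm 𝒮ℒ (k + 2) where
  toFun := serreDerivative k f
  slash_action_eq' := by
    rintro _ ⟨γ, rfl⟩
    exact serreDerivative_slash_invariant f.holo' (levelOne_SL_slash_eq f γ)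
  holo' := serreDerivative_mdifferentiable k f.holo'
  bdd_at_cusps' {c} hc := by
    rw [OnePoint.isBoundedAt_iff_forall_SL2Z hc]
    intro γ _
    have h : (serreDerivative k ⇑f) ∣[k + 2] γ = serreDerivative k ⇑f :=
      serreDerivative_slash_invariant f.holo' (levelOne_SL_slash_eq f γ)
    show IsBoundedAtImInfty ((serreDerivative k ⇑f) ∣[k + 2] γ)
    rw [h]
    exact isBoundedAtImInfty_serreDerivative f

@[simp] theorem serreDerivMF_apply {k : ℤ} (f : ModularForm 𝒮ℒ k) (z : ℍ) :
    serreDerivMF f z = D (⇑f) z - (k : ℂ) * 12⁻¹ * E2 z * f z := rfl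

end Fermat.Agent.S20
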