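/-
S20: final assembly, stated against the package interfaces (all packages enter as hypotheses here,
so that this file builds independently; `Fermat/Agent/S20.lean` plugs in the landed theorems).
-/
import Fermat.Agent.S20.Conj
import Fermat.Agent.S20.Glue
import Fermat.Agent.S20.OrbitsT

set_option autoImplicit false

open CongruenceSubgroup UpperHalfPlane ModularForm
open scoped MatrixGroups Manifold

namespace Fermat.Agent.S20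

/-- The statement of package COUNT (pure arithmetic), as a proposition. -/
def CountCore : Prop :=
  ∀ {ι : Type} [Fintype ι] (wt : ι → ℤ) (_hwt0 : ∀ i, 0 ≤ wt i) (_hev : ∀ i, Even (wt i))
    (f2 f3 κ s2 : ℕ) (ω : ℂ) (_hω : ω ^ 3 = 1) (_hω1 : ω ≠ 1)
    (_hS2 : s2 = ∑ i, Module.finrank ℂ (CuspForm 𝒮ℒ (2 + wt i)))
    (_hMS : ∃ l : ℤ, (∀ i, wt i + 4 ≤ l) ∧ (12 : ℤ) ∣ l ∧
        ∑ i, Module.finrank ℂ (ModularForm 𝒮ℒ (l - wt i))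
          = ∑ i, Module.finrank ℂ (CuspForm 𝒮ℒ (l + wt i)) + κ)
    (_hM0 : ∑ i, Module.finrank ℂ (ModularForm 𝒮ℒ (0 - wt i)) = 1)
    (_hf2 : ∑ i, (-1 : ℂ) ^ (wt i / 2) = f2) (_hf3 : ∑ i, ω ^ (wt i / 2) = f3),
    (s2 : ℚ) = 1 + (Fintype.card ι : ℚ) / 12 - (f2 : ℚ) / 4 - (f3 : ℚ) / 3 - (κ : ℚ) / 2

theorem assemble (N : ℕ) [NeZero N] (CuspGood : Frame N → Prop)
    (hEX : ∃ Φ : Frame N, Φ.Nondeg)
    (hMINH : ∀ Φ : Frame N, Φ.Nondeg → ¬ Φ.GoodOnH →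
      ∃ Φ' : Frame N, Φ'.Nondeg ∧ Φ'.totalWt < Φ.totalWt)
    (hMINC : ∀ Φ : Frame N, Φ.Nondeg → ¬ CuspGood Φ →
      ∃ Φ' : Frame N, Φ'.Nondeg ∧ Φ'.totalWt < Φ.totalWt)
    (hGood : ∀ (P1 P2 : Frame N → Prop), (∃ Φ : Frame N, Φ.Nondeg) →
      (∀ Φ : Frame N, Φ.Nondeg → ¬ P1 Φ → ∃ Φ' : Frame N, Φ'.Nondeg ∧ Φ'.totalWt < Φ.totalWt) →
      (∀ Φ : Frame N, Φ.Nondeg → ¬ P2 Φ → ∃ Φ' : Frame N, Φ'.Nondeg ∧ Φ'.totalWt < Φ.totalWt) →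
      ∃ Φ : Frame N, Φ.Nondeg ∧ P1 Φ ∧ P2 Φ)
    (hnonneg : ∀ Φ : Frame N, Φ.Nondeg → ∀ i, 0 ≤ Φ.wt i)
    (heven : ∀ Φ : Frame N, Φ.Nondeg → ∀ i, Even (Φ.wt i))
    (hM0 : Module.finrank ℂ (ModularForm (G0 N) 0) = 1)
    (hC2 : ∀ Φ : Frame N, Φ.GoodOnH → CuspGood Φ → ∀ {l : ℤ} (F : ModularForm (G0 N) l) (i : Q N),
      IsBoundedAtImInfty (fun z => ∑ q, cj F q z * (Φ.A z)⁻¹ q i))
    (hC3 : ∀ Φ : Frame N, Φ.GoodOnH → CuspGood Φ → ∀ q i : Q N,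
      IsZeroAtImInfty (fun z => ModularForm.discriminant z * (Φ.A z)⁻¹ q i))
    (hC4 : ∀ Φ : Frame N, Φ.GoodOnH → CuspGood Φ → ∀ l : ℤ, (∀ i, Φ.wt i + 4 ≤ l) → Even l →
      Module.finrank ℂ (ModularForm (G0 N) l)
        = Module.finrank ℂ (CuspForm (G0 N) l) + numCusps N)
    (hM : ∀ Φ : Frame N, Φ.GoodOnH →
      (∀ {l : ℤ} (F : ModularForm (G0 N) l) (i : Q N),
        IsBoundedAtImInfty (fun z => ∑ q, cj F q z * (Φ.A z)⁻¹ q i)) → ∀ l : ℤ,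
      Module.finrank ℂ (ModularForm (G0 N) l)
        = ∑ i, Module.finrank ℂ (ModularForm 𝒮ℒ (l - Φ.wt i)))
    (hS : ∀ Φ : Frame N, Φ.GoodOnH →
      (∀ q i : Q N, IsZeroAtImInfty (fun z => ModularForm.discriminant z * (Φ.A z)⁻¹ q i)) →
      ∀ l : ℤ, Module.finrank ℂ (CuspForm (G0 N) l)
        = ∑ i, Module.finrank ℂ (CuspForm 𝒮ℒ (l + Φ.wt i)))
    (ω : ℂ) (hω : ω ^ 3 = 1) (hω1 : ω ≠ 1)
    (hELL2 : ∀ Φ : Frame N, Φ.GoodOnH → (∀ i, Even (Φ.wt i)) →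
      ∑ i, (-1 : ℂ) ^ (Φ.wt i / 2) = (Nat.card {q : Q N // sigma ModularGroup.S • q = q} : ℂ))
    (hELL3 : ∀ Φ : Frame N, Φ.GoodOnH → (∀ i, Even (Φ.wt i)) →
      ∑ i, ω ^ (Φ.wt i / 2)
        = (Nat.card {q : Q N // sigma (ModularGroup.S * ModularGroup.T) • q = q} : ℂ))
    (hCOUNT : CountCore) :
    (Module.finrank ℂ (CuspForm (G0 N) 2) : ℚ) = ModularCurve.genusFormula N := by
  obtain ⟨Φ, hnd, hH, hC⟩ := hGood (fun Φ => Φ.GoodOnH) CuspGood hEX hMINH hMINC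
  have hZ := hC3 Φ hH hC
  have hMl := hM Φ hH (fun {l} F i => hC2 Φ hH hC F i)
  have hSl := hS Φ hH hZ
  -- a large weight divisible by 12
  obtain ⟨l, hl4, hl12⟩ : ∃ l : ℤ, (∀ i, Φ.wt i + 4 ≤ l) ∧ (12 : ℤ) ∣ l := by
    obtain ⟨B, hB⟩ : ∃ B : ℤ, ∀ i, Φ.wt i ≤ B := by
      refine ⟨∑ i, |Φ.wt i|, fun i => ?_⟩
      calc Φ.wt i ≤ |Φ.wt i| := le_abs_self _
        _ ≤ ∑ j, |Φ.wt j| :=
          Finset.single_le_sum (f := fun j => |Φ.wt j|) (fun j _ => abs_nonneg _)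
            (Finset.mem_univ i)
    refine ⟨12 * (|B| + 1), fun i => ?_, dvd_mul_right _ _⟩
    have h1 := hB i
    have h2 := le_abs_self B
    have h3 := abs_nonneg B
    linarith
  have hl_even : Even l := by
    obtain ⟨m, rfl⟩ := hl12
    exact ⟨6 * m, by ring⟩
  have h4 := hC4 Φ hH hC l hl4 hl_even
  rw [hMl l, hSl l] at h4
  have h0 : ∑ i, Module.finrank ℂ (ModularForm 𝒮ℒ (0 - Φ.wt i)) = 1 := by
    rw [← hMl 0, hM0]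
  have key := hCOUNT (ι := Q N) Φ.wt (hnonneg Φ hnd) (heven Φ hnd)
    (Nat.card {q : Q N // sigma ModularGroup.S • q = q})
    (Nat.card {q : Q N // sigma (ModularGroup.S * ModularGroup.T) • q = q})
    (numCusps N) (Module.finrank ℂ (CuspForm (G0 N) 2)) ω hω hω1
    (hSl 2) ⟨l, hl4, hl12, h4⟩ h0 (hELL2 Φ hH (heven Φ hnd)) (hELL3 Φ hH (heven Φ hnd))
  rw [key, card_Q, card_fixed_sigma_S, card_fixed_sigma_ST, numCusps_eq_card_orbits,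
    card_orbits_T, ModularCurve.genusFormula]

end Fermat.Agent.S20
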