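/-
S20, package ELL: for a frame that is good on `ℍ`, evaluation at the elliptic points `i` and `ρ`
gives `∑ i, (-1)^(wt i / 2) = #Fix(S)` and `∑ i, ω^(wt i / 2) = #Fix(S T)`.
-/
import Fermat.Agent.S20.Conj
import Fermat.Agent.S20.Glue

set_option autoImplicit false

open CongruenceSubgroup UpperHalfPlane ModularForm SlashInvariantForm
open scoped MatrixGroups Manifold

namespace Fermat.Agent.S20

variable {N : ℕ} [NeZero N]

/-! ### Linear algebra: a matrix intertwining a permutation with a diagonal matrix -/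

/-- If `A` is invertible and `A i q = c i * A i (σ q)` for a permutation `σ` of the columns,
then the number of fixed points of `σ` is `∑ i, (c i)⁻¹`. -/
theorem ell_trace_perm {ι : Type*} [Fintype ι] [DecidableEq ι] (A : Matrix ι ι ℂ)
    (hA : A.det ≠ 0) (σ : Equiv.Perm ι) (c : ι → ℂ) (hc : ∀ i, c i ≠ 0)
    (h : ∀ i q, A i q = c i * A i (σ q)) :
    ∑ i, (c i)⁻¹ = (Fintype.card {q : ι // σ q = q} : ℂ) := by
  classical
  -- the permutation matrix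
  set P : Matrix ι ι ℂ := Matrix.of (fun r q => if r = σ q then (1 : ℂ) else 0) with hP
  have hPapp : ∀ r q, P r q = if r = σ q then (1 : ℂ) else 0 := fun r q => rfl
  have hAP : A * P = Matrix.diagonal (fun i => (c i)⁻¹) * A := by
    ext i q
    rw [Matrix.mul_apply, Matrix.diagonal_mul]
    simp only [hPapp, mul_ite, mul_one, mul_zero, Finset.sum_ite_eq', Finset.mem_univ, if_true]
    rw [h i q, ← mul_assoc, inv_mul_cancel₀ (hc i), one_mul]
  have hAu : IsUnit A.det := isUnit_iff_ne_zero.mpr hA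
  have hPeq : P = A⁻¹ * (Matrix.diagonal (fun i => (c i)⁻¹) * A) := by
    rw [← hAP, ← Matrix.mul_assoc, Matrix.nonsing_inv_mul _ hAu, Matrix.one_mul]
  have htr : P.trace = ∑ i, (c i)⁻¹ := by
    rw [hPeq, Matrix.trace_mul_comm, Matrix.mul_assoc, Matrix.mul_nonsing_inv _ hAu,
      Matrix.mul_one, Matrix.trace_diagonal]
  rw [← htr, Matrix.trace]
  simp only [Matrix.diag_apply, hPapp]
  rw [Finset.sum_ite, Finset.sum_const_zero, add_zero, Finset.sum_const, nsmul_eq_mul, mul_one,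
    Fintype.card_subtype]
  congr 2
  ext q
  simp [eq_comm]

/-! ### The fixed point formula for a good frame -/

/-- Fixed points of `g⁻¹` and of `g` on `Q N` are the same. -/
theorem ell_card_fixed_inv (g : 𝒮ℒ) :
    Fintype.card {q : Q N // (MulAction.toPerm g⁻¹ : Equiv.Perm (Q N)) q = q} =
      Nat.card {q : Q N // g • q = q} := by
  rw [← Nat.card_eq_fintype_card]
  refine Nat.card_congr (Equiv.subtypeEquivRight fun q => ?_)
  rw [MulAction.toPerm_apply, inv_smul_eq_iff, eq_comm]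

/-- **Fixed point formula.** If `γ` fixes `z₀` and `Φ` is good on `ℍ`, then the number of fixed
points of `γ` on `Q N` is `∑ i, (denom γ z₀)^(-wt i)`. -/
theorem ell_fixed (Φ : Frame N) (hΦ : Φ.GoodOnH) (γ : SL(2, ℤ)) (z₀ : ℍ) (hz : γ • z₀ = z₀) :
    ∑ i, ((denom γ z₀) ^ (Φ.wt i))⁻¹ = (Nat.card {q : Q N // toSL γ • q = q} : ℂ) := by
  have hd : denom γ z₀ ≠ 0 := denom_ne_zero _ z₀
  have key := ell_trace_perm (Φ.A z₀) (hΦ z₀) (MulAction.toPerm (toSL γ)⁻¹ : Equiv.Perm (Q N))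
    (fun i => (denom γ z₀) ^ (Φ.wt i)) (fun i => zpow_ne_zero _ hd) (fun i q => by
      have := Φ.A_smul γ z₀ i q
      rw [hz] at this
      rw [this]
      rfl)
  rw [key, ell_card_fixed_inv]

/-- For a frame that is good on `ℍ` all weights are even (because `-1 ∈ Γ₀(N)`). -/
theorem ell_even_wt (Φ : Frame N) (hΦ : Φ.GoodOnH) (i : Q N) : Even (Φ.wt i) := by
  by_contra hodd
  rw [Int.not_even_iff_odd] at hodd
  apply hΦ UpperHalfPlane.I
  refine Matrix.det_eq_zero_of_row_eq_zero i (fun q => ?_)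
  have h := Φ.A_smul (-1 : SL(2, ℤ)) UpperHalfPlane.I i q
  have hneg : ((-1 : SL(2, ℤ)) • (UpperHalfPlane.I : ℍ)) = UpperHalfPlane.I :=
    ModularGroup.SL_neg_smul 1 _ ▸ one_smul _ _
  have hden : denom ((-1 : SL(2, ℤ))) (UpperHalfPlane.I : ℍ) = -1 := by
    simp [denom]
  have hq : (toSL (-1 : SL(2, ℤ)))⁻¹ • q = q := by
    obtain ⟨δ, rfl⟩ := mkQ_surjective q
    rw [← toSL_inv, smul_mkQ, mkQ_eq_iff]
    have : ((-1 : SL(2, ℤ))⁻¹ * δ)⁻¹ * δ = -1 := by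
      rw [mul_inv_rev, inv_inv, mul_neg, mul_one, neg_mul, inv_mul_cancel]
    rw [this]
    simp [CongruenceSubgroup.Gamma0_mem]
  rw [hneg, hden, hq, hodd.neg_one_zpow] at h
  have h2 : (2 : ℂ) * Φ.A UpperHalfPlane.I i q = 0 := by linear_combination h
  simpa using h2

/-! ### The elliptic point `i` -/

theorem ell_S_smul_I : ModularGroup.S • (UpperHalfPlane.I : ℍ) = UpperHalfPlane.I := by
  rw [UpperHalfPlane.ext_iff, modular_S_smul, UpperHalfPlane.coe_mk, UpperHalfPlane.coe_I,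
    ← Complex.inv_I, inv_inv]

/-- `∑ i, (-1)^(wt i / 2) = #Fix(S)` for a frame that is good on `ℍ`. -/
theorem ell_S (Φ : Frame N) (hΦ : Φ.GoodOnH) :
    ∑ i, (-1 : ℂ) ^ (Φ.wt i / 2) =
      (Nat.card {q : Q N // toSL ModularGroup.S • q = q} : ℂ) := by
  rw [← ell_fixed Φ hΦ ModularGroup.S UpperHalfPlane.I ell_S_smul_I]
  refine Finset.sum_congr rfl fun i _ => ?_
  obtain ⟨m, hm⟩ := ell_even_wt Φ hΦ i
  have h2 : Φ.wt i / 2 = m := by omega
  rw [ModularGroup.denom_S, h2, hm, UpperHalfPlane.coe_I, ← two_mul, zpow_mul, zpow_two,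
    Complex.I_mul_I, ← inv_zpow, inv_neg, inv_one]

/-! ### The elliptic point `ρ` -/

theorem ell_ST_smul_rho : (ModularGroup.S * ModularGroup.T) • (UpperHalfPlane.ρ : ℍ) = ρ := by
  rw [mul_smul, ← ModularGroup.SL_neg_smul ModularGroup.S, ← ModularGroup.S_inv,
    inv_smul_eq_iff, eq_comm, UpperHalfPlane.ext_iff,
    modular_S_smul, modular_T_smul, UpperHalfPlane.coe_mk, coe_vadd,
    ← mul_one (_ : ℂ)⁻¹, inv_mul_eq_iff_eq_mul₀ (neg_ne_zero.mpr ρ.ne_zero)]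
  grind [ρ_sq, Complex.ofReal_one]

theorem ell_denom_ST_rho :
    denom ((ModularGroup.S * ModularGroup.T : SL(2, ℤ)) : GL (Fin 2) ℝ) (UpperHalfPlane.ρ : ℍ) =
      (ρ : ℂ) + 1 := by
  simp [denom, ModularGroup.coe_S, ModularGroup.coe_T, Matrix.mul_apply, Fin.sum_univ_two]

theorem ell_rho_inv : ((ρ : ℍ) : ℂ)⁻¹ = -(ρ : ℂ) - 1 := by
  have h : ((ρ : ℍ) : ℂ) * (-(ρ : ℂ) - 1) = 1 := by linear_combination -ρ_sq
  exact inv_eq_of_mul_eq_one_right h

/-- `∑ i, (ρ⁻¹)^(wt i / 2) = #Fix(S T)` for a frame that is good on `ℍ`. -/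
theorem ell_ST_rho_inv (Φ : Frame N) (hΦ : Φ.GoodOnH) :
    ∑ i, ((ρ : ℍ) : ℂ)⁻¹ ^ (Φ.wt i / 2) =
      (Nat.card {q : Q N // toSL (ModularGroup.S * ModularGroup.T) • q = q} : ℂ) := by
  rw [← ell_fixed Φ hΦ (ModularGroup.S * ModularGroup.T) ρ ell_ST_smul_rho]
  refine Finset.sum_congr rfl fun i _ => ?_
  obtain ⟨m, hm⟩ := ell_even_wt Φ hΦ i
  have h2 : Φ.wt i / 2 = m := by omega
  have hsq : ((ρ : ℂ) + 1) ^ (2 : ℤ) = ρ := by
    rw [zpow_two]; linear_combination ρ_sq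
  rw [ell_denom_ST_rho, h2, hm, ← two_mul, zpow_mul, hsq, inv_zpow]

theorem ell_conj_rho : (starRingEnd ℂ) ((ρ : ℍ) : ℂ) = ((ρ : ℍ) : ℂ)⁻¹ := by
  rw [ell_rho_inv]
  apply Complex.ext <;> simp [ρ]
  ring

/-- `∑ i, ρ^(wt i / 2) = #Fix(S T)` for a frame that is good on `ℍ`. -/
theorem ell_ST_rho (Φ : Frame N) (hΦ : Φ.GoodOnH) :
    ∑ i, ((ρ : ℍ) : ℂ) ^ (Φ.wt i / 2) =
      (Nat.card {q : Q N // toSL (ModularGroup.S * ModularGroup.T) • q = q} : ℂ) := by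
  have h := congrArg (starRingEnd ℂ) (ell_ST_rho_inv Φ hΦ)
  rw [map_sum, map_natCast] at h
  rw [← h]
  refine Finset.sum_congr rfl fun i _ => ?_
  rw [map_zpow₀, map_inv₀, ell_conj_rho, inv_inv]

/-- A primitive cube root of unity is `ρ` or `ρ⁻¹`. -/
theorem ell_cube_root (ω : ℂ) (hω : ω ^ 3 = 1) (hω1 : ω ≠ 1) :
    ω = ((ρ : ℍ) : ℂ) ∨ ω = ((ρ : ℍ) : ℂ)⁻¹ := by
  have h1 : ω ^ 2 + ω + 1 = 0 := by
    have : (ω - 1) * (ω ^ 2 + ω + 1) = 0 := by linear_combination hω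
    rcases mul_eq_zero.mp this with h | h
    · exact absurd (sub_eq_zero.mp h) hω1
    · exact h
  have h2 : (ω - (ρ : ℂ)) * (ω - ((ρ : ℍ) : ℂ)⁻¹) = 0 := by
    rw [ell_rho_inv]
    linear_combination h1 - ρ_sq
  rcases mul_eq_zero.mp h2 with h | h
  · exact Or.inl (sub_eq_zero.mp h)
  · exact Or.inr (sub_eq_zero.mp h)

/-- **ELL at `ρ`**: `∑ i, ω^(wt i / 2) = #Fix(S T)` for every primitive cube root of unity `ω`. -/
theorem ell_ST (Φ : Frame N) (hΦ : Φ.GoodOnH) (ω : ℂ) (hω : ω ^ 3 = 1) (hω1 : ω ≠ 1) :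
    ∑ i, ω ^ (Φ.wt i / 2) =
      (Nat.card {q : Q N // toSL (ModularGroup.S * ModularGroup.T) • q = q} : ℂ) := by
  rcases ell_cube_root ω hω hω1 with rfl | rfl
  · exact ell_ST_rho Φ hΦ
  · exact ell_ST_rho_inv Φ hΦ

/-! ### The same statements with `sigma` of `Glue.lean`, and with `ν₂`, `ν₃` -/

theorem ell_toSL_eq_sigma (g : SL(2, ℤ)) : toSL g = sigma g := rfl

/-- **ELL at `i`** in the form used by `assemble`. -/
theorem ell_sigma_S (Φ : Frame N) (hΦ : Φ.GoodOnH) :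
    ∑ i, (-1 : ℂ) ^ (Φ.wt i / 2) =
      (Nat.card {q : Q N // sigma ModularGroup.S • q = q} : ℂ) :=
  ell_S Φ hΦ

/-- **ELL at `ρ`** in the form used by `assemble`. -/
theorem ell_sigma_ST (Φ : Frame N) (hΦ : Φ.GoodOnH) (ω : ℂ) (hω : ω ^ 3 = 1) (hω1 : ω ≠ 1) :
    ∑ i, ω ^ (Φ.wt i / 2) =
      (Nat.card {q : Q N // sigma (ModularGroup.S * ModularGroup.T) • q = q} : ℂ) :=
  ell_ST Φ hΦ ω hω hω1

theorem ell_nuTwo (Φ : Frame N) (hΦ : Φ.GoodOnH) :
    ∑ i, (-1 : ℂ) ^ (Φ.wt i / 2) = (ModularCurve.nuTwo N : ℂ) := by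
  rw [ell_sigma_S Φ hΦ, card_fixed_sigma_S]

theorem ell_nuThree (Φ : Frame N) (hΦ : Φ.GoodOnH) (ω : ℂ) (hω : ω ^ 3 = 1) (hω1 : ω ≠ 1) :
    ∑ i, ω ^ (Φ.wt i / 2) = (ModularCurve.nuThree N : ℂ) := by
  rw [ell_sigma_ST Φ hΦ ω hω hω1, card_fixed_sigma_ST]

end Fermat.Agent.S20
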