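import Mathlib
import Fermat.Prelude.Def_ModularCurve_GenusNumerics
import Fermat.Agent.S20.Glue
import Fermat.Agent.S20.OrbitsT

/-!
# S20 package BG, last part: `numCusps N = cuspCount N`
-/

set_option autoImplicit false

open CongruenceSubgroup
open scoped MatrixGroups

namespace Fermat.Agent.S20

/-- BG2: the number of cycles of `shift N` on `Q N` is `cuspCount N`. -/
theorem numCusps_eq_cuspCount (N : ℕ) [NeZero N] : numCusps N = ModularCurve.cuspCount N := by
  rw [numCusps_eq_card_orbits, card_orbits_T]

end Fermat.Agent.S20
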