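import Mathlib.NumberTheory.ModularForms.CongruenceSubgroups
import Mathlib.GroupTheory.GroupAction.Quotient
import Mathlib.Data.ZMod.Units

/-!
# `SL(2,ℤ) ⧸ Γ₀(N)` as the projective line over `ℤ/N` (first columns up to units)

Shared infrastructure for the S20 counting packages B1–B4.
-/

open CongruenceSubgroup Matrix
open scoped MatrixGroups

namespace Fermat.Agent.S20

/-- Unimodular pairs over a commutative ring. -/
def IsUni {R : Type*} [CommRing R] (v : R × R) : Prop := ∃ x y : R, x * v.1 + y * v.2 = 1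

/-- Two pairs are proportional by a unit. -/
def UnitProp {R : Type*} [CommRing R] (v w : R × R) : Prop :=
  ∃ u : Rˣ, w.1 = u * v.1 ∧ w.2 = u * v.2

lemma unitProp_of_cross {R : Type*} [CommRing R] {v w : R × R} (hv : IsUni v) (hw : IsUni w)
    (h : v.1 * w.2 = v.2 * w.1) : UnitProp v w := by
  obtain ⟨x, y, hxy⟩ := hv
  obtain ⟨x', y', hxy'⟩ := hw
  have h1 : (x * w.1 + y * w.2) * v.1 = w.1 := by
    have : (x * w.1 + y * w.2) * v.1 = (x * v.1 + y * v.2) * w.1 + y * (v.1 * w.2 - v.2 * w.1) := by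
      ring
    rw [this, hxy, h]; ring
  have h2 : (x * w.1 + y * w.2) * v.2 = w.2 := by
    have : (x * w.1 + y * w.2) * v.2 = (x * v.1 + y * v.2) * w.2 - x * (v.1 * w.2 - v.2 * w.1) := by
      ring
    rw [this, hxy, h]; ring
  have h3 : (x' * v.1 + y' * v.2) * w.1 = v.1 := by
    have : (x' * v.1 + y' * v.2) * w.1
        = (x' * w.1 + y' * w.2) * v.1 - y' * (v.1 * w.2 - v.2 * w.1) := by ring
    rw [this, hxy', h]; ring
  have h4 : (x' * v.1 + y' * v.2) * w.2 = v.2 := by
    have : (x' * v.1 + y' * v.2) * w.2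
        = (x' * w.1 + y' * w.2) * v.2 + x' * (v.1 * w.2 - v.2 * w.1) := by ring
    rw [this, hxy', h]; ring
  have hu : (x * w.1 + y * w.2) * (x' * v.1 + y' * v.2) = 1 := by
    have e : (x * w.1 + y * w.2) * (x' * v.1 + y' * v.2)
        = x' * ((x * w.1 + y * w.2) * v.1) + y' * ((x * w.1 + y * w.2) * v.2) := by ring
    rw [e, h1, h2, hxy']
  refine ⟨⟨x * w.1 + y * w.2, x' * v.1 + y' * v.2, hu, by rw [mul_comm]; exact hu⟩, ?_, ?_⟩
  · exact h1.symm
  · exact h2.symm

lemma cross_of_unitProp {R : Type*} [CommRing R] {v w : R × R} (h : UnitProp v w) :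
    v.1 * w.2 = v.2 * w.1 := by
  obtain ⟨u, h1, h2⟩ := h
  rw [h1, h2]; ring

/-- The first column of `g ∈ SL(2,ℤ)` reduced mod `N`. -/
def col (N : ℕ) (g : SL(2, ℤ)) : ZMod N × ZMod N := ((g 0 0 : ZMod N), (g 1 0 : ZMod N))

lemma isUni_col (N : ℕ) (g : SL(2, ℤ)) : IsUni (col N g) := by
  refine ⟨(g 1 1 : ZMod N), -(g 0 1 : ZMod N), ?_⟩
  have h := g.det_coe
  rw [Matrix.det_fin_two] at h
  have h' : ((g 0 0 * g 1 1 - g 0 1 * g 1 0 : ℤ) : ZMod N) = 1 := by rw [h]; simp
  simp only [col]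
  push_cast at h'
  linear_combination h'

lemma inv_mul_one_zero (g g' : SL(2, ℤ)) :
    (g⁻¹ * g') 1 0 = g 0 0 * g' 1 0 - g 1 0 * g' 0 0 := by
  rw [Matrix.SpecialLinearGroup.coe_mul, Matrix.SpecialLinearGroup.coe_inv,
    Matrix.adjugate_fin_two, Matrix.mul_apply, Fin.sum_univ_two]
  simp
  ring

/-- Two elements of `SL(2,ℤ)` define the same left coset of `Γ₀(N)` iff their first columns
mod `N` are proportional by a unit. -/
theorem coset_eq_iff (N : ℕ) (g g' : SL(2, ℤ)) :
    (g : SL(2, ℤ) ⧸ Gamma0 N) = g' ↔ UnitProp (col N g) (col N g') := by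
  rw [QuotientGroup.eq, Gamma0_mem, inv_mul_one_zero]
  constructor
  · intro h
    apply unitProp_of_cross (isUni_col N g) (isUni_col N g')
    simp only [col]
    push_cast at h
    linear_combination h
  · intro h
    have := cross_of_unitProp h
    simp only [col] at this
    push_cast
    linear_combination this

end Fermat.Agent.S20
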