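import Fermat.Agent.S20.P1Col

/-!
# Every unimodular pair mod `N` is the first column of an element of `SL(2,ℤ)`
-/

open CongruenceSubgroup Matrix
open scoped MatrixGroups

namespace Fermat.Agent.S20

/-- Elementary lifting lemma: if `gcd(a, c, N) = 1` and `c ≠ 0` then `a + t N` is coprime to `c`
for a suitable `t`. -/
lemma exists_coprime_add_mul (a c N : ℕ) (hc : c ≠ 0) (h : Nat.gcd (Nat.gcd a c) N = 1) :
    ∃ t : ℕ, Nat.Coprime (a + t * N) c := by
  classical
  refine ⟨∏ p ∈ c.primeFactors.filter (fun p => ¬ p ∣ a), p, ?_⟩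
  apply Nat.Coprime.symm
  rw [Nat.coprime_iff_gcd_eq_one]
  by_contra hne
  obtain ⟨p, hp, hpd⟩ := Nat.exists_prime_and_dvd hne
  have hpc : p ∣ c := hpd.trans (Nat.gcd_dvd_left _ _)
  have hpa : p ∣ a + (∏ q ∈ c.primeFactors.filter (fun q => ¬ q ∣ a), q) * N :=
    hpd.trans (Nat.gcd_dvd_right _ _)
  by_cases hpa0 : p ∣ a
  · have hpt : p ∣ (∏ q ∈ c.primeFactors.filter (fun q => ¬ q ∣ a), q) * N :=
      (Nat.dvd_add_right hpa0).mp hpa
    have hpN : ¬ p ∣ N := by
      intro hpN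
      have : p ∣ Nat.gcd (Nat.gcd a c) N := Nat.dvd_gcd (Nat.dvd_gcd hpa0 hpc) hpN
      rw [h] at this
      exact hp.one_lt.ne' (Nat.dvd_one.mp this)
    have hpt' : p ∣ ∏ q ∈ c.primeFactors.filter (fun q => ¬ q ∣ a), q :=
      (hp.dvd_mul.mp hpt).resolve_right hpN
    obtain ⟨q, hq, hpq⟩ := (Prime.dvd_finsetProd_iff hp.prime _).mp hpt'
    rw [Finset.mem_filter, Nat.mem_primeFactors] at hq
    have : p = q := (Nat.prime_dvd_prime_iff_eq hp hq.1.1).mp hpq
    exact hq.2 (this ▸ hpa0)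
  · have hpt : p ∣ ∏ q ∈ c.primeFactors.filter (fun q => ¬ q ∣ a), q :=
      Finset.dvd_prod_of_mem _ (by
        rw [Finset.mem_filter, Nat.mem_primeFactors]
        exact ⟨⟨hp, hpc, hc⟩, hpa0⟩)
    exact hpa0 ((Nat.dvd_add_left (hpt.mul_right N)).mp hpa)

/-- Every unimodular pair mod `N` is the first column of an element of `SL(2,ℤ)`. -/
theorem exists_col_eq (N : ℕ) [NeZero N] (v : ZMod N × ZMod N) (hv : IsUni v) :
    ∃ g : SL(2, ℤ), col N g = v := by
  obtain ⟨a, c⟩ := v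
  obtain ⟨x, y, hxy⟩ := hv
  simp only at hxy
  -- natural representatives
  set a0 : ℕ := a.val with ha0
  set c0 : ℕ := if c.val = 0 then N else c.val with hc0
  have hN : N ≠ 0 := NeZero.ne N
  have hc0ne : c0 ≠ 0 := by
    rw [hc0]; split_ifs with h
    · exact hN
    · exact h
  have hacast : (a0 : ZMod N) = a := ZMod.natCast_zmod_val a
  have hccast : (c0 : ZMod N) = c := by
    rw [hc0]; split_ifs with h
    · rw [ZMod.natCast_self]; exact ((ZMod.val_eq_zero c).mp h).symm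
    · exact ZMod.natCast_zmod_val c
  have hgcd : Nat.gcd (Nat.gcd a0 c0) N = 1 := by
    set d := Nat.gcd (Nat.gcd a0 c0) N with hd
    have hda : d ∣ a0 := (Nat.gcd_dvd_left _ _).trans (Nat.gcd_dvd_left _ _)
    have hdc : d ∣ c0 := (Nat.gcd_dvd_left _ _).trans (Nat.gcd_dvd_right _ _)
    have hdN : d ∣ N := Nat.gcd_dvd_right _ _
    obtain ⟨a', ha'⟩ := hda
    obtain ⟨c', hc'⟩ := hdc
    have hunit : IsUnit ((d : ℕ) : ZMod N) := by
      refine IsUnit.of_mul_eq_one (x * (a' : ZMod N) + y * (c' : ZMod N)) ?_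
      have e1 : a = (d : ZMod N) * (a' : ZMod N) := by
        rw [← hacast, ha']; push_cast; ring
      have e2 : c = (d : ZMod N) * (c' : ZMod N) := by
        rw [← hccast, hc']; push_cast; ring
      calc (d : ZMod N) * (x * (a' : ZMod N) + y * (c' : ZMod N))
          = x * ((d : ZMod N) * (a' : ZMod N)) + y * ((d : ZMod N) * (c' : ZMod N)) := by ring
        _ = x * a + y * c := by rw [← e1, ← e2]
        _ = 1 := hxy
    have hcop : Nat.Coprime d N := (ZMod.isUnit_iff_coprime d N).mp hunit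
    exact Nat.Coprime.eq_one_of_dvd hcop hdN
  obtain ⟨t, ht⟩ := exists_coprime_add_mul a0 c0 N hc0ne hgcd
  have hcop : IsCoprime ((a0 + t * N : ℕ) : ℤ) (c0 : ℤ) := Nat.isCoprime_iff_coprime.mpr ht
  obtain ⟨u, w, huw⟩ := hcop
  refine ⟨⟨!![((a0 + t * N : ℕ) : ℤ), -w; (c0 : ℤ), u], ?_⟩, ?_⟩
  · rw [Matrix.det_fin_two_of]; linear_combination huw
  · simp only [col]
    ext
    · simp only [Matrix.of_apply, Matrix.cons_val', Matrix.cons_val_zero,
        Matrix.cons_val_fin_one]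
      push_cast
      rw [hacast, ZMod.natCast_self]; ring
    · simp only [Matrix.of_apply, Matrix.cons_val', Matrix.cons_val_zero,
        Matrix.cons_val_one, Matrix.cons_val_fin_one]
      push_cast
      exact hccast

end Fermat.Agent.S20
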