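import Mathlib
import Fermat.Prelude.Def_ModularForm_HeckeOperator

/-!
# S20 package D: a primitive element for `Γ₀(N)` in `SL(2, ℤ)`

`F_N := E₄ ∣[4] diag(N, 1)` (so `F_N(z) = N³ E₄(N z)`) is a modular form of weight 4 on `Γ₀(N)`
and `F_N ∣[4] γ ≠ F_N` for every `γ ∈ SL(2, ℤ)` outside `Γ₀(N)`: the value at `i∞` of `F_N ∣[4] γ`
is `N³ / D⁴` with `D = N / gcd(N, γ₁₀)`.
-/

set_option autoImplicit false

noncomputable section

namespace Fermat.Agent.S20.Primitive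

open UpperHalfPlane ModularForm CongruenceSubgroup Matrix Filter Topology
open scoped MatrixGroups ModularForm Pointwise

/-- A modular form of level one tends to the constant term of its `q`-expansion at `i∞`. -/
theorem tendsto_atImInfty_of_levelOne {k : ℤ} (f : ModularForm 𝒮ℒ k) :
    Tendsto (⇑f) atImInfty (𝓝 ((qExpansion 1 f).coeff 0)) := by
  have h1 : (1 : ℝ) ∈ (𝒮ℒ : Subgroup (GL (Fin 2) ℝ)).strictPeriods := by
    simp [Subgroup.strictPeriods_SL2Z]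
  have han := ModularFormClass.analyticAt_cuspFunction_zero f one_pos h1
  have hper := SlashInvariantFormClass.periodic_comp_ofComplex f h1
  have hcomp : (cuspFunction 1 f ∘ fun τ : ℍ ↦ Function.Periodic.qParam 1 τ : ℍ → ℂ) = f := by
    funext τ
    simpa using eq_cuspFunction τ one_ne_zero hper
  have := han.continuousAt.tendsto.comp (qParam_tendsto_atImInfty one_pos)
  rw [hcomp] at this
  simpa [qExpansion_coeff] using this

theorem tendsto_E4_atImInfty : Tendsto (⇑E₄) atImInfty (𝓝 1) := by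
  have := tendsto_atImInfty_of_levelOne E₄
  rwa [EisensteinSeries.E_qExpansion_coeff_zero (by norm_num) (by decide)] at this

/-- Integer decomposition data: for `γ = !![a, b; c, d] ∈ SL(2, ℤ)` and `N ≠ 0`,
with `g = gcd(N, c)`, there are integers `x y u v B D` with
`x v - u y = 1`, `x g = N a`, `y g = c`, `D g = N`, `x B + u D = N b`, `y B + v D = d`,
i.e. `!![N a, N b; c, d] = !![x, u; y, v] * !![g, B; 0, D]`. -/
theorem exists_decomp_int (N : ℕ) (hN : N ≠ 0) (a b c d : ℤ) (hdet : a * d - b * c = 1) :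
    ∃ x y u v B D : ℤ, x * v - u * y = 1 ∧ x * (Int.gcd N c : ℤ) = N * a ∧
      y * (Int.gcd N c : ℤ) = c ∧ D * (Int.gcd N c : ℤ) = N ∧ 0 < D ∧
      x * B + u * D = N * b ∧ y * B + v * D = d := by
  have hgnat : Int.gcd (N : ℤ) c ≠ 0 := by
    intro h
    rw [Int.gcd_eq_zero_iff] at h
    exact hN (by exact_mod_cast h.1)
  generalize hg : ((Int.gcd (N : ℤ) c : ℕ) : ℤ) = g
  have hg0 : g ≠ 0 := by rw [← hg]; exact_mod_cast hgnat
  have hgpos : 0 < g := by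
    rw [← hg]; exact_mod_cast Nat.pos_of_ne_zero hgnat
  obtain ⟨D, hD⟩ : g ∣ (N : ℤ) := hg ▸ Int.gcd_dvd_left _ _
  obtain ⟨y, hy⟩ : g ∣ c := hg ▸ Int.gcd_dvd_right _ _
  have hbez : g = N * Int.gcdA N c + c * Int.gcdB N c := hg ▸ Int.gcd_eq_gcd_ab N c
  have h1 : D * Int.gcdA N c + y * Int.gcdB N c = 1 := by
    have : g * (D * Int.gcdA N c + y * Int.gcdB N c) = g * 1 := by
      calc g * (D * Int.gcdA N c + y * Int.gcdB N c)
          = (g * D) * Int.gcdA N c + (g * y) * Int.gcdB N c := by ring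
        _ = g * 1 := by rw [← hD, ← hy, ← hbez, mul_one]
    exact mul_left_cancel₀ hg0 this
  have hDpos : 0 < D := by
    have hNpos : (0 : ℤ) < N := by exact_mod_cast Nat.pos_of_ne_zero hN
    rw [hD] at hNpos
    by_contra hneg
    rw [not_lt] at hneg
    nlinarith
  have hDd : D = D * a * d - y * N * b := by
    have : (D * a * d - y * N * b) * g = N * (a * d - b * c) := by
      rw [hy, hD]; ring
    rw [hdet, mul_one] at this
    have h2 : D * g = N := by rw [hD]; ring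
    exact mul_right_cancel₀ hg0 (h2.trans this.symm)
  -- Bezout for (D*a, y): 1 = (D*p + y*q) * (a*d - b*c) with c = g*y
  set p := Int.gcdA N c
  set q := Int.gcdB N c
  -- s * (D*a) + t * y = 1 where s = p*d, t = q*a*d - ... ; we just compute
  have hst : (p * d) * (D * a) + (q * a * d - b * g) * y = 1 := by
    have : (p * d) * (D * a) + (q * a * d - b * g) * y
        = (D * p + y * q) * (a * d) - b * (g * y) := by ring
    rw [this, h1, ← hy]; linarith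
  refine ⟨D * a, y, -(q * a * d - b * g), p * d, (p * d) * N * b + (q * a * d - b * g) * d, D,
    by linarith, by rw [hD]; ring, by rw [hy]; ring, by rw [hD]; ring, hDpos, ?_, ?_⟩
  · have : D * a * ((p * d) * N * b + (q * a * d - b * g) * d) + -(q * a * d - b * g) * D =
        N * b * ((p * d) * (D * a) + (q * a * d - b * g) * y) +
        (q * a * d - b * g) * (D * a * d - y * N * b - D) := by ring
    rw [this, hst, ← hDd]; ring
  · have : y * ((p * d) * N * b + (q * a * d - b * g) * d) + (p * d) * D =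
        d * ((p * d) * (D * a) + (q * a * d - b * g) * y) +
        (p * d) * (D - (D * a * d - y * N * b)) := by ring
    rw [this, hst, ← hDd]; ring

theorem det_upperTriangularGL (A B D : ℝ) (h : A * D ≠ 0) :
    ((upperTriangularGL A B D h).det : ℝ) = A * D := by
  rw [Matrix.GeneralLinearGroup.val_det_apply, val_upperTriangularGL, Matrix.det_fin_two_of]
  ring

theorem σ_upperTriangularGL (A B D : ℝ) (h : A * D ≠ 0) (hpos : 0 < A * D) :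
    UpperHalfPlane.σ (upperTriangularGL A B D h) = .refl ℝ ℂ := by
  rw [UpperHalfPlane.σ, if_pos (by rw [det_upperTriangularGL]; exact hpos)]

theorem denom_upperTriangularGL (A B D : ℝ) (h : A * D ≠ 0) (τ : ℍ) :
    UpperHalfPlane.denom (upperTriangularGL A B D h) τ = D := by
  simp [UpperHalfPlane.denom, val_upperTriangularGL]

theorem slash_upperTriangularGL_apply (k : ℤ) (A B D : ℝ) (h : A * D ≠ 0) (hpos : 0 < A * D)
    (f : ℍ → ℂ) (τ : ℍ) :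
    (f ∣[k] upperTriangularGL A B D h) τ =
      f (upperTriangularGL A B D h • τ) * ((A * D : ℝ) : ℂ) ^ (k - 1) * (D : ℂ) ^ (-k) := by
  rw [ModularForm.slash_apply, σ_upperTriangularGL A B D h hpos, det_upperTriangularGL,
    denom_upperTriangularGL]
  simp only [ContinuousAlgEquiv.refl_apply, abs_of_pos hpos]

theorem tendsto_slash_upperTriangularGL (k : ℤ) (A B D : ℝ) (h : A * D ≠ 0) (hpos : 0 < A * D)
    {f : ℍ → ℂ} {L : ℂ} (hf : Tendsto f atImInfty (𝓝 L)) :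
    Tendsto (f ∣[k] upperTriangularGL A B D h) atImInfty
      (𝓝 (L * ((A * D : ℝ) : ℂ) ^ (k - 1) * (D : ℂ) ^ (-k))) := by
  have h10 : (upperTriangularGL A B D h : GL (Fin 2) ℝ) 1 0 = 0 := by
    simp [val_upperTriangularGL]
  have h1 : Tendsto (fun τ : ℍ => f (upperTriangularGL A B D h • τ)) atImInfty (𝓝 L) :=
    hf.comp (tendsto_smul_atImInfty h10)
  have h2 := (h1.mul_const (((A * D : ℝ) : ℂ) ^ (k - 1))).mul_const ((D : ℂ) ^ (-k))
  refine h2.congr fun τ => ?_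
  rw [slash_upperTriangularGL_apply k A B D h hpos]

theorem exists_decomp_GL (N : ℕ) (hN : N ≠ 0) (γ : SL(2, ℤ)) :
    ∃ (δ : SL(2, ℤ)) (B : ℝ) (D : ℕ) (h : ((Int.gcd N (γ 1 0) : ℕ) : ℝ) * (D : ℝ) ≠ 0),
      0 < D ∧ D * Int.gcd N (γ 1 0) = N ∧
      heckeDiagMatrix N * (Matrix.SpecialLinearGroup.mapGL ℝ γ) =
        Matrix.SpecialLinearGroup.mapGL ℝ δ *
          upperTriangularGL ((Int.gcd N (γ 1 0) : ℕ) : ℝ) B D h := by
  have hdet : γ 0 0 * γ 1 1 - γ 0 1 * γ 1 0 = 1 := by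
    have := γ.det_coe
    rw [Matrix.det_fin_two] at this
    linarith
  obtain ⟨x, y, u, v, B, D, h1, h2, h3, h4, h5, h6, h7⟩ :=
    exists_decomp_int N hN (γ 0 0) (γ 0 1) (γ 1 0) (γ 1 1) hdet
  lift D to ℕ using h5.le
  have hDpos : 0 < D := by exact_mod_cast h5
  have hg : (Int.gcd N (γ 1 0) : ℕ) ≠ 0 := by
    intro h
    rw [Int.gcd_eq_zero_iff] at h
    exact hN (by exact_mod_cast h.1)
  have hne : ((Int.gcd N (γ 1 0) : ℕ) : ℝ) * (D : ℝ) ≠ 0 :=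
    mul_ne_zero (by exact_mod_cast hg) (by exact_mod_cast hDpos.ne')
  obtain ⟨δ, hδ⟩ : ∃ δ : SL(2, ℤ), (δ : Matrix (Fin 2) (Fin 2) ℤ) = !![x, u; y, v] :=
    ⟨⟨!![x, u; y, v], by rw [Matrix.det_fin_two_of]; linarith⟩, rfl⟩
  have d00 : δ 0 0 = x := by rw [hδ]; rfl
  have d01 : δ 0 1 = u := by rw [hδ]; rfl
  have d10 : δ 1 0 = y := by rw [hδ]; rfl
  have d11 : δ 1 1 = v := by rw [hδ]; rfl
  refine ⟨δ, (B : ℝ), D, hne, hDpos, by exact_mod_cast h4, ?_⟩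
  apply Matrix.GeneralLinearGroup.ext
  intro i j
  have e2 : (x : ℝ) * ((Int.gcd N (γ 1 0) : ℕ) : ℝ) = N * (γ 0 0 : ℝ) := by exact_mod_cast h2
  have e3 : (y : ℝ) * ((Int.gcd N (γ 1 0) : ℕ) : ℝ) = (γ 1 0 : ℝ) := by exact_mod_cast h3
  have e6 : (x : ℝ) * B + u * (D : ℝ) = N * (γ 0 1 : ℝ) := by exact_mod_cast h6
  have e7 : (y : ℝ) * B + v * (D : ℝ) = (γ 1 1 : ℝ) := by exact_mod_cast h7
  fin_cases i <;> fin_cases j <;>
    simp [Matrix.mul_apply, Fin.sum_univ_two, val_heckeDiagMatrix hN, val_upperTriangularGL,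
      SpecialLinearGroup.mapGL_coe_matrix, SpecialLinearGroup.map_apply_coe,
      d00, d01, d10, d11] <;>
    linarith

/-- `Γ₀(N)` is contained in the conjugate `α⁻¹ SL(2,ℤ) α`, `α = diag(N, 1)`. -/
theorem Gamma0_le_conj (N : ℕ) [NeZero N] :
    ((Gamma0 N : Subgroup SL(2, ℤ)).map (Matrix.SpecialLinearGroup.mapGL ℝ)) ≤
      ConjAct.toConjAct (heckeDiagMatrix N)⁻¹ • (𝒮ℒ : Subgroup (GL (Fin 2) ℝ)) := by
  rintro _ ⟨γ, hγ, rfl⟩
  rw [map_inv, Subgroup.mem_inv_pointwise_smul_iff, ConjAct.toConjAct_smul]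
  have hN : N ≠ 0 := NeZero.ne N
  rw [SetLike.mem_coe, Gamma0_mem, ZMod.intCast_zmod_eq_zero_iff_dvd] at hγ
  obtain ⟨c', hc'⟩ := hγ
  have hdet : γ 0 0 * γ 1 1 - γ 0 1 * γ 1 0 = 1 := by
    have := γ.det_coe
    rw [Matrix.det_fin_two] at this
    linarith
  obtain ⟨δ, hδ⟩ : ∃ δ : SL(2, ℤ), (δ : Matrix (Fin 2) (Fin 2) ℤ) =
      !![γ 0 0, N * γ 0 1; c', γ 1 1] :=
    ⟨⟨!![γ 0 0, N * γ 0 1; c', γ 1 1], by
      rw [Matrix.det_fin_two_of]; rw [hc'] at hdet; linarith⟩, rfl⟩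
  have d00 : δ 0 0 = γ 0 0 := by rw [hδ]; rfl
  have d01 : δ 0 1 = N * γ 0 1 := by rw [hδ]; rfl
  have d10 : δ 1 0 = c' := by rw [hδ]; rfl
  have d11 : δ 1 1 = γ 1 1 := by rw [hδ]; rfl
  refine ⟨δ, ?_⟩
  rw [eq_mul_inv_iff_mul_eq]
  apply Matrix.GeneralLinearGroup.ext
  intro i j
  have e : ((γ 1 0 : ℤ) : ℝ) = N * (c' : ℝ) := by exact_mod_cast hc'
  fin_cases i <;> fin_cases j <;>
    simp [Matrix.mul_apply, Fin.sum_univ_two, val_heckeDiagMatrix hN,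
      SpecialLinearGroup.mapGL_coe_matrix, SpecialLinearGroup.map_apply_coe,
      d00, d01, d10, d11, e] <;> ring

/-- The form `F_N = E₄ ∣[4] diag(N, 1)` (`F_N(z) = N³ E₄(N z)`) as a modular form on `Γ₀(N)`. -/
def levelForm (N : ℕ) [NeZero N] : ModularForm (Gamma0 N) 4 where
  toFun := ⇑E₄ ∣[(4 : ℤ)] heckeDiagMatrix N
  slash_action_eq' γ hγ :=
    (ModularForm.translate E₄ (heckeDiagMatrix N)).slash_action_eq' γ (Gamma0_le_conj N hγ)
  holo' := (ModularForm.translate E₄ (heckeDiagMatrix N)).holo'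
  bdd_at_cusps' hc :=
    (ModularForm.translate E₄ (heckeDiagMatrix N)).bdd_at_cusps' (hc.mono (Gamma0_le_conj N))

theorem coe_levelForm (N : ℕ) [NeZero N] :
    ⇑(levelForm N) = ⇑E₄ ∣[(4 : ℤ)] heckeDiagMatrix N := rfl

/-- The value at `i∞` of `(E₄ ∣[4] diag(N,1)) ∣[4] γ` is `N³ / D⁴`, `D = N / gcd(N, γ₁₀)`. -/
theorem tendsto_E4_slash_diag_slash (N : ℕ) (hN : N ≠ 0) (γ : SL(2, ℤ)) :
    ∃ D : ℕ, 0 < D ∧ D * Int.gcd N (γ 1 0) = N ∧
      Tendsto ((⇑E₄ ∣[(4 : ℤ)] heckeDiagMatrix N) ∣[(4 : ℤ)] γ) atImInfty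
        (𝓝 ((N : ℂ) ^ 3 / (D : ℂ) ^ 4)) := by
  obtain ⟨δ, B, D, h, hD, hDg, hdec⟩ := exists_decomp_GL N hN γ
  refine ⟨D, hD, hDg, ?_⟩
  have hpos : (0 : ℝ) < ((Int.gcd N (γ 1 0) : ℕ) : ℝ) * (D : ℝ) := by
    have h1 : (0 : ℝ) ≤ ((Int.gcd N (γ 1 0) : ℕ) : ℝ) * (D : ℝ) := by positivity
    exact lt_of_le_of_ne h1 (Ne.symm h)
  have hfun : ((⇑E₄ ∣[(4 : ℤ)] heckeDiagMatrix N) ∣[(4 : ℤ)] γ) =
      ⇑E₄ ∣[(4 : ℤ)] upperTriangularGL ((Int.gcd N (γ 1 0) : ℕ) : ℝ) B D h := by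
    have h1 : ((⇑E₄ ∣[(4 : ℤ)] heckeDiagMatrix N) ∣[(4 : ℤ)] γ) =
        ⇑E₄ ∣[(4 : ℤ)] (heckeDiagMatrix N * Matrix.SpecialLinearGroup.mapGL ℝ γ) := by
      rw [SlashAction.slash_mul]; rfl
    rw [h1, hdec, SlashAction.slash_mul]
    congr 1
    exact SlashInvariantFormClass.slash_action_eq E₄ _ ⟨δ, rfl⟩
  rw [hfun]
  have := tendsto_slash_upperTriangularGL 4 ((Int.gcd N (γ 1 0) : ℕ) : ℝ) B D h hpos
    tendsto_E4_atImInfty
  have hval : (1 : ℂ) * (((((Int.gcd N (γ 1 0) : ℕ) : ℝ) * (D : ℝ) : ℝ)) : ℂ) ^ ((4 : ℤ) - 1) *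
      ((D : ℝ) : ℂ) ^ (-(4 : ℤ)) = (N : ℂ) ^ 3 / (D : ℂ) ^ 4 := by
    have hN' : ((((Int.gcd N (γ 1 0) : ℕ) : ℝ) * (D : ℝ) : ℝ) : ℂ) = (N : ℂ) := by
      have : (((D * Int.gcd N (γ 1 0) : ℕ) : ℝ)) = (N : ℝ) := by rw [hDg]
      push_cast at this ⊢
      rw [mul_comm]
      exact_mod_cast this
    rw [hN', one_mul]
    norm_num
    rw [div_eq_mul_inv]
  rwa [hval] at this

/-- The form `F_N = E₄ ∣[4] diag(N, 1)` tends to `N³` at `i∞`. -/
theorem tendsto_E4_slash_diag (N : ℕ) (hN : N ≠ 0) :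
    Tendsto (⇑E₄ ∣[(4 : ℤ)] heckeDiagMatrix N) atImInfty (𝓝 ((N : ℂ) ^ 3)) := by
  obtain ⟨D, hD, hDg, h⟩ := tendsto_E4_slash_diag_slash N hN 1
  have h10 : ((1 : SL(2, ℤ)) : Matrix (Fin 2) (Fin 2) ℤ) 1 0 = 0 := by simp
  rw [h10, Int.gcd_zero_right, Int.natAbs_natCast] at hDg
  have hD1 : D = 1 := by
    have : D * N = 1 * N := by rw [hDg, one_mul]
    exact Nat.eq_of_mul_eq_mul_right (Nat.pos_of_ne_zero hN) this
  subst hD1
  have h1 : ((⇑E₄ ∣[(4 : ℤ)] heckeDiagMatrix N) ∣[(4 : ℤ)] (1 : SL(2, ℤ))) =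
      (⇑E₄ ∣[(4 : ℤ)] heckeDiagMatrix N) := by
    rw [SL_slash]; simp
  rw [h1] at h
  simpa using h

/-- **Primitive element, key property**: if `(E₄ ∣[4] diag(N,1)) ∣[4] γ = E₄ ∣[4] diag(N,1)`
for `γ ∈ SL(2, ℤ)`, then `γ ∈ Γ₀(N)`. -/
theorem mem_Gamma0_of_slash_eq (N : ℕ) (hN : N ≠ 0) (γ : SL(2, ℤ))
    (h : ((⇑E₄ ∣[(4 : ℤ)] heckeDiagMatrix N) ∣[(4 : ℤ)] γ) =
      (⇑E₄ ∣[(4 : ℤ)] heckeDiagMatrix N)) : γ ∈ Gamma0 N := by
  obtain ⟨D, hD, hDg, hlim⟩ := tendsto_E4_slash_diag_slash N hN γ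
  rw [h] at hlim
  have heq := tendsto_nhds_unique hlim (tendsto_E4_slash_diag N hN)
  have hNC : (N : ℂ) ≠ 0 := by exact_mod_cast hN
  have hDC : (D : ℂ) ≠ 0 := by exact_mod_cast hD.ne'
  have hD4 : (D : ℂ) ^ 4 = 1 := by
    have h3 : (N : ℂ) ^ 3 ≠ 0 := pow_ne_zero _ hNC
    have h4 : (D : ℂ) ^ 4 ≠ 0 := pow_ne_zero _ hDC
    rw [div_eq_iff h4] at heq
    have : (N : ℂ) ^ 3 * 1 = (N : ℂ) ^ 3 * (D : ℂ) ^ 4 := by rw [mul_one]; exact heq
    exact (mul_left_cancel₀ h3 this).symm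
  have hD1 : D = 1 := by
    have : D ^ 4 = 1 := by exact_mod_cast hD4
    exact (Nat.pow_eq_one.mp this).resolve_right (by norm_num)
  subst hD1
  rw [one_mul] at hDg
  rw [Gamma0_mem, ZMod.intCast_zmod_eq_zero_iff_dvd]
  have := Int.gcd_dvd_right (N : ℤ) (γ 1 0)
  rwa [hDg] at this

/-- **S20 package D (primitive element).** `F_N := E₄ ∣[4] diag(N, 1)` is a modular form of
weight `4` on `Γ₀(N)` which is fixed by no `γ ∈ SL(2, ℤ)` outside `Γ₀(N)`. -/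
theorem levelForm_slash_ne (N : ℕ) [NeZero N] (γ : SL(2, ℤ)) (hγ : γ ∉ Gamma0 N) :
    (⇑(levelForm N) ∣[(4 : ℤ)] γ) ≠ ⇑(levelForm N) := fun h =>
  hγ (mem_Gamma0_of_slash_eq N (NeZero.ne N) γ h)

/-- Translates of `F_N` by `γ, γ' ∈ SL(2, ℤ)` coincide only if `γ γ'⁻¹ ∈ Γ₀(N)`, i.e. the
translates `F_N ∣[4] γ` are pairwise distinct on the right cosets `Γ₀(N) \ SL(2, ℤ)`. -/
theorem mul_inv_mem_Gamma0_of_slash_eq (N : ℕ) [NeZero N] (γ γ' : SL(2, ℤ))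
    (h : (⇑(levelForm N) ∣[(4 : ℤ)] γ) = (⇑(levelForm N) ∣[(4 : ℤ)] γ')) :
    γ * γ'⁻¹ ∈ Gamma0 N := by
  apply mem_Gamma0_of_slash_eq N (NeZero.ne N)
  have h1 : (⇑(levelForm N) ∣[(4 : ℤ)] (γ * γ'⁻¹)) =
      ((⇑(levelForm N) ∣[(4 : ℤ)] γ') ∣[(4 : ℤ)] γ'⁻¹) := by
    rw [SlashAction.slash_mul, h]
  rw [← SlashAction.slash_mul, mul_inv_cancel, SlashAction.slash_one] at h1
  exact h1

/-- **S20 package D**, existential form. -/
theorem exists_primitive (N : ℕ) [NeZero N] :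
    ∃ (k : ℤ) (F : ModularForm (Gamma0 N) k),
      ∀ γ : SL(2, ℤ), γ ∉ Gamma0 N → (⇑F ∣[k] γ) ≠ ⇑F :=
  ⟨4, levelForm N, levelForm_slash_ne N⟩

/-- The value at `i∞` of `F_N ∣[4] γ` is `N³ / D⁴` with `D = N / gcd(N, γ₁₀)`; in particular it
is `N³` iff `γ ∈ Γ₀(N)`. -/
theorem tendsto_levelForm_slash (N : ℕ) [NeZero N] (γ : SL(2, ℤ)) :
    ∃ D : ℕ, 0 < D ∧ D * Int.gcd N (γ 1 0) = N ∧
      Tendsto (⇑(levelForm N) ∣[(4 : ℤ)] γ) atImInfty (𝓝 ((N : ℂ) ^ 3 / (D : ℂ) ^ 4)) :=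
  tendsto_E4_slash_diag_slash N (NeZero.ne N) γ

end Fermat.Agent.S20.Primitive
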