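/-
S20, package TRP (helper32): transfer of vanishing along level-one forms, and traces of
`F^n * G`, in the exact form requested by helper82.  Thin wrappers around helper83's
`minH_transfer` / `trace_pow_mul_apply`.
-/
import Fermat.Agent.S20.MinHDiv

set_option autoImplicit false
set_option linter.unusedSectionVars false

open CongruenceSubgroup UpperHalfPlane ModularForm SlashInvariantForm Filter Topology
open scoped MatrixGroups Manifold

namespace Fermat.Agent.S20

variable {N : ℕ} [NeZero N]

/-- If all conjugates of `F` vanish at `z0`, and every level-one form vanishing at `z0` vanishes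
at `z`, then all conjugates of `F` vanish at `z`. -/
theorem cj_vanish_of_vanish_at {K : ℤ} (F : ModularForm (G0 N) K) (z0 z : ℍ)
    (h0 : ∀ q, cj F q z0 = 0)
    (hz : ∀ (w : ℤ) (r : ModularForm 𝒮ℒ w), r z0 = 0 → r z = 0) : ∀ q, cj F q z = 0 :=
  fun q => minH_transfer F z0 z hz h0 q

/-- The mixed power sums `Σ_q (F_q)^n G_q` are level-one modular forms of weight `n K + K'`. -/
theorem trace_mul_pow_apply {K K' : ℤ} (F : ModularForm (G0 N) K) (G : ModularForm (G0 N) K')
    (n : ℕ) :
    ∃ r : ModularForm 𝒮ℒ (n * K + K'), ∀ z, r z = ∑ q, (cj F q z) ^ n * cj G q z :=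
  ⟨ModularForm.trace 𝒮ℒ ((F.pow n).mul G), fun z => trace_pow_mul_apply F G n z⟩

/-- The pure power sums `Σ_q (F_q)^n` are level-one modular forms of weight `n K`. -/
theorem trace_pow_exists {K : ℤ} (F : ModularForm (G0 N) K) (n : ℕ) :
    ∃ r : ModularForm 𝒮ℒ (n * K), ∀ z, r z = ∑ q, (cj F q z) ^ n :=
  ⟨ModularForm.trace 𝒮ℒ (F.pow n), fun z => trace_pow_apply F n z⟩

end Fermat.Agent.S20
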